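/-
S48 wall (W), block G-RED, seat G-IGUSA: the ABSTRACT Dedekind argument (pure algebra, Mathlib
only).  Sub-architect: helper59.  DEFINITIONS ONLY.  FIXED.

Setting (`Mathlib/RingTheory/Invariant/Basic.lean`, `IsFractionRing.stabilizerHom_surjective`,
`Mathlib/RingTheory/Invariant/Galois.lean`, `Ideal.IsFractionRing.normal`): a finite group `G`
acts on a ring `B` with ring of invariants `A₀` (`Algebra.IsInvariant A₀ B G`), `Q` a prime of `B`
over `P` of `A₀`, `K = Frac (A₀ / P)`, `L = Frac (B / Q)`.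
In the application: `B` = modular functions of level `m`, holomorphic on `ℍ`, with `A`-integral
expansions at ALL cusps, `G` = a finite quotient of `SL₂(ℤ)`, `A₀ = A[j]`,
`Q` = the functions whose expansion at `∞` is `≡ 0` modulo `𝔪_A`, `P = 𝔪_A [j]`, `K = k(j̄)`,
`L ⊆ k((u))`.

* `DistinctRed G Q y H` : `H` fixes the family `y`, and the conjugates of `y` on different cosets of
  `H` are different modulo `Q`;
* `redGen Q L y` : the reductions of the `y i`, in `L`;
* `StabTopStatement` (IG-ALG-1): if `t ∈ G` stabilises `Q`, the conjugates of `t` generate `G`,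
  `(y, H)` has distinct reductions, `K(ȳ) / K` is separable of degree `≥ [G : H]`, and `h t h⁻¹`
  acts as a power of `t` for `h ∈ H`, then EVERY `g ∈ G` stabilises `Q`;
* `DegreeStatement` (IG-ALG-2): if every `g` stabilises `Q` and `(y, H)` has distinct reductions,
  then `K(ȳ) / K` is separable of degree `≥ [G : H]`.
-/
import Mathlib

set_option autoImplicit false

namespace Fermat.Agent.S48WG

open Polynomial

section

variable {B : Type} [CommRing B] (G : Type) [Group G] [MulSemiringAction G B] (Q : Ideal B)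

/-- `H` fixes the `y i`, and the conjugates of the family `y` on different cosets of `H` are
different modulo `Q`. -/
def DistinctRed {ι : Type} (y : ι → B) (H : Subgroup G) : Prop :=
  (∀ h ∈ H, ∀ i, h • y i = y i) ∧
    ∀ g g' : G, (∀ i, g • y i - g' • y i ∈ Q) → g⁻¹ * g' ∈ H

/-- the reductions of the `y i` modulo `Q`, in a fraction field `L` of `B / Q`. -/
def redGen (L : Type) [Field L] [Algebra (B ⧸ Q) L] {ι : Type} (y : ι → B) : Set L :=
  Set.range fun i => algebraMap (B ⧸ Q) L (Ideal.Quotient.mk Q (y i))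

end

/-- **IG-ALG-1**: the decomposition group of `Q` is everything. -/
def StabTopStatement : Prop :=
  ∀ (A₀ B : Type) [CommRing A₀] [CommRing B] [Algebra A₀ B]
    (G : Type) [Group G] [Finite G] [MulSemiringAction G B] [SMulCommClass G A₀ B]
    [Algebra.IsInvariant A₀ B G]
    (P : Ideal A₀) (Q : Ideal B) [Q.IsPrime] [Q.LiesOver P]
    (K L : Type) [Field K] [Field L] [Algebra (A₀ ⧸ P) K] [Algebra (B ⧸ Q) L]
    [Algebra (A₀ ⧸ P) L] [IsScalarTower (A₀ ⧸ P) (B ⧸ Q) L] [Algebra K L]
    [IsScalarTower (A₀ ⧸ P) K L] [IsFractionRing (A₀ ⧸ P) K] [IsFractionRing (B ⧸ Q) L]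
    (t : G) (ι : Type) [Finite ι] (y : ι → B) (H : Subgroup G),
    (∀ b ∈ Q, t • b ∈ Q) →
    Subgroup.normalClosure {t} = ⊤ →
    DistinctRed G Q y H →
    Algebra.IsSeparable K ↥(IntermediateField.adjoin K (redGen Q L y)) →
    H.index ≤ Module.finrank K ↥(IntermediateField.adjoin K (redGen Q L y)) →
    (∀ h ∈ H, ∃ n : ℤ, ∀ b : B, (h * t * h⁻¹) • b = t ^ n • b) →
    ∀ (g : G), ∀ b ∈ Q, g • b ∈ Q

/-- **IG-ALG-2**: the degree of the reductions of a family with distinct conjugates. -/
def DegreeStatement : Prop :=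
  ∀ (A₀ B : Type) [CommRing A₀] [CommRing B] [Algebra A₀ B]
    (G : Type) [Group G] [Finite G] [MulSemiringAction G B] [SMulCommClass G A₀ B]
    [Algebra.IsInvariant A₀ B G]
    (P : Ideal A₀) (Q : Ideal B) [Q.IsPrime] [Q.LiesOver P]
    (K L : Type) [Field K] [Field L] [Algebra (A₀ ⧸ P) K] [Algebra (B ⧸ Q) L]
    [Algebra (A₀ ⧸ P) L] [IsScalarTower (A₀ ⧸ P) (B ⧸ Q) L] [Algebra K L]
    [IsScalarTower (A₀ ⧸ P) K L] [IsFractionRing (A₀ ⧸ P) K] [IsFractionRing (B ⧸ Q) L]
    (ι : Type) [Finite ι] (y : ι → B) (H : Subgroup G),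
    (∀ (g : G), ∀ b ∈ Q, g • b ∈ Q) →
    DistinctRed G Q y H →
    Algebra.IsSeparable K ↥(IntermediateField.adjoin K (redGen Q L y)) ∧
      FiniteDimensional K ↥(IntermediateField.adjoin K (redGen Q L y)) ∧
      H.index ≤ Module.finrank K ↥(IntermediateField.adjoin K (redGen Q L y))

end Fermat.Agent.S48WG
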