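/-
S48 wall (W), block G-RED, seat G-IGUSA, leaf IG-INV (helper31): `B^G = A[j]`, abstract form.

`A` a valuation subring of `K`, `R` a `K`-algebra with an action of a group `G`, an expansion map
`ex : R →ₐ[K] K((u))`, `j ∈ R` invariant with `A`-integral expansion, a pole, and leading
coefficient `1`, and `R^G = K[j]`.

* `ig_inv` : an invariant `b ∈ R` with `A`-integral expansion is a polynomial in `j` with
  coefficients in `A`;
* `igSub A ex G` : the subring `B` of the elements of `R` all of whose conjugates have
  `A`-integral expansions; `G` acts on it; `igJ` : `j ∈ B`;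
* `ig_inv_sub` : the invariants of `B` are the polynomials in `j` with coefficients in `A`.
-/
import Mathlib
import Fermat.Agent.S48.W.G.Red.Igusa.InvCore

set_option autoImplicit false

noncomputable section

namespace Fermat.Agent.S48WG

open ModularCurve HahnSeries Polynomial Fermat.Agent.GaussInt

variable {K : Type*} [Field K] (A : ValuationSubring K) {R : Type*} [CommRing R] [Algebra K R]
  {G : Type*} [Group G] [MulSemiringAction G R]

/-- **IG-INV** (`B^G = A[j]`): an invariant element with `A`-integral expansion at `∞` is a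
polynomial in `j` with coefficients in `A`. -/
theorem ig_inv (ex : R →ₐ[K] LaurentSeries K) (j : R) (hj : IsIntK A (ex j))
    (hord : (ex j).order < 0) (hlead : (ex j).leadingCoeff = 1)
    (hinv : ∀ f : R, (∀ g : G, g • f = f) → ∃ P : K[X], f = Polynomial.aeval j P)
    (b : R) (hb : ∀ g : G, g • b = b) (hint : IsIntK A (ex b)) :
    ∃ P₀ : Polynomial A, b = Polynomial.aeval j (P₀.map A.subtype) := by
  obtain ⟨P, rfl⟩ := hinv b hb
  have h1 : ex (Polynomial.aeval j P) = Polynomial.aeval (ex j) P :=
    (Polynomial.aeval_algHom_apply ex j P).symm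
  rw [h1] at hint
  obtain ⟨P₀, rfl⟩ := ig_exists_polyA hj hord hlead P hint
  exact ⟨P₀, rfl⟩

variable (G)

/-- the subring `B` of the elements of `R` all of whose conjugates have `A`-integral
expansions ("integral at all cusps"). -/
def igSub (ex : R →ₐ[K] LaurentSeries K) : Subring R where
  carrier := {b | ∀ g : G, IsIntK A (ex (g • b))}
  mul_mem' := fun {a b} ha hb g => by
    rw [smul_mul', map_mul]
    exact (ha g).mul (hb g)
  one_mem' := fun g => by
    rw [smul_one, map_one]
    intro n
    rw [HahnSeries.coeff_one]
    split_ifs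
    · exact A.one_mem
    · exact A.zero_mem
  add_mem' := fun {a b} ha hb g => by
    rw [smul_add, map_add]
    exact (ha g).add (hb g)
  zero_mem' := fun g => by
    rw [smul_zero, map_zero]
    intro n
    rw [HahnSeries.coeff_zero]
    exact A.zero_mem
  neg_mem' := fun {a} ha g => by
    rw [smul_neg, map_neg]
    intro n
    rw [HahnSeries.coeff_neg]
    exact A.neg_mem _ (ha g n)

variable {G}

theorem mem_igSub {ex : R →ₐ[K] LaurentSeries K} {b : R} :
    b ∈ igSub A G ex ↔ ∀ g : G, IsIntK A (ex (g • b)) := Iff.rfl

/-- the expansion of an element of `B` is `A`-integral. -/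
theorem isIntK_of_mem_igSub {ex : R →ₐ[K] LaurentSeries K} {b : R} (hb : b ∈ igSub A G ex) :
    IsIntK A (ex b) := by
  have := hb 1
  rwa [one_smul] at this

/-- `B` is stable under `G`. -/
theorem smul_mem_igSub {ex : R →ₐ[K] LaurentSeries K} {b : R} (hb : b ∈ igSub A G ex) (g : G) :
    g • b ∈ igSub A G ex := by
  intro g'
  rw [← mul_smul]
  exact hb (g' * g)

/-- an invariant element with `A`-integral expansion lies in `B`. -/
theorem mem_igSub_of_invariant {ex : R →ₐ[K] LaurentSeries K} {b : R}
    (hb : ∀ g : G, g • b = b) (hint : IsIntK A (ex b)) : b ∈ igSub A G ex := by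
  intro g
  rw [hb g]
  exact hint

/-- the constants of `A` lie in `B`. -/
theorem algebraMap_mem_igSub [SMulCommClass G K R] (ex : R →ₐ[K] LaurentSeries K) {c : K}
    (hc : c ∈ A) :
    algebraMap K R c ∈ igSub A G ex := by
  intro g
  rw [smul_algebraMap, AlgHom.commutes, ig_algebraMap_eq_single]
  intro n
  rw [HahnSeries.coeff_single]
  split_ifs
  · exact hc
  · exact A.zero_mem

/-- polynomials in `j` with coefficients in `A` lie in `B`. -/
theorem aeval_mem_igSub [SMulCommClass G K R] (ex : R →ₐ[K] LaurentSeries K) {j : R}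
    (hjinv : ∀ g : G, g • j = j)
    (hj : IsIntK A (ex j)) (P₀ : Polynomial A) :
    Polynomial.aeval j (P₀.map A.subtype) ∈ igSub A G ex := by
  have hjB : j ∈ igSub A G ex := mem_igSub_of_invariant A hjinv hj
  induction P₀ using Polynomial.induction_on' with
  | add p q hp hq =>
    rw [Polynomial.map_add, map_add]
    exact add_mem hp hq
  | monomial n a =>
    rw [Polynomial.map_monomial, ← Polynomial.C_mul_X_pow_eq_monomial, map_mul, map_pow,
      Polynomial.aeval_C, Polynomial.aeval_X]
    exact mul_mem (algebraMap_mem_igSub A ex a.2) (pow_mem hjB n)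

/-- **IG-INV**, for the subring `B`: the invariants of `B` are exactly the polynomials in `j`
with coefficients in `A`. -/
theorem ig_inv_sub [SMulCommClass G K R] (ex : R →ₐ[K] LaurentSeries K) (j : R)
    (hjinv : ∀ g : G, g • j = j)
    (hj : IsIntK A (ex j)) (hord : (ex j).order < 0) (hlead : (ex j).leadingCoeff = 1)
    (hinv : ∀ f : R, (∀ g : G, g • f = f) → ∃ P : K[X], f = Polynomial.aeval j P) (b : R) :
    (b ∈ igSub A G ex ∧ ∀ g : G, g • b = b) ↔
      ∃ P₀ : Polynomial A, b = Polynomial.aeval j (P₀.map A.subtype) := by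
  constructor
  · rintro ⟨hb, hbinv⟩
    exact ig_inv A ex j hj hord hlead hinv b hbinv (isIntK_of_mem_igSub A hb)
  · rintro ⟨P₀, rfl⟩
    refine ⟨aeval_mem_igSub A ex hjinv hj P₀, fun g => ?_⟩
    have h1 : ∀ (P : K[X]), g • Polynomial.aeval j P = Polynomial.aeval j P := by
      intro P
      induction P using Polynomial.induction_on' with
      | add p q hp hq => rw [map_add, smul_add, hp, hq]
      | monomial n a =>
        rw [← Polynomial.C_mul_X_pow_eq_monomial, map_mul, map_pow, Polynomial.aeval_C,
          Polynomial.aeval_X, smul_mul', smul_pow', hjinv g, smul_algebraMap]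
    exact h1 _

end Fermat.Agent.S48WG
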