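/-
S48 wall (W), block G-RED, seat G-IGUSA: the ABSTRACT assembly (IG-ABS), statement.
Sub-architect: helper59.  DEFINITIONS ONLY.  FIXED.

`A` a valuation subring of `K`, residue field `k`; `R` a `K`-algebra with an action of a finite
group `G` and an expansion map `ex : R →ₐ[K] K((u))`; `B = igSub A G ex` (helper31) the subring of
the elements all of whose conjugates have `A`-integral expansions; `Q ⊆ B` the elements whose
expansion is `≡ 0` modulo `𝔪_A`.

* `redSer A f`   : the residue of a series (`gaussResFun` of the field `K((u))` itself);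
* `IsRedZero A a`: all coefficients of `a` lie in `𝔪_A`;
* `redField A x y` : the field `k(x̄)(ȳ_i : i) ⊆ k((u))`, as an intermediate field of
  `k((u)) / k(x̄)`;
* `IgDistinct A ex y H` : the `y i` lie in `B`, are fixed by `H`, and conjugates of the family on
  different cosets of `H` have different reductions;
* `IgAbsStatement` (IG-ABS): Dedekind's argument.  If `t ∈ G` stabilises `Q`, the conjugates of
  `t` generate `G`, `(y₀, H₀)` is distinct with `k(x̄)(ȳ₀) / k(x̄)` separable of degree
  `≥ [G : H₀]`, and `h t h⁻¹` acts as a power of `t` for `h ∈ H₀`, then for every distinct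
  `(y₁, H₁)`: `k(x̄)(ȳ₁) / k(x̄)` is finite separable of degree `≥ [G : H₁]`.
  (Proof: `stabTop`, `DegreeStatement`, `ig_inv_sub`; `K_abs = Frac (A[j] / 𝔪_A[j]) ≅ k(x̄)`.)
-/
import Mathlib
import Fermat.Agent.S48.W.G.Red.Igusa.Defs
import Fermat.Agent.S48.W.G.Red.Igusa.Inv

set_option autoImplicit false

noncomputable section

namespace Fermat.Agent.S48WG

open Polynomial IntermediateField Fermat.Agent.GaussInt

section

variable {K : Type*} [Field K] (A : ValuationSubring K)

/-- the residue of a series (zero outside the Gauss ring of `K((u))`); for a series with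
coefficients in `A` it is the coefficientwise reduction. -/
def redSer (f : LaurentSeries K) : LaurentSeries (IsLocalRing.ResidueField A) :=
  gaussResFun A (⊤ : IntermediateField K (LaurentSeries K)) f

/-- all coefficients lie in the maximal ideal of `A`. -/
def IsRedZero (a : LaurentSeries K) : Prop := ∀ n : ℤ, A.valuation (a.coeff n) < 1

/-- the field `k(x̄)(ȳ_i : i) ⊆ k((u))` over `k(x̄)`. -/
def redField (x : LaurentSeries K) {ι : Type*} (y : ι → LaurentSeries K) :
    IntermediateField ↥((IsLocalRing.ResidueField A)⟮redSer A x⟯)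
      (LaurentSeries (IsLocalRing.ResidueField A)) :=
  IntermediateField.adjoin ↥((IsLocalRing.ResidueField A)⟮redSer A x⟯)
    (Set.range fun i => redSer A (y i))

variable {R : Type*} [CommRing R] [Algebra K R] {G : Type*} [Group G] [MulSemiringAction G R]

/-- the `y i` lie in `B`, are fixed by `H`, and the conjugates of the family `y` on different
cosets of `H` have different reductions. -/
def IgDistinct (ex : R →ₐ[K] LaurentSeries K) {ι : Type*} (y : ι → R) (H : Subgroup G) : Prop :=
  (∀ i, y i ∈ igSub A G ex) ∧ (∀ h ∈ H, ∀ i, h • y i = y i) ∧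
    ∀ g g' : G, (∀ i, IsRedZero A (ex (g • y i) - ex (g' • y i))) → g⁻¹ * g' ∈ H

end

/-- **IG-ABS**: the abstract Dedekind argument, inside `k((u))`. -/
def IgAbsStatement : Prop :=
  ∀ (K : Type) [Field K] (A : ValuationSubring K) (R : Type) [CommRing R] [Algebra K R]
    (G : Type) [Group G] [Finite G] [MulSemiringAction G R] [SMulCommClass G K R]
    (ex : R →ₐ[K] LaurentSeries K) (j : R) (t : G)
    (ι₀ : Type) [Finite ι₀] (y₀ : ι₀ → R) (H₀ : Subgroup G)
    (ι₁ : Type) [Finite ι₁] (y₁ : ι₁ → R) (H₁ : Subgroup G),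
    (∀ g : G, g • j = j) → IsIntK A (ex j) → (ex j).order < 0 → (ex j).leadingCoeff = 1 →
    (∀ f : R, (∀ g : G, g • f = f) → ∃ P : K[X], f = Polynomial.aeval j P) →
    (∀ b ∈ igSub A G ex, IsRedZero A (ex b) → IsRedZero A (ex (t • b))) →
    Subgroup.normalClosure {t} = ⊤ →
    IgDistinct A ex y₀ H₀ →
    (∀ h ∈ H₀, ∃ n : ℤ, ∀ b : R, (h * t * h⁻¹) • b = t ^ n • b) →
    Algebra.IsSeparable ↥((IsLocalRing.ResidueField A)⟮redSer A (ex j)⟯)
      ↥(redField A (ex j) fun i => ex (y₀ i)) →
    H₀.index ≤ Module.finrank ↥((IsLocalRing.ResidueField A)⟮redSer A (ex j)⟯)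
      ↥(redField A (ex j) fun i => ex (y₀ i)) →
    IgDistinct A ex y₁ H₁ →
    Algebra.IsSeparable ↥((IsLocalRing.ResidueField A)⟮redSer A (ex j)⟯)
        ↥(redField A (ex j) fun i => ex (y₁ i)) ∧
      FiniteDimensional ↥((IsLocalRing.ResidueField A)⟮redSer A (ex j)⟯)
        ↥(redField A (ex j) fun i => ex (y₁ i)) ∧
      H₁.index ≤ Module.finrank ↥((IsLocalRing.ResidueField A)⟮redSer A (ex j)⟯)
        ↥(redField A (ex j) fun i => ex (y₁ i))

end Fermat.Agent.S48WG
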