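/-
S48 wall (W), block G-RED, seat IG-DIST (helper9), part 3: the conjugates of the Fricke functions
themselves.   `K` a field of characteristic `0`, `ζ ∈ K`, `A` a valuation subring of `K`.

* `igE K M`       : `(E₄ E₆ / Δ)(q^M)` over `K` (`= coeffEmb K (qExpand ℚ M eisQuot)`);
* `igF M ζ r s`   : `igE K M * wp_v`, the `q`-expansion of the conjugate of `fricke M 1` attached
                    to `v = (r, s)`;
* `igF_zero_right`: `igF M ζ a 0 = coeffEmb K (fricke M a)`   (`a ≠ 0`);
* `igF_neg`       : `igF M ζ (-r) (-s) = igF M ζ r s`;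
* `igF_isIntK`    : `v ≠ 0 →` the coefficients of `igF M ζ r s` are in `A`  (`M` a unit of `A`);
* `ig_gauss`      : (Gauss) `E, D` with coefficients in `A`, `E` primitive, `E D ≡ 0` modulo the
                    maximal ideal `⟹ D ≡ 0`;
* `igF_distinct`  : **IG-DIST**: `v, v' ≠ 0`, `igF v ≡ igF v'` modulo the maximal ideal of `A`
                    (`6 M` a unit of `A`) `⟹ v = v' ∨ v = -v'`;
* `igF_distinct_of_prime` : the same at a place over `p ≥ 5`, `p ∤ M`.
-/
import Mathlib
import Fermat.Agent.S48.W.G.Red.Igusa.Dist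
import Fermat.Agent.S48.W.G.Red.Igusa.InvCore
import Fermat.Agent.S48.W.G.Red.Int

set_option autoImplicit false

noncomputable section

namespace Fermat.Agent.S48WG

open ModularCurve HahnSeries Fermat.Agent.S48W Fermat.Agent.GaussInt

/-! ### Gauss's lemma for series -/

section gauss

variable {K : Type*} [Field K] (A : ValuationSubring K)

theorem ig_residue_eq_zero_iff (a : A) :
    IsLocalRing.residue A a = 0 ↔ A.valuation (a : K) < 1 := by
  rw [IsLocalRing.residue_eq_zero_iff, A.valuation_lt_one_iff]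

theorem ig_red_eq_zero_iff (Y : LaurentSeries A) :
    red A Y = 0 ↔ ∀ n, A.valuation ((Y.coeff n : A) : K) < 1 := by
  constructor
  · intro h n
    rw [← ig_residue_eq_zero_iff, ← red_coeff, h]
    rfl
  · intro h
    ext n
    rw [red_coeff, (ig_residue_eq_zero_iff A _).2 (h n)]
    rfl

/-- **Gauss's lemma**: the series `≡ 0` modulo the maximal ideal form a prime ideal of the series
with coefficients in `A`. -/
theorem ig_gauss {E D : LaurentSeries K} (hE : IsIntK A E) (hD : IsIntK A D)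
    (hE1 : ∃ n, A.valuation (E.coeff n) = 1)
    (H : ∀ n, A.valuation ((E * D).coeff n) < 1) : ∀ n, A.valuation (D.coeff n) < 1 := by
  have hE' : ∀ n, E.coeff n ∈ A := hE
  have hD' : ∀ n, D.coeff n ∈ A := hD
  have hmul : emb A (liftA A E hE' * liftA A D hD') = E * D := by
    rw [map_mul, emb_liftA, emb_liftA]
  have h0 : red A (liftA A E hE' * liftA A D hD') = 0 := by
    rw [ig_red_eq_zero_iff]
    intro n
    rw [← emb_coeff, hmul]
    exact H n
  rw [map_mul] at h0
  have hEne : red A (liftA A E hE') ≠ 0 := by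
    intro h
    obtain ⟨n, hn⟩ := hE1
    have := (ig_red_eq_zero_iff A _).1 h n
    rw [liftA_coeff, hn] at this
    exact lt_irrefl _ this
  have hD0 : red A (liftA A D hD') = 0 := (mul_eq_zero.1 h0).resolve_left hEne
  intro n
  have := (ig_red_eq_zero_iff A _).1 hD0 n
  rwa [liftA_coeff] at this

end gauss

/-! ### the conjugates of the Fricke functions -/

section fricke

variable {K : Type*} [Field K] [Algebra ℚ K]

variable (K) in
/-- `(E₄ E₆ / Δ)(q^M)` over `K`. -/
def igE (M : ℕ) [NeZero M] : LaurentSeries K := coeffEmb K (qExpand ℚ M eisQuot)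

/-- the `q`-expansion of the conjugate of `fricke M 1` attached to `v = (r, s)`. -/
def igF (M : ℕ) [NeZero M] (ζ : K) (r s : ZMod M) : LaurentSeries K :=
  igE K M * HahnSeries.ofPowerSeries ℤ K (igX M ζ r s)

variable {M : ℕ} [NeZero M] {ζ : K}

theorem igF_zero_right {a : ZMod M} (ha : a ≠ 0) :
    igF M ζ a 0 = coeffEmb K (fricke M a) := by
  unfold igF igE fricke
  rw [map_mul, igX_zero_right M ζ ha]
  congr 1
  unfold coeffEmb
  rw [coeffMap_ofPowerSeries, ← RingHom.comp_apply (PowerSeries.map (algebraMap ℚ K))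
      (PowerSeries.map (Int.castRingHom ℚ)), ← PowerSeries.map_comp,
    RingHom.ext_int ((algebraMap ℚ K).comp (Int.castRingHom ℚ)) (Int.castRingHom K)]

theorem igF_neg (hζ : ζ ^ M = 1) (r s : ZMod M) : igF M ζ (-r) (-s) = igF M ζ r s := by
  unfold igF
  rw [igX_neg hζ]

theorem eisQuot_coeff_neg_one : eisQuot.coeff (-1) = 1 := by
  unfold eisQuot
  have h := HahnSeries.coeff_single_mul_add (r := (1 : ℚ))
    (x := HahnSeries.ofPowerSeries ℤ ℚ
      ((eisenstein4 * eis6 * dedekindEtaUnitInv).map (Int.castRingHom ℚ))) (a := (0 : ℤ))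
    (b := (-1 : ℤ))
  rw [zero_add] at h
  rw [h, one_mul]
  have h2 := HahnSeries.ofPowerSeries_apply_coeff (Γ := ℤ)
    ((eisenstein4 * eis6 * dedekindEtaUnitInv).map (Int.castRingHom ℚ)) 0
  rw [Nat.cast_zero] at h2
  have h6 : PowerSeries.constantCoeff eis6 = 1 := by
    rw [← PowerSeries.coeff_zero_eq_constantCoeff]
    simp [eis6]
  have h7 : PowerSeries.constantCoeff (eisenstein4 * eis6 * dedekindEtaUnitInv) = 1 := by
    rw [map_mul, map_mul, constantCoeff_eisenstein4, constantCoeff_dedekindEtaUnitInv, h6]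
    simp
  rw [h2, PowerSeries.coeff_map, PowerSeries.coeff_zero_eq_constantCoeff, h7]
  simp

theorem igE_coeff_neg : (igE K M).coeff (-(M : ℤ)) = 1 := by
  unfold igE
  rw [coeffEmb_coeff]
  have h : (-(M : ℤ)) = (M : ℤ) * (-1) := by ring
  rw [h, qExpand_coeff_mul, eisQuot_coeff_neg_one, map_one]

variable (A : ValuationSubring K)

theorem igE_isIntK : IsIntK A (igE K M) := fun n =>
  isIntQ_qExpand (A := A) M (isIntQ_eisQuot A) n

omit [Algebra ℚ K] in
theorem igX_isIntK (hζ : IsPrimitiveRoot ζ M) (hM : A.valuation (M : K) = 1)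
    {r s : ZMod M} (hv : ¬ (r = 0 ∧ s = 0)) :
    IsIntK A (HahnSeries.ofPowerSeries ℤ K (igX M ζ r s)) := by
  intro n
  have h : (HahnSeries.ofPowerSeries ℤ K (igX M ζ r s)).coeff n
      = if n < 0 then 0 else PowerSeries.coeff n.natAbs (igX M ζ r s) :=
    PowerSeries.coeff_coe (igX M ζ r s) n
  rw [h]
  split_ifs
  · exact A.zero_mem
  · rw [coeff_igX]
    exact igCoeff_mem A hζ hM hv _

/-- the conjugates of the Fricke functions have `A`-integral expansions. -/
theorem igF_isIntK (hζ : IsPrimitiveRoot ζ M) (hM : A.valuation (M : K) = 1)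
    {r s : ZMod M} (hv : ¬ (r = 0 ∧ s = 0)) : IsIntK A (igF M ζ r s) :=
  (igE_isIntK A).mul (igX_isIntK A hζ hM hv)

/-- **IG-DIST** for the conjugates of the Fricke functions: if `6 M` is a unit of `A` and
`igF v ≡ igF v'` modulo the maximal ideal of `A` (`v, v' ≠ 0`), then `v = v'` or `v = -v'`. -/
theorem igF_distinct (hζ : IsPrimitiveRoot ζ M) (hM : A.valuation (M : K) = 1)
    (h12 : A.valuation (12 : K) = 1)
    {r s r' s' : ZMod M} (hv : ¬ (r = 0 ∧ s = 0)) (hv' : ¬ (r' = 0 ∧ s' = 0))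
    (H : ∀ n, A.valuation ((igF M ζ r s - igF M ζ r' s').coeff n) < 1) :
    (r = r' ∧ s = s') ∨ (r = -r' ∧ s = -s') := by
  have hD : IsIntK A (HahnSeries.ofPowerSeries ℤ K (igX M ζ r s)
      - HahnSeries.ofPowerSeries ℤ K (igX M ζ r' s')) :=
    (igX_isIntK A hζ hM hv).sub (igX_isIntK A hζ hM hv')
  have e : igF M ζ r s - igF M ζ r' s' = igE K M * (HahnSeries.ofPowerSeries ℤ K (igX M ζ r s)
      - HahnSeries.ofPowerSeries ℤ K (igX M ζ r' s')) := by
    unfold igF
    ring
  rw [e] at H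
  have hG := ig_gauss A (igE_isIntK A) hD
    ⟨-(M : ℤ), by rw [igE_coeff_neg, map_one]⟩ H
  refine igCoeff_distinct A hζ hM h12 hv hv' fun n => ?_
  have h := hG (n : ℤ)
  rw [HahnSeries.coeff_sub, HahnSeries.ofPowerSeries_apply_coeff,
    HahnSeries.ofPowerSeries_apply_coeff, coeff_igX, coeff_igX] at h
  exact h

/-- **IG-DIST** at a place over a prime `p ≥ 5` not dividing `M`. -/
theorem igF_distinct_of_prime {p : ℕ} (hp : p.Prime) (hp5 : 5 ≤ p) (hpM : ¬ p ∣ M)
    (hA : A.valuation (p : K) < 1) (hζ : IsPrimitiveRoot ζ M)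
    {r s r' s' : ZMod M} (hv : ¬ (r = 0 ∧ s = 0)) (hv' : ¬ (r' = 0 ∧ s' = 0))
    (H : ∀ n, A.valuation ((igF M ζ r s - igF M ζ r' s').coeff n) < 1) :
    (r = r' ∧ s = s') ∨ (r = -r' ∧ s = -s') := by
  have hM : A.valuation (M : K) = 1 := ig_val_natCast_eq_one A hp hA hpM
  have h12 : A.valuation (12 : K) = 1 := by
    have h : ¬ p ∣ 12 := by
      intro h
      have h2 : p ∣ 2 ^ 2 * 3 := by simpa using h
      rcases (Nat.Prime.dvd_mul hp).1 h2 with h4 | h3
      · have := (Nat.prime_dvd_prime_iff_eq hp Nat.prime_two).1 (hp.dvd_of_dvd_pow h4)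
        omega
      · have := (Nat.prime_dvd_prime_iff_eq hp Nat.prime_three).1 h3
        omega
    have := ig_val_natCast_eq_one A hp hA h
    simpa using this
  exact igF_distinct A hζ hM h12 hv hv' H

theorem igF_isIntK_of_prime {p : ℕ} (hp : p.Prime) (hpM : ¬ p ∣ M)
    (hA : A.valuation (p : K) < 1) (hζ : IsPrimitiveRoot ζ M)
    {r s : ZMod M} (hv : ¬ (r = 0 ∧ s = 0)) : IsIntK A (igF M ζ r s) :=
  igF_isIntK A hζ (ig_val_natCast_eq_one A hp hA hpM) hv

end fricke

end Fermat.Agent.S48WG
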