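/-
S48 wall (W), block G-RED, seat G-IGUSA: the finite group `G = SL₂(ℤ) / Γ(M)` and its action on
the ambient ring `AHb M` (helper24, `S48/W/G/Kron/Amb.lean`).  Sub-architect: helper59.
-/
import Mathlib
import Fermat.Agent.S48.W.G.Kron.Amb

set_option autoImplicit false

noncomputable section

namespace Fermat.Agent.S48WG

open UpperHalfPlane Fermat.Agent.S24 Fermat.Agent.S48WKron
open scoped MatrixGroups

instance instNormalGammaW (M : ℕ) : (CongruenceSubgroup.Gamma M).Normal :=
  CongruenceSubgroup.Gamma_normal M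

/-- the finite group `SL₂(ℤ) / Γ(M)`. -/
abbrev GW (M : ℕ) : Type := SL(2, ℤ) ⧸ CongruenceSubgroup.Gamma M

instance instFiniteGW (M : ℕ) [NeZero M] : Finite (GW M) :=
  Subgroup.finite_quotient_of_finiteIndex

/-- the action of `SL₂(ℤ)` on `AHb M` as a homomorphism to the ring automorphisms. -/
def actHomW (M : ℕ) [NeZero M] : SL(2, ℤ) →* RingAut (AHb M) :=
  MulSemiringAction.toRingAut SL(2, ℤ) (AHb M)

theorem gamma_le_ker_actHomW (M : ℕ) [NeZero M] :
    CongruenceSubgroup.Gamma M ≤ (actHomW M).ker := by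
  intro γ hγ
  rw [MonoidHom.mem_ker]
  ext f : 1
  exact Subtype.ext (smul_eq_of_mem_AHb f.2 hγ)

/-- the action of `SL₂(ℤ) / Γ(M)` on `AHb M`, as a homomorphism. -/
def actHomGW (M : ℕ) [NeZero M] : GW M →* RingAut (AHb M) :=
  QuotientGroup.lift (CongruenceSubgroup.Gamma M) (actHomW M) (gamma_le_ker_actHomW M)

instance instMulSemiringActionGW (M : ℕ) [NeZero M] : MulSemiringAction (GW M) (AHb M) :=
  MulSemiringAction.compHom (AHb M) (actHomGW M)

theorem GW.mk_smul (M : ℕ) [NeZero M] (γ : SL(2, ℤ)) (f : AHb M) :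
    (QuotientGroup.mk γ : GW M) • f = γ • f := rfl

instance instSMulCommClassGW (M : ℕ) [NeZero M] : SMulCommClass (GW M) Kbar (AHb M) where
  smul_comm g a f := by
    induction g using QuotientGroup.induction_on with
    | H γ => rw [GW.mk_smul, GW.mk_smul, smul_comm]

end Fermat.Agent.S48WG
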