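/-
S48 wall (W), block G-RED, seat G-IGUSA: the CONCRETE leaves, statements.
Sub-architect: helper59.  DEFINITIONS ONLY.  FIXED.

Conventions (hub A1, S24): functions of `τ` (`= τ_E`), expansions `HasExp M` in `u = e(τ/M)`,
`(γ • f)(τ) = f(γ⁻¹ τ)`; the formal `q` of `S48/W/Defs.lean` is `u`.  Base function
`x = j(q^M) = ` expansion of `jFun`.  Ambient ring `AHb M` (helper24), `G = GW M = SL₂(ℤ)/Γ(M)`.

Dedekind's argument (`IgAbsStatement`) is applied with `t = T`,
`y₀ = (j(dτ))_{d ∣ M}` (`jdFam`), `H₀ = Γ₀(M)`,  `y₁ = (F_{(1,0)} - j) / 12` (`yOneFun`),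
`H₁ = Stab(y₁)` (`= {± [1 0; * 1]}` modulo `M`).

Leaves:
* `IgNCStatement`   (IG-NC)   the conjugates of `T` generate `SL₂(ℤ)`;
* `IgConjStatement` (IG-CONJ) `h T h⁻¹ ≡ T^n` modulo `Γ(M)` for `h ∈ Γ₀(M)`;
* `IgJ0Statement`   (IG-J0)   the translates of `j(dτ)` have `A`-integral expansions, and the
                              translates of `j(Mτ)` on different cosets of `Γ₀(M)` have different
                              reductions;
* `IgFExpStatement` (IG-FEXP) the expansion of `frickeFun M r s` is helper9's `igF M ζ r s`;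
* `IgYStatement`    (IG-Y)    `igY v = (igF v - j(q^M)) / 12` is `A`-integral and `v ↦ igY v` is
                              injective modulo `±` and modulo `𝔪_A`  (ALL `p ∤ M`, also `2, 3`);
* `IgF1Statement`   (IG-F1)   `y₁ ∈ AHb M`, its translates have `A`-integral expansions, and
                              different translates have different reductions;
* `IgBStatement`    (IG-B)    (cluster B) `k(j̄(u^M))(j̄(u^{Md}) : d ∣ M)` is separable of degree
                              `≥ [SL₂(ℤ) : Γ₀(M)]` over `k(j̄(u^M))`;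
* `IgDeg0Statement` (IG-DEG0) `[ℚ̄ F₁(M) : ℚ̄(j(q^M))] ≤ [SL₂(ℤ) : Stab(y₁)]`;
* `IgusaOneStatement` (IG-INST) the deliverable: `IsBaseFun A (FOne M) hx` for `x = j(q^M)`.
-/
import Mathlib
import Fermat.Agent.S48.W.A1.Defs
import Fermat.Agent.S48.W.G.Red.Defs
import Fermat.Agent.S48.W.G.Red.Igusa.AbsDefs
import Fermat.Agent.S48.W.G.Red.Igusa.DistF
import Fermat.Agent.S48.W.G.Red.Igusa.Group

set_option autoImplicit false
set_option synthInstance.maxHeartbeats 400000

noncomputable section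

namespace Fermat.Agent.S48WG

open UpperHalfPlane ModularCurve IntermediateField
open Fermat.Agent.S24 Fermat.Agent.S48W Fermat.Agent.S48WA1 Fermat.Agent.S48WKron
open Fermat.Agent.GaussInt
open scoped MatrixGroups Real

/-! ### the two families -/

/-- `y₁ = (F_{(1,0)} - j) / 12`. -/
def yOneFun (M : ℕ) : Fun :=
  algebraMap Kbar Fun (12⁻¹ : Kbar) * (frickeFun M 1 0 - jFun)

/-- the family `(j(dτ))_{d ∣ M}`, indexed by `i = d - 1 ∈ Fin M` (zero if `d ∤ M`). -/
def jdFam (M : ℕ) (i : Fin M) : Fun :=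
  if (i.val + 1) ∣ M then jd (i.val + 1) else 0

/-- the expansions of the family `jdFam`. -/
def jdFamExp (M : ℕ) [NeZero M] (i : Fin M) : LaurentSeries Kbar :=
  if (i.val + 1) ∣ M then qExpand Kbar (M * (i.val + 1)) (jqModC Kbar) else 0

/-- `(igF v - j(q^M)) / 12`, generic in a field `K ∋ ζ`. -/
def igY {K : Type*} [Field K] [Algebra ℚ K] (M : ℕ) [NeZero M] (ζ : K) (r s : ZMod M) :
    LaurentSeries K :=
  HahnSeries.C (12⁻¹ : K) * (igF M ζ r s - coeffEmb K (qExpand ℚ M jq))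

/-! ### group theory -/

/-- (IG-NC) the conjugates of `T` generate `SL₂(ℤ)`. -/
def IgNCStatement : Prop :=
  Subgroup.normalClosure {(ModularGroup.T : SL(2, ℤ))} = ⊤

/-- (IG-CONJ) `h T h⁻¹ ≡ T^n` modulo `Γ(M)` for `h ∈ Γ₀(M)` (`n = a²`). -/
def IgConjStatement : Prop :=
  ∀ (M : ℕ) [NeZero M] (h : SL(2, ℤ)), h ∈ CongruenceSubgroup.Gamma0 M →
    ∃ n : ℤ, h * ModularGroup.T * h⁻¹ * (ModularGroup.T ^ n)⁻¹ ∈ CongruenceSubgroup.Gamma M

/-! ### the family `y₀` -/

/-- (IG-J0) integrality of the translates of `j(dτ)`, and distinctness of the reductions of the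
translates of `j(Mτ)`. -/
def IgJ0Statement : Prop :=
  ∀ (M : ℕ) [NeZero M] (p : ℕ), p.Prime → ¬ p ∣ M →
    ∀ A : ValuationSubring Kbar, A.LiesOverPrime p →
      (∀ (d : ℕ) [NeZero d], d ∣ M → ∀ (g : SL(2, ℤ)) (a : LaurentSeries Kbar),
        HasExp M (g • jd d) a → IsIntK A a) ∧
      ∀ (g g' : SL(2, ℤ)) (a a' : LaurentSeries Kbar),
        HasExp M (g • jd M) a → HasExp M (g' • jd M) a' → IsRedZero A (a - a') →
          g⁻¹ * g' ∈ CongruenceSubgroup.Gamma0 M

/-- (IG-B) **cluster B**: `k(j̄(u^M))(j̄(u^{M d}) : d ∣ M) / k(j̄(u^M))` is separable of degree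
`≥ [SL₂(ℤ) : Γ₀(M)]` (image of `modularFunctionFieldFullC k M` under `q ↦ u^M`;
`GaussVal.finrank_fullC_of_isAlgClosed`, `RRMod.isSeparable_fullC'`). -/
def IgBStatement : Prop :=
  ∀ (M : ℕ) [NeZero M] (p : ℕ), p.Prime → ¬ p ∣ M →
    ∀ A : ValuationSubring Kbar, A.LiesOverPrime p →
      Algebra.IsSeparable
          ↥((IsLocalRing.ResidueField A)⟮redSer A (qExpand Kbar M (jqModC Kbar))⟯)
          ↥(redField A (qExpand Kbar M (jqModC Kbar)) (jdFamExp M)) ∧
        (CongruenceSubgroup.Gamma0 M).index ≤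
          Module.finrank
            ↥((IsLocalRing.ResidueField A)⟮redSer A (qExpand Kbar M (jqModC Kbar))⟯)
            ↥(redField A (qExpand Kbar M (jqModC Kbar)) (jdFamExp M))

/-! ### the family `y₁` -/

/-- (IG-FEXP) the expansion of the Fricke function `F_{(r,s)}` is `igF M ζ r s`. -/
def IgFExpStatement : Prop :=
  ∀ (M : ℕ) [NeZero M] (ζ : Kbar), iota ζ = Complex.exp (2 * π * Complex.I / M) →
    ∀ r s : ℤ, IsNZ M r s →
      HasExp M (frickeFun M r s) (igF M ζ ((r : ℤ) : ZMod M) ((s : ℤ) : ZMod M))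

/-- (IG-Y) `igY v` is `A`-integral, and `v ↦ igY v` is injective modulo `±` and modulo `𝔪_A`,
if `M` is a unit of `A` (NO hypothesis on `2, 3`):
`igY v - igY v' = igE · (W_v - W_v')`, `wp_v = 1 - 24 Σ σ₁(n) Q^n + 12 W_v`, and
`(E₆ wp_v - E₄²) / 12 = W_v - 2 S₁ - 42 S₅ wp_v - 40 S₃ - 4800 S₃²`. -/
def IgYStatement : Prop :=
  ∀ (K : Type) [Field K] [Algebra ℚ K] (A : ValuationSubring K) (M : ℕ) [NeZero M] (ζ : K),
    IsPrimitiveRoot ζ M → A.valuation (M : K) = 1 →
      (∀ r s : ZMod M, ¬ (r = 0 ∧ s = 0) → IsIntK A (igY M ζ r s)) ∧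
      ∀ r s r' s' : ZMod M, ¬ (r = 0 ∧ s = 0) → ¬ (r' = 0 ∧ s' = 0) →
        IsRedZero A (igY M ζ r s - igY M ζ r' s') →
          (r = r' ∧ s = s') ∨ (r = -r' ∧ s = -s')

/-- (IG-F1) `y₁` lies in the ambient ring, its translates have `A`-integral expansions, and
different translates have different reductions. -/
def IgF1Statement : Prop :=
  ∀ (M : ℕ) [NeZero M], 2 ≤ M →
    IsAHb M (yOneFun M) ∧
    ∀ (p : ℕ), p.Prime → ¬ p ∣ M → ∀ A : ValuationSubring Kbar, A.LiesOverPrime p →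
      (∀ (g : SL(2, ℤ)) (a : LaurentSeries Kbar), HasExp M (g • yOneFun M) a → IsIntK A a) ∧
      ∀ (g g' : SL(2, ℤ)) (a a' : LaurentSeries Kbar),
        HasExp M (g • yOneFun M) a → HasExp M (g' • yOneFun M) a' → IsRedZero A (a - a') →
          g • yOneFun M = g' • yOneFun M

/-! ### characteristic zero, and the deliverable -/

/-- (IG-DEG0) `[ℚ̄ F₁(M) : ℚ̄(j(q^M))] ≤ [SL₂(ℤ) : Stab(y₁)]`, and the extension is finite. -/
def IgDeg0Statement : Prop :=
  ∀ (M : ℕ) [NeZero M], 2 ≤ M →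
    ∀ x : ↥(FOneBar M), (x : LaurentSeries Kbar) = qExpand Kbar M (jqModC Kbar) →
      FiniteDimensional ↥(Kbar⟮x⟯) ↥(FOneBar M) ∧
        Module.finrank ↥(Kbar⟮x⟯) ↥(FOneBar M) ≤
          (MulAction.stabilizer SL(2, ℤ) (yOneFun M)).index

/-- (IG-INST) **the deliverable of G-IGUSA**: `x = j(q^M)` is a base function of the Gauss ring
of `ℚ̄ F₁(M)` at every place over `p ∤ M`. -/
def IgusaOneStatement : Prop :=
  ∀ (M : ℕ) [NeZero M], 2 ≤ M → ∀ (p : ℕ), p.Prime → ¬ p ∣ M →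
    ∀ A : ValuationSubring Kbar, A.LiesOverPrime p →
      ∃ (x : LaurentSeries Kbar) (hx : x ∈ gaussSub A (laurentBaseChange Kbar (FOne M))),
        x = qExpand Kbar M (jqModC Kbar) ∧ IsBaseFun A (FOne M) hx

end Fermat.Agent.S48WG
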