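/-
S48 wall (W), block G-RED, seat IG-DIST (helper9), part 4: BRIDGE to hub A1.
The coefficients `S48WA1.xCoeff M ζ r s n` (`r s : ℤ`, integer powers of `ζ`) of the expansion of
`X_{(r,s)}` are the `igCoeff M ζ (r : ZMod M) (s : ZMod M) n` of `Dist.lean`, so:

* `xCoeff_eq_igCoeff`, `mk_xCoeff_eq_igX`;
* `ig_isNZ_iff`       : `IsNZ M r s ↔ ¬ ((r : ZMod M) = 0 ∧ (s : ZMod M) = 0)`;
* `xF M ζ r s`        : `igE K M * PowerSeries.mk (xCoeff M ζ r s)`, the expansion of the Fricke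
                        function `frickeFun M r s` (`0 ≤ r < M`);  `xF_eq_igF`;
* `xF_isIntK`, `xF_distinct` : integrality and **IG-DIST** in the variables of hub A1:
  `xF v ≡ xF v'` modulo the maximal ideal of `A` `⟹ v ≡ v'` or `v ≡ -v'` modulo `M`.
-/
import Mathlib
import Fermat.Agent.S48.W.G.Red.Igusa.DistF
import Fermat.Agent.S48.W.A1.Defs

set_option autoImplicit false

noncomputable section

namespace Fermat.Agent.S48WG

open ModularCurve HahnSeries Fermat.Agent.S48W Fermat.Agent.GaussInt Fermat.Agent.S48WA1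

local notation "Kb" => AlgebraicClosure ℚ

section zpow

variable {K : Type*} [Field K] {M : ℕ} [NeZero M] {ζ : K}

/-- `ζ ^ s` (integer power) is `ζ ^ (s mod M)`. -/
theorem ig_pow_val_intCast (hζ : ζ ^ M = 1) (s : ℤ) : ζ ^ ((s : ZMod M)).val = ζ ^ s := by
  have hζ0 : ζ ≠ 0 := by
    intro h
    rw [h, zero_pow (NeZero.ne M)] at hζ
    exact zero_ne_one hζ
  have h1 : (((s : ZMod M).val : ℕ) : ℤ) = s % (M : ℤ) := ZMod.val_intCast s
  have h2 : s = s % (M : ℤ) + (M : ℤ) * (s / (M : ℤ)) := (Int.emod_add_mul_ediv s M).symm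
  conv_rhs => rw [h2]
  rw [zpow_add₀ hζ0, zpow_mul, zpow_natCast, hζ, one_zpow, mul_one, ← h1, zpow_natCast]

theorem ig_pow_val_intCast_mul (hζ : ζ ^ M = 1) (s : ℤ) (m : ℕ) :
    ζ ^ ((s : ZMod M).val * m) = ζ ^ (s * (m : ℤ)) := by
  rw [pow_mul, ig_pow_val_intCast hζ, zpow_mul, zpow_natCast]

theorem ig_pow_val_neg_intCast_mul (hζ : ζ ^ M = 1) (s : ℤ) (m : ℕ) :
    ζ ^ ((-(s : ZMod M)).val * m) = ζ ^ (-(s * (m : ℤ))) := by
  have h : (-(s : ZMod M)) = (((-s : ℤ)) : ZMod M) := by push_cast; rfl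
  rw [h, ig_pow_val_intCast_mul hζ, neg_mul]

end zpow

section bridge

variable {M : ℕ} [NeZero M] {ζ : Kb}

omit [NeZero M] in
theorem ig_isNZ_iff (r s : ℤ) :
    IsNZ M r s ↔ ¬ ((r : ZMod M) = 0 ∧ (s : ZMod M) = 0) := by
  unfold IsNZ
  rw [ZMod.intCast_zmod_eq_zero_iff_dvd, ZMod.intCast_zmod_eq_zero_iff_dvd]

theorem xCoeff_eq_igCoeff (hζ : ζ ^ M = 1) (r s : ℤ) (n : ℕ) :
    xCoeff M ζ r s n = igCoeff M ζ (r : ZMod M) (s : ZMod M) n := by
  unfold xCoeff igCoeff igTerm igConst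
  simp only [ig_pow_val_intCast_mul hζ, ig_pow_val_neg_intCast_mul hζ, ig_pow_val_intCast hζ,
    ZMod.intCast_zmod_eq_zero_iff_dvd]
  congr 2
  by_cases hn : n = 0
  · rw [if_pos hn, if_pos hn]
    by_cases hr : (M : ℤ) ∣ r
    · rw [if_pos hr, if_pos hr]
    · rw [if_neg hr, if_neg hr, add_zero]
  · rw [if_neg hn, if_neg hn]

theorem mk_xCoeff_eq_igX (hζ : ζ ^ M = 1) (r s : ℤ) :
    PowerSeries.mk (xCoeff M ζ r s) = igX M ζ (r : ZMod M) (s : ZMod M) := by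
  ext n
  simp [xCoeff_eq_igCoeff hζ]

/-- the expansion of the Fricke function `frickeFun M r s` (`0 ≤ r < M`). -/
def xF (M : ℕ) [NeZero M] (ζ : Kb) (r s : ℤ) : LaurentSeries Kb :=
  igE Kb M * HahnSeries.ofPowerSeries ℤ Kb (PowerSeries.mk (xCoeff M ζ r s))

theorem xF_eq_igF (hζ : ζ ^ M = 1) (r s : ℤ) :
    xF M ζ r s = igF M ζ (r : ZMod M) (s : ZMod M) := by
  unfold xF igF
  rw [mk_xCoeff_eq_igX hζ]

variable (A : ValuationSubring Kb)

theorem xF_isIntK (hζ : IsPrimitiveRoot ζ M) (hM : A.valuation (M : Kb) = 1)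
    {r s : ℤ} (hv : IsNZ M r s) : IsIntK A (xF M ζ r s) := by
  rw [xF_eq_igF hζ.pow_eq_one]
  exact igF_isIntK A hζ hM ((ig_isNZ_iff r s).1 hv)

/-- **IG-DIST** in the variables of hub A1. -/
theorem xF_distinct (hζ : IsPrimitiveRoot ζ M) (hM : A.valuation (M : Kb) = 1)
    (h12 : A.valuation (12 : Kb) = 1) {r s r' s' : ℤ} (hv : IsNZ M r s) (hv' : IsNZ M r' s')
    (H : ∀ n, A.valuation ((xF M ζ r s - xF M ζ r' s').coeff n) < 1) :
    ((M : ℤ) ∣ r - r' ∧ (M : ℤ) ∣ s - s') ∨ ((M : ℤ) ∣ r + r' ∧ (M : ℤ) ∣ s + s') := by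
  rw [xF_eq_igF hζ.pow_eq_one, xF_eq_igF hζ.pow_eq_one] at H
  have h := igF_distinct A hζ hM h12 ((ig_isNZ_iff r s).1 hv) ((ig_isNZ_iff r' s').1 hv') H
  rcases h with ⟨h1, h2⟩ | ⟨h1, h2⟩
  · left
    constructor
    · rw [← ZMod.intCast_zmod_eq_zero_iff_dvd]
      push_cast
      rw [h1, sub_self]
    · rw [← ZMod.intCast_zmod_eq_zero_iff_dvd]
      push_cast
      rw [h2, sub_self]
  · right
    constructor
    · rw [← ZMod.intCast_zmod_eq_zero_iff_dvd]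
      push_cast
      rw [h1, neg_add_cancel]
    · rw [← ZMod.intCast_zmod_eq_zero_iff_dvd]
      push_cast
      rw [h2, neg_add_cancel]

theorem xF_distinct_of_prime {p : ℕ} (hp : p.Prime) (hp5 : 5 ≤ p) (hpM : ¬ p ∣ M)
    (hA : A.valuation (p : Kb) < 1) (hζ : IsPrimitiveRoot ζ M)
    {r s r' s' : ℤ} (hv : IsNZ M r s) (hv' : IsNZ M r' s')
    (H : ∀ n, A.valuation ((xF M ζ r s - xF M ζ r' s').coeff n) < 1) :
    ((M : ℤ) ∣ r - r' ∧ (M : ℤ) ∣ s - s') ∨ ((M : ℤ) ∣ r + r' ∧ (M : ℤ) ∣ s + s') := by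
  rw [xF_eq_igF hζ.pow_eq_one, xF_eq_igF hζ.pow_eq_one] at H
  have h := igF_distinct_of_prime A hp hp5 hpM hA hζ ((ig_isNZ_iff r s).1 hv)
    ((ig_isNZ_iff r' s').1 hv') H
  rcases h with ⟨h1, h2⟩ | ⟨h1, h2⟩
  · left
    constructor
    · rw [← ZMod.intCast_zmod_eq_zero_iff_dvd]
      push_cast
      rw [h1, sub_self]
    · rw [← ZMod.intCast_zmod_eq_zero_iff_dvd]
      push_cast
      rw [h2, sub_self]
  · right
    constructor
    · rw [← ZMod.intCast_zmod_eq_zero_iff_dvd]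
      push_cast
      rw [h1, neg_add_cancel]
    · rw [← ZMod.intCast_zmod_eq_zero_iff_dvd]
      push_cast
      rw [h2, neg_add_cancel]

end bridge

end Fermat.Agent.S48WG
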