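/-
S48 wall (W), block G-RED, seat G-IGUSA, leaf IG-ABS (helper31), part 1: TRANSPORT (Mathlib only).

Two field extensions `L₁ / K₁`, `L₂ / K₂` embedded in a common field `Ω` with the same images
have the same degree and are separable / finite together.

* `ig_exists_equiv`   : two fields with the same image in `Ω` are isomorphic, compatibly;
* `ig_transport`      : the pair of isomorphisms of two extensions with the same images;
* `ig_finrank_eq`, `ig_isSeparable_iff`, `ig_finiteDimensional_iff`.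
-/
import Mathlib

set_option autoImplicit false

noncomputable section

namespace Fermat.Agent.S48WG

variable {Ω : Type*} [Field Ω]

/-- two fields with the same image in `Ω` are isomorphic, compatibly with the embeddings. -/
theorem ig_exists_equiv {L₁ L₂ : Type*} [Field L₁] [Field L₂] (f₁ : L₁ →+* Ω) (f₂ : L₂ →+* Ω)
    (h : Set.range f₁ = Set.range f₂) : ∃ e : L₁ ≃+* L₂, ∀ x, f₂ (e x) = f₁ x := by
  have hr : f₁.range = f₂.range := by
    apply SetLike.coe_injective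
    rw [RingHom.coe_range, RingHom.coe_range]
    exact h
  let e₁ : L₁ ≃+* f₁.range := RingEquiv.ofBijective f₁.rangeRestrict
    ⟨fun a b hab => f₁.injective (congrArg Subtype.val hab), f₁.rangeRestrict_surjective⟩
  let e₂ : L₂ ≃+* f₂.range := RingEquiv.ofBijective f₂.rangeRestrict
    ⟨fun a b hab => f₂.injective (congrArg Subtype.val hab), f₂.rangeRestrict_surjective⟩
  let c : f₁.range ≃+* f₂.range := RingEquiv.subringCongr hr
  refine ⟨(e₁.trans c).trans e₂.symm, fun x => ?_⟩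
  have h1 : e₂ (((e₁.trans c).trans e₂.symm) x) = c (e₁ x) := by
    simp only [RingEquiv.trans_apply, RingEquiv.apply_symm_apply]
  have h2 := congrArg Subtype.val h1
  exact h2

/-- two extensions with the same images in `Ω` are isomorphic. -/
theorem ig_transport {K₁ L₁ K₂ L₂ : Type*} [Field K₁] [Field L₁] [Field K₂] [Field L₂]
    [Algebra K₁ L₁] [Algebra K₂ L₂] (f₁ : L₁ →+* Ω) (f₂ : L₂ →+* Ω)
    (hK : Set.range (f₁.comp (algebraMap K₁ L₁)) = Set.range (f₂.comp (algebraMap K₂ L₂)))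
    (hL : Set.range f₁ = Set.range f₂) :
    ∃ (e₁ : K₁ ≃+* K₂) (e₂ : L₁ ≃+* L₂),
      (algebraMap K₂ L₂).comp (e₁ : K₁ →+* K₂) = (e₂ : L₁ →+* L₂).comp (algebraMap K₁ L₁) := by
  obtain ⟨e₁, he₁⟩ := ig_exists_equiv _ _ hK
  obtain ⟨e₂, he₂⟩ := ig_exists_equiv _ _ hL
  refine ⟨e₁, e₂, RingHom.ext fun a => ?_⟩
  apply f₂.injective
  have h1 := he₁ a
  have h2 := he₂ (algebraMap K₁ L₁ a)
  simp only [RingHom.comp_apply, RingHom.coe_coe] at h1 h2 ⊢
  rw [h1, h2]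

theorem ig_finrank_eq {K₁ L₁ K₂ L₂ : Type*} [Field K₁] [Field L₁] [Field K₂] [Field L₂]
    [Algebra K₁ L₁] [Algebra K₂ L₂] (f₁ : L₁ →+* Ω) (f₂ : L₂ →+* Ω)
    (hK : Set.range (f₁.comp (algebraMap K₁ L₁)) = Set.range (f₂.comp (algebraMap K₂ L₂)))
    (hL : Set.range f₁ = Set.range f₂) :
    Module.finrank K₁ L₁ = Module.finrank K₂ L₂ := by
  obtain ⟨e₁, e₂, he⟩ := ig_transport f₁ f₂ hK hL
  exact Algebra.finrank_eq_of_equiv_equiv e₁ e₂ he

theorem ig_isSeparable_iff {K₁ L₁ K₂ L₂ : Type*} [Field K₁] [Field L₁] [Field K₂] [Field L₂]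
    [Algebra K₁ L₁] [Algebra K₂ L₂] (f₁ : L₁ →+* Ω) (f₂ : L₂ →+* Ω)
    (hK : Set.range (f₁.comp (algebraMap K₁ L₁)) = Set.range (f₂.comp (algebraMap K₂ L₂)))
    (hL : Set.range f₁ = Set.range f₂) :
    Algebra.IsSeparable K₁ L₁ ↔ Algebra.IsSeparable K₂ L₂ := by
  obtain ⟨e₁, e₂, he⟩ := ig_transport f₁ f₂ hK hL
  exact Algebra.IsSeparable.iff_of_equiv_equiv e₁ e₂ he

theorem ig_finiteDimensional_of {K₁ L₁ K₂ L₂ : Type*} [Field K₁] [Field L₁] [Field K₂]
    [Field L₂] [Algebra K₁ L₁] [Algebra K₂ L₂] (f₁ : L₁ →+* Ω) (f₂ : L₂ →+* Ω)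
    (hK : Set.range (f₁.comp (algebraMap K₁ L₁)) = Set.range (f₂.comp (algebraMap K₂ L₂)))
    (hL : Set.range f₁ = Set.range f₂) (h : FiniteDimensional K₁ L₁) :
    FiniteDimensional K₂ L₂ := by
  obtain ⟨e₁, e₂, he⟩ := ig_transport f₁ f₂ hK hL
  exact Module.Finite.of_equiv_equiv e₁ e₂ he

theorem ig_finiteDimensional_iff {K₁ L₁ K₂ L₂ : Type*} [Field K₁] [Field L₁] [Field K₂]
    [Field L₂] [Algebra K₁ L₁] [Algebra K₂ L₂] (f₁ : L₁ →+* Ω) (f₂ : L₂ →+* Ω)
    (hK : Set.range (f₁.comp (algebraMap K₁ L₁)) = Set.range (f₂.comp (algebraMap K₂ L₂)))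
    (hL : Set.range f₁ = Set.range f₂) :
    FiniteDimensional K₁ L₁ ↔ FiniteDimensional K₂ L₂ :=
  ⟨ig_finiteDimensional_of f₁ f₂ hK hL, ig_finiteDimensional_of f₂ f₁ hK.symm hL.symm⟩

end Fermat.Agent.S48WG
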