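/-
S48 wall (W), block G-RED, seat G-IGUSA, leaf IG-ABS (helper31), part 2: the BRIDGE between the
abstract residue fields `K = Frac (A₀ / P)`, `L = Frac (B / Q)` of the Dedekind argument
(`Red/Igusa/Defs.lean`) and subfields of a field `Ω` (in the application `Ω = k((u))`).

`ρ : B →+* Ω` a ring homomorphism to a field with kernel `Q`, `P = Q ∩ A₀`, and `F` a field with
`F → Ω` whose image is the subfield generated by `ρ (A₀)`.

* `igLift : L →+* Ω`, `igLift_mk`;
* `ig_bridge_base`, `ig_bridge_adjoin` : the images of `K` and of `K(ȳ)` in `Ω`;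
* `ig_bridge_finrank`, `ig_bridge_isSeparable_iff`, `ig_bridge_finiteDimensional_iff` : for a
  family `y : ι → B`, the extension `K(ȳ) / K` of the Dedekind argument and the extension
  `F(ρ y) / F` inside `Ω` have the same degree, and are separable / finite together.
-/
import Mathlib
import Fermat.Agent.S48.W.G.Red.Igusa.Defs
import Fermat.Agent.S48.W.G.Red.Igusa.Transport

set_option autoImplicit false
set_option linter.unusedSectionVars false

noncomputable section

namespace Fermat.Agent.S48WG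

/-! ### images of fraction fields and of adjoined fields -/

/-- the image of a fraction field is the subfield generated by the image of the ring. -/
theorem ig_range_of_isFractionRing {S F Ω : Type*} [CommRing S] [Field F] [Field Ω]
    [Algebra S F] [IsFractionRing S F] (θ : F →+* Ω) :
    Set.range θ = ↑(Subfield.closure (Set.range (θ.comp (algebraMap S F)))) := by
  ext z
  constructor
  · rintro ⟨x, rfl⟩
    obtain ⟨a, b, -, rfl⟩ := IsFractionRing.div_surjective S x
    rw [map_div₀]
    exact div_mem (Subfield.subset_closure ⟨a, rfl⟩) (Subfield.subset_closure ⟨b, rfl⟩)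
  · intro hz
    have hle : Subfield.closure (Set.range (θ.comp (algebraMap S F))) ≤ θ.fieldRange := by
      rw [Subfield.closure_le]
      rintro _ ⟨a, rfl⟩
      exact ⟨algebraMap S F a, rfl⟩
    exact hle hz

/-- the image of an adjoined field. -/
theorem ig_range_adjoin {F L Ω : Type*} [Field F] [Field L] [Field Ω] [Algebra F L]
    (ψ : L →+* Ω) (S : Set L) :
    Set.range (ψ.comp (algebraMap ↥(IntermediateField.adjoin F S) L)) =
      ↑(Subfield.closure (Set.range (ψ.comp (algebraMap F L)) ∪ ψ '' S)) := by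
  have h1 : Set.range (ψ.comp (algebraMap ↥(IntermediateField.adjoin F S) L)) =
      ψ '' (↑(IntermediateField.adjoin F S).toSubfield : Set L) := by
    ext z
    constructor
    · rintro ⟨x, rfl⟩
      exact ⟨x.1, x.2, rfl⟩
    · rintro ⟨x, hx, rfl⟩
      exact ⟨⟨x, hx⟩, rfl⟩
  rw [h1, IntermediateField.adjoin_toSubfield, ← Subfield.coe_map, RingHom.map_field_closure,
    Set.image_union]
  congr 3
  ext z
  constructor
  · rintro ⟨_, ⟨a, rfl⟩, rfl⟩
    exact ⟨a, rfl⟩
  · rintro ⟨a, rfl⟩
    exact ⟨_, ⟨a, rfl⟩, rfl⟩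

/-- the same inside `Ω`. -/
theorem ig_range_adjoin_self {F Ω : Type*} [Field F] [Field Ω] [Algebra F Ω] (S : Set Ω) :
    Set.range (algebraMap ↥(IntermediateField.adjoin F S) Ω) =
      ↑(Subfield.closure (Set.range (algebraMap F Ω) ∪ S)) := by
  have h := ig_range_adjoin (F := F) (RingHom.id Ω) S
  rw [RingHom.id_comp, RingHom.id_comp] at h
  rw [h]
  have h1 : (⇑(RingHom.id Ω)) '' S = S := by
    ext z
    simp
  rw [h1]

/-! ### the bridge -/

section Bridge

variable {A₀ B : Type} [CommRing A₀] [CommRing B] [Algebra A₀ B] {Ω : Type} [Field Ω]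
  (ρ : B →+* Ω) (P : Ideal A₀) (Q : Ideal B) [Q.IsPrime] [Q.LiesOver P]
  (K L : Type) [Field K] [Field L] [Algebra (A₀ ⧸ P) K] [Algebra (B ⧸ Q) L]
  [Algebra (A₀ ⧸ P) L] [IsScalarTower (A₀ ⧸ P) (B ⧸ Q) L] [Algebra K L]
  [IsScalarTower (A₀ ⧸ P) K L] [IsFractionRing (A₀ ⧸ P) K] [IsFractionRing (B ⧸ Q) L]
  (hQ : RingHom.ker ρ = Q)

/-- the map `B / Q → Ω` induced by `ρ`. -/
def igQuot : B ⧸ Q →+* Ω :=
  Ideal.Quotient.lift Q ρ (fun b hb => by rw [← hQ] at hb; exact hb)

theorem igQuot_mk (b : B) : igQuot ρ Q hQ (Ideal.Quotient.mk Q b) = ρ b := rfl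

theorem igQuot_injective : Function.Injective (igQuot ρ Q hQ) := by
  rw [injective_iff_map_eq_zero]
  intro x hx
  obtain ⟨b, rfl⟩ := Ideal.Quotient.mk_surjective x
  rw [igQuot_mk] at hx
  rw [Ideal.Quotient.eq_zero_iff_mem, ← hQ]
  exact hx

/-- the embedding of `L = Frac (B / Q)` into `Ω`. -/
def igLift : L →+* Ω :=
  IsFractionRing.lift (igQuot_injective ρ Q hQ)

theorem igLift_mk (b : B) :
    igLift ρ Q L hQ (algebraMap (B ⧸ Q) L (Ideal.Quotient.mk Q b)) = ρ b := by
  unfold igLift
  rw [IsFractionRing.lift_algebraMap]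
  rfl

theorem igLift_base (a : A₀) :
    igLift ρ Q L hQ (algebraMap K L (algebraMap (A₀ ⧸ P) K (Ideal.Quotient.mk P a))) =
      ρ (algebraMap A₀ B a) := by
  rw [← IsScalarTower.algebraMap_apply (A₀ ⧸ P) K L,
    IsScalarTower.algebraMap_apply (A₀ ⧸ P) (B ⧸ Q) L]
  exact igLift_mk ρ Q L hQ (algebraMap A₀ B a)

include P

/-- the image of `K = Frac (A₀ / P)` in `Ω` is the subfield generated by `ρ (A₀)`. -/
theorem ig_bridge_base :
    Set.range ((igLift ρ Q L hQ).comp (algebraMap K L)) =
      ↑(Subfield.closure (Set.range (ρ.comp (algebraMap A₀ B)))) := by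
  rw [ig_range_of_isFractionRing (S := A₀ ⧸ P)]
  congr 2
  ext z
  constructor
  · rintro ⟨x, rfl⟩
    obtain ⟨a, rfl⟩ := Ideal.Quotient.mk_surjective x
    exact ⟨a, (igLift_base ρ P Q K L hQ a).symm⟩
  · rintro ⟨a, rfl⟩
    exact ⟨Ideal.Quotient.mk _ a, igLift_base ρ P Q K L hQ a⟩

omit P in
omit [Q.LiesOver P] [Algebra (A₀ ⧸ P) K] [Algebra (A₀ ⧸ P) L] [IsScalarTower (A₀ ⧸ P) (B ⧸ Q) L]
  [IsScalarTower (A₀ ⧸ P) K L] [IsFractionRing (A₀ ⧸ P) K] in
/-- the image of the reductions of a family. -/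
theorem ig_image_redGen {ι : Type} (y : ι → B) :
    (igLift ρ Q L hQ) '' (redGen Q L y) = Set.range fun i => ρ (y i) := by
  ext z
  constructor
  · rintro ⟨_, ⟨i, rfl⟩, rfl⟩
    exact ⟨i, (igLift_mk ρ Q L hQ (y i)).symm⟩
  · rintro ⟨i, rfl⟩
    exact ⟨_, ⟨i, rfl⟩, igLift_mk ρ Q L hQ (y i)⟩

/-- the image of `K(ȳ)` in `Ω`. -/
theorem ig_bridge_adjoin {ι : Type} (y : ι → B) :
    Set.range ((igLift ρ Q L hQ).comp
      (algebraMap ↥(IntermediateField.adjoin K (redGen Q L y)) L)) =
      ↑(Subfield.closure ((↑(Subfield.closure (Set.range (ρ.comp (algebraMap A₀ B)))) : Set Ω) ∪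
        Set.range fun i => ρ (y i))) := by
  rw [ig_range_adjoin, ig_bridge_base ρ P Q K L hQ, ig_image_redGen]

section Main

variable {ι : Type} (y : ι → B) (F : Type) [Field F] [Algebra F Ω]
  (hF : Set.range (algebraMap F Ω) =
    ↑(Subfield.closure (Set.range (ρ.comp (algebraMap A₀ B)))))

include hF hQ

theorem ig_bridge_hK :
    Set.range (((igLift ρ Q L hQ).comp
        (algebraMap ↥(IntermediateField.adjoin K (redGen Q L y)) L)).comp
      (algebraMap K ↥(IntermediateField.adjoin K (redGen Q L y)))) =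
    Set.range ((algebraMap ↥(IntermediateField.adjoin F (Set.range fun i => ρ (y i))) Ω).comp
      (algebraMap F ↥(IntermediateField.adjoin F (Set.range fun i => ρ (y i))))) := by
  have h1 : ((igLift ρ Q L hQ).comp
        (algebraMap ↥(IntermediateField.adjoin K (redGen Q L y)) L)).comp
      (algebraMap K ↥(IntermediateField.adjoin K (redGen Q L y))) =
      (igLift ρ Q L hQ).comp (algebraMap K L) := rfl
  have h2 : (algebraMap ↥(IntermediateField.adjoin F (Set.range fun i => ρ (y i))) Ω).comp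
      (algebraMap F ↥(IntermediateField.adjoin F (Set.range fun i => ρ (y i)))) =
      algebraMap F Ω := rfl
  rw [h1, h2, ig_bridge_base ρ P Q K L hQ, hF]

theorem ig_bridge_hL :
    Set.range ((igLift ρ Q L hQ).comp
      (algebraMap ↥(IntermediateField.adjoin K (redGen Q L y)) L)) =
    Set.range (algebraMap ↥(IntermediateField.adjoin F (Set.range fun i => ρ (y i))) Ω) := by
  rw [ig_bridge_adjoin ρ P Q K L hQ, ig_range_adjoin_self, hF]

/-- **the bridge, degrees**. -/
theorem ig_bridge_finrank :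
    Module.finrank K ↥(IntermediateField.adjoin K (redGen Q L y)) =
    Module.finrank F ↥(IntermediateField.adjoin F (Set.range fun i => ρ (y i))) :=
  ig_finrank_eq _ _ (ig_bridge_hK ρ P Q K L hQ y F hF) (ig_bridge_hL ρ P Q K L hQ y F hF)

/-- **the bridge, separability**. -/
theorem ig_bridge_isSeparable_iff :
    Algebra.IsSeparable K ↥(IntermediateField.adjoin K (redGen Q L y)) ↔
    Algebra.IsSeparable F ↥(IntermediateField.adjoin F (Set.range fun i => ρ (y i))) :=
  ig_isSeparable_iff _ _ (ig_bridge_hK ρ P Q K L hQ y F hF) (ig_bridge_hL ρ P Q K L hQ y F hF)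

/-- **the bridge, finiteness**. -/
theorem ig_bridge_finiteDimensional_iff :
    FiniteDimensional K ↥(IntermediateField.adjoin K (redGen Q L y)) ↔
    FiniteDimensional F ↥(IntermediateField.adjoin F (Set.range fun i => ρ (y i))) :=
  ig_finiteDimensional_iff _ _ (ig_bridge_hK ρ P Q K L hQ y F hF)
    (ig_bridge_hL ρ P Q K L hQ y F hF)

end Main

end Bridge

end Fermat.Agent.S48WG
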