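/-
S48 (W), block G-RED, seat IG-ALG-2 (helper51): `degreeOfDistinct : DegreeStatement`.
Pure algebra (Mathlib only).

Setting: a finite group `G` acts on `B` with invariants `A₀`, EVERY `g` stabilises the prime `Q`,
`K = Frac (A₀ / P)`, `L = Frac (B / Q)`, `red : B → L` the reduction.  `H` fixes the family `y` and
the conjugates of `y` on different cosets of `H` have different reductions.

Proof.  `σ_g ∈ Gal(L/K)`, `σ_g (red x) = red (g • x)` (`IsFractionRing.stabilizerHom`).
* `H₀` = the normal core of `H`, `S₀ = B^{H₀}` (it contains all `g • y i`);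
  the characters `χ_q : S₀ → L`, `z ↦ red (q.out • z)`, `q ∈ G ⧸ H₀`, are pairwise different, hence
  linearly independent (Dedekind): there is `c ∈ S₀` with `Σ_q red (q.out • c) ≠ 0`;
* the relative trace `t z = Σ_q q.out • z` (`z ∈ S₀`) is `G`-invariant, so it comes from `A₀`;
* if `b ∈ S₀` and `red b` is fixed by all `σ_g` then `red b = red (t (c b)) / red (t c) ∈ K`;
* the polynomial `∏ (X - c)`, `c` in the (finite) set of conjugates of `red (y i)`, is separable,
  has coefficients of the form `red b`, `b ∈ S₀`, fixed by all `σ_g`: it is defined over `K`;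
* `q ↦ σ_{q.out}` restricted to `E = K(ȳ)` is an injection of `G ⧸ H` into `E →ₐ[K] L`.
-/
import Mathlib
import Fermat.Agent.S48.W.G.Red.Igusa.Defs

set_option autoImplicit false
set_option linter.unusedSectionVars false

namespace Fermat.Agent.S48WG

open Polynomial
open scoped Pointwise

namespace IgDeg

section

variable {A₀ B : Type} [CommRing A₀] [CommRing B] [Algebra A₀ B]
  {G : Type} [Group G] [MulSemiringAction G B]
  (P : Ideal A₀) (Q : Ideal B) [Q.LiesOver P]
  (K L : Type) [Field K] [Field L] [Algebra (A₀ ⧸ P) K] [Algebra (B ⧸ Q) L]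
  [Algebra (A₀ ⧸ P) L] [IsScalarTower (A₀ ⧸ P) (B ⧸ Q) L] [Algebra K L]
  [IsScalarTower (A₀ ⧸ P) K L]

/-- the reduction map `B → L`. -/
def red : B →+* L := (algebraMap (B ⧸ Q) L).comp (Ideal.Quotient.mk Q)

omit [Q.LiesOver P] in
theorem red_apply (x : B) : red Q L x = algebraMap (B ⧸ Q) L (Ideal.Quotient.mk Q x) := rfl

theorem red_algebraMap (a : A₀) :
    red Q L (algebraMap A₀ B a) = algebraMap K L (algebraMap (A₀ ⧸ P) K (Ideal.Quotient.mk P a)) := by
  rw [red_apply, ← IsScalarTower.algebraMap_apply (A₀ ⧸ P) K L,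
    IsScalarTower.algebraMap_apply (A₀ ⧸ P) (B ⧸ Q) L]
  rfl

end

section Fix

variable {B : Type} [CommRing B] {G : Type} [Group G] [MulSemiringAction G B]

/-- the ring of invariants of the normal core of `H`. -/
def fixRing (H : Subgroup G) : Subring B where
  carrier := {z | ∀ h ∈ H.normalCore, h • z = z}
  mul_mem' := fun {a b} ha hb h hh => by rw [smul_mul', ha h hh, hb h hh]
  one_mem' := fun h _ => smul_one h
  add_mem' := fun {a b} ha hb h hh => by rw [smul_add, ha h hh, hb h hh]
  zero_mem' := fun h _ => smul_zero h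
  neg_mem' := fun {a} ha h hh => by rw [smul_neg, ha h hh]

theorem mem_fixRing {H : Subgroup G} {z : B} :
    z ∈ fixRing (B := B) H ↔ ∀ h ∈ H.normalCore, h • z = z := Iff.rfl

theorem smul_mem_fixRing {H : Subgroup G} {z : B} (hz : z ∈ fixRing H) (g : G) :
    g • z ∈ fixRing H := by
  intro h hh
  have h1 : g⁻¹ * h * g ∈ H.normalCore := by
    have := (Subgroup.normalCore_normal H).conj_mem h hh g⁻¹
    simpa using this
  have h2 : h * g = g * (g⁻¹ * h * g) := by group
  rw [← mul_smul, h2, mul_smul, hz _ h1]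

theorem mem_fixRing_of_fixed {ι : Type} {y : ι → B} {H : Subgroup G}
    (hfix : ∀ h ∈ H, ∀ i, h • y i = y i) (i : ι) : y i ∈ fixRing H :=
  fun h hh => hfix h (H.normalCore_le hh) i

theorem smul_eq_smul_of_mem {H : Subgroup G} {z : B} (hz : z ∈ fixRing H) {g g' : G}
    (h : g⁻¹ * g' ∈ H.normalCore) : g • z = g' • z := by
  have h1 := hz _ h
  have h2 : g' = g * (g⁻¹ * g') := by group
  rw [h2, mul_smul, h1]

/-- the relative trace of an element of `fixRing H` is `G`-invariant. -/
theorem smul_sum_out {H : Subgroup G} [Fintype (G ⧸ H.normalCore)] {z : B}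
    (hz : z ∈ fixRing H) (g : G) :
    g • (∑ q : G ⧸ H.normalCore, (Quotient.out q : G) • z) =
      ∑ q : G ⧸ H.normalCore, (Quotient.out q : G) • z := by
  rw [Finset.smul_sum]
  have h1 : ∀ q : G ⧸ H.normalCore,
      g • (Quotient.out q : G) • z = (Quotient.out (g • q) : G) • z := by
    intro q
    rw [← mul_smul]
    apply smul_eq_smul_of_mem hz
    rw [← QuotientGroup.eq, QuotientGroup.out_eq']
    conv_rhs => rw [← QuotientGroup.out_eq' q]
    rfl
  simp_rw [h1]
  exact Fintype.sum_equiv (MulAction.toPerm g) _ _ (fun q => rfl)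

end Fix

section Sig

variable {A₀ B : Type} [CommRing A₀] [CommRing B] [Algebra A₀ B]
  {G : Type} [Group G] [Finite G] [MulSemiringAction G B] [SMulCommClass G A₀ B]
  [Algebra.IsInvariant A₀ B G]
  (P : Ideal A₀) (Q : Ideal B) [Q.IsPrime] [Q.LiesOver P]
  (K L : Type) [Field K] [Field L] [Algebra (A₀ ⧸ P) K] [Algebra (B ⧸ Q) L]
  [Algebra (A₀ ⧸ P) L] [IsScalarTower (A₀ ⧸ P) (B ⧸ Q) L] [Algebra K L]
  [IsScalarTower (A₀ ⧸ P) K L] [IsFractionRing (A₀ ⧸ P) K] [IsFractionRing (B ⧸ Q) L]

theorem red_eq_iff (x x' : B) : red Q L x = red Q L x' ↔ x - x' ∈ Q := by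
  rw [red_apply, red_apply, (IsFractionRing.injective (B ⧸ Q) L).eq_iff, Ideal.Quotient.eq]

theorem smul_ideal_eq (hstab : ∀ (g : G), ∀ b ∈ Q, g • b ∈ Q) (g : G) : g • Q = Q := by
  ext x
  rw [Ideal.mem_pointwise_smul_iff_inv_smul_mem]
  constructor
  · intro h
    have := hstab g _ h
    rwa [smul_inv_smul] at this
  · intro h
    exact hstab g⁻¹ x h

/-- the automorphism of `L / K` induced by `g`. -/
noncomputable def sig (hstab : ∀ (g : G), ∀ b ∈ Q, g • b ∈ Q) (g : G) : L ≃ₐ[K] L :=
  IsFractionRing.stabilizerHom G P Q K L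
    ⟨g, MulAction.mem_stabilizer_iff.2 (smul_ideal_eq Q hstab g)⟩

theorem sig_red (hstab : ∀ (g : G), ∀ b ∈ Q, g • b ∈ Q) (g : G) (x : B) :
    sig P Q K L hstab g (red Q L x) = red Q L (g • x) :=
  IsFractionRing.stabilizerHom_apply_apply_mk G P Q K L _ x

variable {P Q K L}

/-- two cosets of the normal core with the same character coincide. -/
theorem core_mem_of_red_eq {ι : Type} {y : ι → B} {H : Subgroup G} (hD : DistinctRed G Q y H)
    {g g' : G}
    (h : ∀ z ∈ fixRing (B := B) H, red Q L (g • z) = red Q L (g' • z)) :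
    g⁻¹ * g' ∈ H.normalCore := by
  intro b
  have h1 : ∀ i, (g * b⁻¹) • y i - (g' * b⁻¹) • y i ∈ Q := by
    intro i
    have hz : b⁻¹ • y i ∈ fixRing (B := B) H :=
      smul_mem_fixRing (mem_fixRing_of_fixed hD.1 i) b⁻¹
    have := h _ hz
    rw [red_eq_iff] at this
    rwa [mul_smul, mul_smul]
  have h2 := hD.2 _ _ h1
  have h3 : (g * b⁻¹)⁻¹ * (g' * b⁻¹) = b * (g⁻¹ * g') * b⁻¹ := by group
  rwa [h3] at h2

/-- Dedekind: the relative trace does not vanish identically modulo `Q`. -/
theorem exists_sum_red_ne_zero {ι : Type} {y : ι → B} {H : Subgroup G}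
    (hD : DistinctRed G Q y H) [Fintype (G ⧸ H.normalCore)] :
    ∃ c ∈ fixRing (B := B) H, ∑ q : G ⧸ H.normalCore, red Q L ((Quotient.out q : G) • c) ≠ 0 := by
  classical
  let χ : G ⧸ H.normalCore → (↥(fixRing (B := B) H) →* L) := fun q =>
    (((red Q L).comp ((MulSemiringAction.toRingHom G B (Quotient.out q : G)).comp
      (fixRing (B := B) H).subtype) : ↥(fixRing (B := B) H) →+* L) :
        ↥(fixRing (B := B) H) →* L)
  have hχ : ∀ q (z : ↥(fixRing (B := B) H)), χ q z = red Q L ((Quotient.out q : G) • (z : B)) :=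
    fun q z => rfl
  have hinj : Function.Injective χ := by
    intro q q' hqq
    have h1 : (Quotient.out q : G)⁻¹ * (Quotient.out q' : G) ∈ H.normalCore := by
      apply core_mem_of_red_eq (L := L) hD
      intro z hz
      have := DFunLike.congr_fun hqq ⟨z, hz⟩
      rwa [hχ, hχ] at this
    rw [← QuotientGroup.eq, QuotientGroup.out_eq', QuotientGroup.out_eq'] at h1
    exact h1
  have hli := (linearIndependent_monoidHom ↥(fixRing (B := B) H) L).comp χ hinj
  by_contra hcon
  push Not at hcon
  have hsum : ∑ q : G ⧸ H.normalCore, (1 : L) • ((fun f : ↥(fixRing (B := B) H) →* L =>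
      (f : ↥(fixRing (B := B) H) → L)) ∘ χ) q = 0 := by
    funext z
    rw [Finset.sum_apply]
    simp only [one_smul, Function.comp_apply, Pi.zero_apply]
    have := hcon z.1 z.2
    simpa [hχ] using this
  have := Fintype.linearIndependent_iff.1 hli (fun _ => (1 : L)) hsum
    ((1 : G) : G ⧸ H.normalCore)
  exact one_ne_zero this

include P in
/-- **the trace trick**: a residue of an element of `fixRing H` which is fixed by `G` lies in
`K`. -/
theorem red_mem_range_of_fixed {ι : Type} {y : ι → B} {H : Subgroup G}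
    (hD : DistinctRed G Q y H) {b : B} (hb : b ∈ fixRing (B := B) H)
    (hfix : ∀ g : G, red Q L (g • b) = red Q L b) :
    red Q L b ∈ Set.range (algebraMap K L) := by
  classical
  have : Fintype (G ⧸ H.normalCore) := Fintype.ofFinite _
  obtain ⟨c, hc, hne⟩ := exists_sum_red_ne_zero (L := L) hD
  have hinv : ∀ z ∈ fixRing (B := B) H,
      red Q L (∑ q : G ⧸ H.normalCore, (Quotient.out q : G) • z) ∈
        Set.range (algebraMap K L) := by
    intro z hz
    obtain ⟨a, ha⟩ := Algebra.IsInvariant.isInvariant (A := A₀) (G := G)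
      (∑ q : G ⧸ H.normalCore, (Quotient.out q : G) • z) (smul_sum_out hz)
    rw [← ha, red_algebraMap P Q K L]
    exact ⟨_, rfl⟩
  obtain ⟨k₁, hk₁⟩ := hinv (c * b) (mul_mem hc hb)
  obtain ⟨k₂, hk₂⟩ := hinv c hc
  have h1 : red Q L (∑ q : G ⧸ H.normalCore, (Quotient.out q : G) • (c * b)) =
      red Q L (∑ q : G ⧸ H.normalCore, (Quotient.out q : G) • c) * red Q L b := by
    rw [map_sum, map_sum, Finset.sum_mul]
    refine Finset.sum_congr rfl fun q _ => ?_
    rw [smul_mul', map_mul, hfix]
  have h2 : red Q L (∑ q : G ⧸ H.normalCore, (Quotient.out q : G) • c) ≠ 0 := by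
    rwa [map_sum]
  refine ⟨k₁ / k₂, ?_⟩
  rw [map_div₀, hk₁, hk₂, h1, mul_comm, mul_div_assoc, div_self h2, mul_one]

include P in
/-- the residue of an element of `fixRing H` is separable over `K`. -/
theorem isSeparable_red {ι : Type} {y : ι → B} {H : Subgroup G}
    (hstab : ∀ (g : G), ∀ b ∈ Q, g • b ∈ Q) (hD : DistinctRed G Q y H) {x : B}
    (hx : x ∈ fixRing (B := B) H) : IsSeparable K (red Q L x) := by
  classical
  have : Fintype G := Fintype.ofFinite G
  obtain ⟨T, hT⟩ : ∃ T : Finset L, T = Finset.univ.image (fun g : G => red Q L (g • x)) :=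
    ⟨_, rfl⟩
  obtain ⟨m, hm⟩ : ∃ m : L[X], m = ∏ c ∈ T, (X - C c) := ⟨_, rfl⟩
  -- separable
  have hsep : m.Separable := by
    rw [hm]
    exact (separable_prod_X_sub_C_iff' (f := fun c : L => c) (s := T)).2 (fun a _ b _ h => h)
  -- root
  have hroot : m.eval (red Q L x) = 0 := by
    rw [hm, Polynomial.eval_prod]
    apply Finset.prod_eq_zero (i := red Q L x)
    · rw [hT, Finset.mem_image]
      exact ⟨1, Finset.mem_univ _, by rw [one_smul]⟩
    · simp
  -- invariance
  have hTimg : ∀ g : G, T.image (sig P Q K L hstab g) = T := by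
    intro g
    ext c
    rw [Finset.mem_image]
    constructor
    · rintro ⟨c', hc', rfl⟩
      rw [hT, Finset.mem_image] at hc'
      obtain ⟨g', -, rfl⟩ := hc'
      rw [sig_red, ← mul_smul, hT, Finset.mem_image]
      exact ⟨g * g', Finset.mem_univ _, rfl⟩
    · intro hc
      rw [hT, Finset.mem_image] at hc
      obtain ⟨g', -, rfl⟩ := hc
      refine ⟨red Q L ((g⁻¹ * g') • x), ?_, ?_⟩
      · rw [hT, Finset.mem_image]
        exact ⟨g⁻¹ * g', Finset.mem_univ _, rfl⟩
      · rw [sig_red, ← mul_smul, mul_inv_cancel_left]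
  have hmap : ∀ g : G, m.map ((sig P Q K L hstab g : L ≃ₐ[K] L) : L →+* L) = m := by
    intro g
    calc m.map ((sig P Q K L hstab g : L ≃ₐ[K] L) : L →+* L)
        = ∏ c ∈ T, (X - C (sig P Q K L hstab g c)) := by
          rw [hm, Polynomial.map_prod]
          refine Finset.prod_congr rfl fun c _ => ?_
          rw [Polynomial.map_sub, Polynomial.map_X, Polynomial.map_C]
          rfl
      _ = ∏ c ∈ T.image (sig P Q K L hstab g), (X - C c) := by
          rw [Finset.prod_image (f := fun c : L => (X - C c : L[X]))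
            (g := fun c : L => sig P Q K L hstab g c)
            (fun a _ b _ hab => (sig P Q K L hstab g).injective hab)]
      _ = m := by rw [hTimg g, hm]
  -- lift to `fixRing H`
  let φ : ↥(fixRing (B := B) H) →+* L := (red Q L).comp (fixRing (B := B) H).subtype
  have hlift : m ∈ Polynomial.lifts φ := by
    rw [hm]
    apply Subsemiring.prod_mem
    intro c hc
    rw [hT, Finset.mem_image] at hc
    obtain ⟨g, -, rfl⟩ := hc
    rw [Polynomial.mem_lifts]
    refine ⟨X - C ⟨g • x, smul_mem_fixRing hx g⟩, ?_⟩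
    rw [Polynomial.map_sub, Polynomial.map_X, Polynomial.map_C]
    rfl
  have hcoeff : ∀ n, m.coeff n ∈ Set.range (algebraMap K L) := by
    intro n
    obtain ⟨b, hb⟩ := (Polynomial.lifts_iff_coeff_lifts m).1 hlift n
    have hb' : red Q L (b : B) = m.coeff n := hb
    rw [← hb']
    apply red_mem_range_of_fixed (P := P) hD b.2
    intro g
    rw [← sig_red P Q K L hstab, hb']
    conv_rhs => rw [← hmap g]
    rw [Polynomial.coeff_map]
    rfl
  have hlift' : m ∈ Polynomial.lifts (algebraMap K L) :=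
    (Polynomial.lifts_iff_coeff_lifts m).2 hcoeff
  obtain ⟨m', hm'⟩ := (Polynomial.mem_lifts m).1 hlift'
  have hsep' : m'.Separable := (Polynomial.separable_map (algebraMap K L)).1 (hm' ▸ hsep)
  have haeval : Polynomial.aeval (red Q L x) m' = 0 := by
    rw [Polynomial.aeval_def, Polynomial.eval₂_eq_eval_map, hm', hroot]
  exact hsep'.of_dvd (minpoly.dvd K _ haeval)

end Sig

end IgDeg

open IgDeg in
/-- **IG-ALG-2** -/
theorem degreeOfDistinct : DegreeStatement := by
  intro A₀ B _ _ _ G _ _ _ _ _ P Q _ _ K L _ _ _ _ _ _ _ _ _ _ ι _ y H hstab hD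
  classical
  have hsep_i : ∀ i, IsSeparable K (red Q L (y i)) := fun i =>
    isSeparable_red (P := P) hstab hD (mem_fixRing_of_fixed hD.1 i)
  have hS : ∀ x ∈ redGen Q L y, IsSeparable K x := by
    rintro _ ⟨i, rfl⟩
    exact hsep_i i
  have h1 : Algebra.IsSeparable K ↥(IntermediateField.adjoin K (redGen Q L y)) :=
    (IntermediateField.isSeparable_adjoin_iff_isSeparable K L).2 hS
  have hfin : Finite ↥(redGen Q L y) := Set.finite_range _
  have h2 : FiniteDimensional K ↥(IntermediateField.adjoin K (redGen Q L y)) :=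
    IntermediateField.finiteDimensional_adjoin (fun x hx => (hS x hx).isIntegral)
  refine ⟨h1, h2, ?_⟩
  let f : G ⧸ H → (↥(IntermediateField.adjoin K (redGen Q L y)) →ₐ[K] L) := fun q =>
    ((sig P Q K L hstab (Quotient.out q : G) : L ≃ₐ[K] L) : L →ₐ[K] L).comp
      (IntermediateField.adjoin K (redGen Q L y)).val
  have hf : Function.Injective f := by
    intro q q' hqq
    have h3 : ∀ i, (Quotient.out q : G) • y i - (Quotient.out q' : G) • y i ∈ Q := by
      intro i
      have hmem : red Q L (y i) ∈ IntermediateField.adjoin K (redGen Q L y) :=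
        IntermediateField.subset_adjoin K _ ⟨i, rfl⟩
      have := DFunLike.congr_fun hqq ⟨red Q L (y i), hmem⟩
      have h4 : sig P Q K L hstab (Quotient.out q : G) (red Q L (y i)) =
          sig P Q K L hstab (Quotient.out q' : G) (red Q L (y i)) := this
      rw [sig_red, sig_red, red_eq_iff] at h4
      exact h4
    have h5 := hD.2 _ _ h3
    rw [← QuotientGroup.eq, QuotientGroup.out_eq', QuotientGroup.out_eq'] at h5
    exact h5
  have hfinite : Finite (↥(IntermediateField.adjoin K (redGen Q L y)) →ₐ[K] L) := inferInstance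
  calc H.index = Nat.card (G ⧸ H) := rfl
    _ ≤ Nat.card (↥(IntermediateField.adjoin K (redGen Q L y)) →ₐ[K] L) :=
        Nat.card_le_card_of_injective f hf
    _ ≤ Module.finrank K ↥(IntermediateField.adjoin K (redGen Q L y)) :=
        card_algHom_le_finrank K _ L

end Fermat.Agent.S48WG
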