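/-
S48 wall (W), block G-RED, seat IG-ALG-1 (helper88; sketch by helper26): the abstract Dedekind
argument: the decomposition group of `Q` is everything.

Proof.  `D` = the stabiliser of `Q`, `E = K(ȳ) ⊆ L`.  `L / K` is normal and every `K`-automorphism
of `L` is induced by an element of `D` (`IsFractionRing.stabilizerHom_surjective`).  As `E / K` is
separable of degree `d`, there are `d` embeddings `E → L` over `K`; each one extends to `L`, so it
is `ȳ i ↦ class of σ • y i` for some `σ ∈ D`, and `σ H` determines the embedding, because `H` fixes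
the `y i`.  Hence `d ≤ #(image of D in G / H)`, and `d ≥ [G : H]` shows that every `g ∈ G` is
`σ h` with `σ ∈ D`, `h ∈ H`.  Then `g t g⁻¹ = σ (h t h⁻¹) σ⁻¹` acts as `σ t ^ n σ⁻¹`, which
stabilises `Q`: the conjugates of `t` are in `D`, and they generate `G`.
-/
import Fermat.Agent.S48.W.G.Red.Igusa.Defs

set_option autoImplicit false
set_option linter.style.haveILetI false

namespace Fermat.Agent.S48WG

open Polynomial
open scoped Pointwise

section

variable {B : Type} [CommRing B] {G : Type} [Group G] [MulSemiringAction G B]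

/-- An element of the stabiliser of `Q` maps `Q` into `Q`. -/
theorem igst_smul_mem {Q : Ideal B} {g : G} (hg : g ∈ MulAction.stabilizer G Q) {b : B}
    (hb : b ∈ Q) : g • b ∈ Q := by
  have h1 : g • b ∈ g • Q := Ideal.smul_mem_pointwise_smul g b Q hb
  rwa [MulAction.mem_stabilizer_iff.1 hg] at h1

/-- For a finite group: an element which maps `Q` into `Q` is in the stabiliser of `Q`. -/
theorem igst_mem_stabilizer [Finite G] {Q : Ideal B} {g : G} (hg : ∀ b ∈ Q, g • b ∈ Q) :
    g ∈ MulAction.stabilizer G Q := by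
  rw [MulAction.mem_stabilizer_iff]
  have hpow : ∀ n : ℕ, ∀ b ∈ Q, g ^ n • b ∈ Q := by
    intro n
    induction n with
    | zero => intro b hb; simpa using hb
    | succ n ih => intro b hb; rw [pow_succ, mul_smul]; exact ih _ (hg b hb)
  have hinv : ∀ b ∈ Q, g⁻¹ • b ∈ Q := by
    intro b hb
    have h1 : g⁻¹ = g ^ (orderOf g - 1) := by
      rw [eq_comm, ← mul_eq_one_iff_eq_inv, ← pow_succ,
        Nat.sub_add_cancel (orderOf_pos g), pow_orderOf_eq_one]
    rw [h1]
    exact hpow _ b hb
  refine le_antisymm ?_ ?_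
  · intro b hb
    rw [Ideal.mem_pointwise_smul_iff_inv_smul_mem] at hb
    have := hg _ hb
    rwa [smul_inv_smul] at this
  · intro b hb
    rw [Ideal.mem_pointwise_smul_iff_inv_smul_mem]
    exact hinv b hb

end

/-- **IG-ALG-1**: the decomposition group of `Q` is everything. -/
theorem stabTop : StabTopStatement := by
  intro A₀ B _ _ _ G _ _ _ _ _ P Q _ _ K L _ _ _ _ _ _ _ _ _ _ t ι _ y H ht hnc hdr hsep hdeg hconj
  classical
  haveI : P.IsPrime := Ideal.over_def Q P ▸ Ideal.IsPrime.under A₀ Q
  haveI hnormal : Normal K L := Ideal.IsFractionRing.normal G P Q K L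
  set E := IntermediateField.adjoin K (redGen Q L y) with hE
  -- `E / K` is finite
  have hidx : 0 < H.index := Nat.pos_of_ne_zero Subgroup.index_ne_zero_of_finite
  haveI hfin : FiniteDimensional K E := Module.finite_of_finrank_pos (lt_of_lt_of_le hidx hdeg)
  -- the number of embeddings
  have hcard : Nat.card (E →ₐ[K] L) = Module.finrank K E := by
    refine AlgHom.natCard_of_splits K E L fun x => ?_
    rw [IntermediateField.minpoly_eq]
    exact Normal.splits hnormal (x : L)
  -- every embedding comes from the stabiliser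
  have hemb : ∀ φ : E →ₐ[K] L, ∃ σ : MulAction.stabilizer G Q, ∀ i,
      φ ⟨algebraMap (B ⧸ Q) L (Ideal.Quotient.mk Q (y i)),
          IntermediateField.subset_adjoin K _ ⟨i, rfl⟩⟩ =
        algebraMap (B ⧸ Q) L (Ideal.Quotient.mk Q ((σ : G) • y i)) := by
    intro φ
    obtain ⟨ψ, hψ⟩ := IntermediateField.exists_algHom_of_splits
      (fun s : L => ⟨Normal.isIntegral hnormal s, Normal.splits hnormal s⟩) φ
    obtain ⟨σ, hσ⟩ := IsFractionRing.stabilizerHom_surjective G P Q K L
      (AlgEquiv.ofBijective ψ (AlgHom.normal_bijective K L L ψ))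
    refine ⟨σ, fun i => ?_⟩
    rw [← IsFractionRing.stabilizerHom_apply_apply_mk G P Q K L σ (y i), hσ, ← hψ]
    rfl
  choose s hs using hemb
  -- the map to `G ⧸ H`
  let f : (E →ₐ[K] L) → G ⧸ H := fun φ => ((s φ : G) : G ⧸ H)
  have hf : Function.Injective f := by
    intro φ ψ h
    have h1 : ((s φ : G))⁻¹ * (s ψ : G) ∈ H := QuotientGroup.eq.1 h
    refine IntermediateField.adjoin_algHom_ext K ?_
    rintro x ⟨i, rfl⟩
    have h2 : (s ψ : G) • y i = (s φ : G) • y i := by
      have := hdr.1 _ h1 i
      rw [mul_smul, inv_smul_eq_iff] at this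
      exact this
    exact (hs φ i).trans ((congrArg (fun b => algebraMap (B ⧸ Q) L (Ideal.Quotient.mk Q b))
      h2.symm).trans (hs ψ i).symm)
  haveI : Finite (E →ₐ[K] L) := Nat.finite_of_card_ne_zero (by
    rw [hcard]; exact (lt_of_lt_of_le hidx hdeg).ne')
  have hsurj : Function.Surjective f := by
    have hle : Nat.card (G ⧸ H) ≤ Nat.card (E →ₐ[K] L) := by
      rw [hcard]
      exact hdeg
    exact (Function.Injective.bijective_of_nat_card_le hf hle).2
  -- the conjugates of `t`
  have ht' : t ∈ MulAction.stabilizer G Q := igst_mem_stabilizer ht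
  have hconjt : ∀ g : G, g * t * g⁻¹ ∈ MulAction.stabilizer G Q := by
    intro g
    obtain ⟨φ, hφ⟩ := hsurj (g : G ⧸ H)
    have h1 : ((s φ : G))⁻¹ * g ∈ H := QuotientGroup.eq.1 hφ
    obtain ⟨n, hn⟩ := hconj _ h1
    refine igst_mem_stabilizer fun b hb => ?_
    have h2 : g * t * g⁻¹ =
        (s φ : G) * ((((s φ : G))⁻¹ * g) * t * (((s φ : G))⁻¹ * g)⁻¹) * ((s φ : G))⁻¹ := by
      group
    rw [h2, mul_smul, mul_smul, hn]
    exact igst_smul_mem (s φ).2 (igst_smul_mem
      ((MulAction.stabilizer G Q).zpow_mem ht' n)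
      (igst_smul_mem ((MulAction.stabilizer G Q).inv_mem (s φ).2) hb))
  have htop : MulAction.stabilizer G Q = ⊤ := by
    rw [eq_top_iff, ← hnc]
    refine (Subgroup.closure_le _).2 fun x hx => ?_
    obtain ⟨a, ha, hax⟩ := Group.mem_conjugatesOfSet_iff.1 hx
    rw [Set.mem_singleton_iff] at ha
    subst ha
    obtain ⟨c, rfl⟩ := isConj_iff.1 hax
    exact hconjt c
  intro g b hb
  exact igst_smul_mem (htop ▸ Subgroup.mem_top g) hb

end Fermat.Agent.S48WG
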