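/-
S48 wall (W), block G-RED, seat G-IGUSA, leaf IG-ABS (helper31), part 3: the Dedekind argument
INSIDE a field `Ω` (generic; in the application `Ω = k((u))`).

`G` finite acting on `B` with invariants `A₀`, `ρ : B →+* Ω` a ring homomorphism to a field,
`F → Ω` a field whose image is the subfield generated by `ρ (A₀)`.

* `ig_core` : if `t ∈ G` stabilises `ker ρ`, the conjugates of `t` generate `G`, `(y₀, H₀)` has
  distinct reductions with `F(ρ y₀) / F` separable of degree `≥ [G : H₀]`, and `h t h⁻¹` acts as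
  a power of `t` for `h ∈ H₀`, then for EVERY `(y₁, H₁)` with distinct reductions `F(ρ y₁) / F`
  is finite separable of degree `≥ [G : H₁]`.
  (`stabTop` + `degreeOfDistinct` + the bridge.)
-/
import Mathlib
import Fermat.Agent.S48.W.G.Red.Igusa.Bridge
import Fermat.Agent.S48.W.G.Red.Igusa.StabTop
import Fermat.Agent.S48.W.G.Red.Igusa.Degree

set_option autoImplicit false
set_option linter.style.haveILetI false

noncomputable section

namespace Fermat.Agent.S48WG

/-- `A₀ / (Q ∩ A₀) → Frac (B / Q)` is injective. -/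
theorem ig_faithful_under {A₀ B : Type} [CommRing A₀] [CommRing B] [Algebra A₀ B]
    (Q : Ideal B) [Q.IsPrime] :
    FaithfulSMul (A₀ ⧸ Q.under A₀) (FractionRing (B ⧸ Q)) := by
  rw [faithfulSMul_iff_algebraMap_injective,
    IsScalarTower.algebraMap_eq (A₀ ⧸ Q.under A₀) (B ⧸ Q) (FractionRing (B ⧸ Q))]
  exact (FaithfulSMul.algebraMap_injective (B ⧸ Q) (FractionRing (B ⧸ Q))).comp
    (FaithfulSMul.algebraMap_injective (A₀ ⧸ Q.under A₀) (B ⧸ Q))

/-- **the Dedekind argument inside `Ω`**. -/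
theorem ig_core (A₀ B : Type) [CommRing A₀] [CommRing B] [Algebra A₀ B]
    (G : Type) [Group G] [Finite G] [MulSemiringAction G B] [SMulCommClass G A₀ B]
    [Algebra.IsInvariant A₀ B G] (Ω : Type) [Field Ω] (ρ : B →+* Ω)
    (F : Type) [Field F] [Algebra F Ω]
    (hF : Set.range (algebraMap F Ω) =
      ↑(Subfield.closure (Set.range (ρ.comp (algebraMap A₀ B)))))
    (t : G) (ι₀ : Type) [Finite ι₀] (y₀ : ι₀ → B) (H₀ : Subgroup G)
    (ι₁ : Type) [Finite ι₁] (y₁ : ι₁ → B) (H₁ : Subgroup G)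
    (ht : ∀ b : B, ρ b = 0 → ρ (t • b) = 0)
    (hnc : Subgroup.normalClosure {t} = ⊤)
    (hD₀ : DistinctRed G (RingHom.ker ρ) y₀ H₀)
    (hconj : ∀ h ∈ H₀, ∃ n : ℤ, ∀ b : B, (h * t * h⁻¹) • b = t ^ n • b)
    (hsep : Algebra.IsSeparable F
      ↥(IntermediateField.adjoin F (Set.range fun i => ρ (y₀ i))))
    (hdeg : H₀.index ≤ Module.finrank F
      ↥(IntermediateField.adjoin F (Set.range fun i => ρ (y₀ i))))
    (hD₁ : DistinctRed G (RingHom.ker ρ) y₁ H₁) :
    Algebra.IsSeparable F ↥(IntermediateField.adjoin F (Set.range fun i => ρ (y₁ i))) ∧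
      FiniteDimensional F ↥(IntermediateField.adjoin F (Set.range fun i => ρ (y₁ i))) ∧
      H₁.index ≤ Module.finrank F
        ↥(IntermediateField.adjoin F (Set.range fun i => ρ (y₁ i))) := by
  have hQp : (RingHom.ker ρ).IsPrime := RingHom.ker_isPrime ρ
  have hfaith : FaithfulSMul (A₀ ⧸ (RingHom.ker ρ).under A₀)
      (FractionRing (B ⧸ RingHom.ker ρ)) := ig_faithful_under (RingHom.ker ρ)
  letI alg : Algebra (FractionRing (A₀ ⧸ (RingHom.ker ρ).under A₀))
      (FractionRing (B ⧸ RingHom.ker ρ)) :=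
    FractionRing.liftAlgebra (A₀ ⧸ (RingHom.ker ρ).under A₀) (FractionRing (B ⧸ RingHom.ker ρ))
  have htow : IsScalarTower (A₀ ⧸ (RingHom.ker ρ).under A₀)
      (FractionRing (A₀ ⧸ (RingHom.ker ρ).under A₀)) (FractionRing (B ⧸ RingHom.ker ρ)) :=
    FractionRing.isScalarTower_liftAlgebra (A₀ ⧸ (RingHom.ker ρ).under A₀)
      (FractionRing (B ⧸ RingHom.ker ρ))
  have hstab : ∀ (g : G), ∀ b ∈ RingHom.ker ρ, g • b ∈ RingHom.ker ρ :=
    stabTop A₀ B G ((RingHom.ker ρ).under A₀) (RingHom.ker ρ)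
      (FractionRing (A₀ ⧸ (RingHom.ker ρ).under A₀)) (FractionRing (B ⧸ RingHom.ker ρ))
      t ι₀ y₀ H₀ (fun b hb => ht b hb) hnc hD₀
      ((ig_bridge_isSeparable_iff ρ ((RingHom.ker ρ).under A₀) (RingHom.ker ρ)
        (FractionRing (A₀ ⧸ (RingHom.ker ρ).under A₀)) (FractionRing (B ⧸ RingHom.ker ρ))
        rfl y₀ F hF).mpr hsep)
      (by
        rw [ig_bridge_finrank ρ ((RingHom.ker ρ).under A₀) (RingHom.ker ρ)
          (FractionRing (A₀ ⧸ (RingHom.ker ρ).under A₀)) (FractionRing (B ⧸ RingHom.ker ρ))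
          rfl y₀ F hF]
        exact hdeg) hconj
  obtain ⟨h1, h2, h3⟩ := degreeOfDistinct A₀ B G ((RingHom.ker ρ).under A₀) (RingHom.ker ρ)
      (FractionRing (A₀ ⧸ (RingHom.ker ρ).under A₀)) (FractionRing (B ⧸ RingHom.ker ρ))
      ι₁ y₁ H₁ hstab hD₁
  refine ⟨?_, ?_, ?_⟩
  · exact (ig_bridge_isSeparable_iff ρ ((RingHom.ker ρ).under A₀) (RingHom.ker ρ)
        (FractionRing (A₀ ⧸ (RingHom.ker ρ).under A₀)) (FractionRing (B ⧸ RingHom.ker ρ))
        rfl y₁ F hF).mp h1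
  · exact (ig_bridge_finiteDimensional_iff ρ ((RingHom.ker ρ).under A₀) (RingHom.ker ρ)
        (FractionRing (A₀ ⧸ (RingHom.ker ρ).under A₀)) (FractionRing (B ⧸ RingHom.ker ρ))
        rfl y₁ F hF).mp h2
  · rw [← ig_bridge_finrank ρ ((RingHom.ker ρ).under A₀) (RingHom.ker ρ)
        (FractionRing (A₀ ⧸ (RingHom.ker ρ).under A₀)) (FractionRing (B ⧸ RingHom.ker ρ))
        rfl y₁ F hF]
    exact h3

end Fermat.Agent.S48WG
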