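/-
S48 wall (W), block G-RED, seat G-IGUSA, leaf IG-ABS (helper31): the ABSTRACT assembly.

* `igAbs : IgAbsStatement` (statement in `Red/Igusa/AbsDefs.lean`): Dedekind's argument inside
  `k((u))`, for the ring `B = igSub A G ex`, the prime `Q = ker (igRed A ex)`, the invariants
  `A[j]` (`ig_inv_sub`) and the base field `k(x̄)`, `x̄ = redSer A (ex j)`.
  Proof: `ig_core` (= `stabTop` + `degreeOfDistinct` + the bridge) for `ρ = igRed A ex`,
  `A₀ = A[X] → B`, `X ↦ j`.
-/
import Mathlib
import Fermat.Agent.S48.W.G.Red.Igusa.AbsRed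
import Fermat.Agent.S48.W.G.Red.Igusa.AbsCore

set_option autoImplicit false
set_option linter.style.haveILetI false

noncomputable section

namespace Fermat.Agent.S48WG

open ModularCurve HahnSeries Polynomial IntermediateField Fermat.Agent.GaussInt

section

variable {K : Type} [Field K] (A : ValuationSubring K) {R : Type} [CommRing R] [Algebra K R]
  {G : Type} [Group G] [MulSemiringAction G R] [SMulCommClass G K R]
  (ex : R →ₐ[K] LaurentSeries K) (j : R) (hjinv : ∀ g : G, g • j = j) (hj : IsIntK A (ex j))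

/-- the reductions of the polynomials in `j` lie in `k(x̄)`. -/
theorem igRed_igPoly_mem (P₀ : Polynomial A) :
    igRed A ex (igPoly A ex j hjinv hj P₀) ∈
      Subfield.closure (Set.range (algebraMap (IsLocalRing.ResidueField A)
        (LaurentSeries (IsLocalRing.ResidueField A))) ∪ {redSer A (ex j)}) := by
  induction P₀ using Polynomial.induction_on' with
  | add p q hp hq =>
    rw [map_add, map_add]
    exact add_mem hp hq
  | monomial n a =>
    rw [← Polynomial.C_mul_X_pow_eq_monomial, map_mul, map_pow, map_mul, map_pow,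
      igRed_igPoly_C, igRed_igPoly_X]
    have h1 : algebraMap (IsLocalRing.ResidueField A)
        (LaurentSeries (IsLocalRing.ResidueField A)) (IsLocalRing.residue A a) ∈
        Subfield.closure (Set.range (algebraMap (IsLocalRing.ResidueField A)
          (LaurentSeries (IsLocalRing.ResidueField A))) ∪ {redSer A (ex j)}) :=
      Subfield.subset_closure (Set.mem_union_left _ ⟨_, rfl⟩)
    have h2 : redSer A (ex j) ∈
        Subfield.closure (Set.range (algebraMap (IsLocalRing.ResidueField A)
          (LaurentSeries (IsLocalRing.ResidueField A))) ∪ {redSer A (ex j)}) :=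
      Subfield.subset_closure (Set.mem_union_right _ (Set.mem_singleton _))
    exact mul_mem h1 (pow_mem h2 n)

/-- the subfield generated by the reductions of the polynomials in `j` is `k(x̄)`. -/
theorem ig_closure_igPoly :
    Subfield.closure (Set.range ((igRed A ex).comp (igPoly A ex j hjinv hj))) =
      Subfield.closure (Set.range (algebraMap (IsLocalRing.ResidueField A)
        (LaurentSeries (IsLocalRing.ResidueField A))) ∪ {redSer A (ex j)}) := by
  apply le_antisymm
  · rw [Subfield.closure_le]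
    rintro _ ⟨P₀, rfl⟩
    exact igRed_igPoly_mem A ex j hjinv hj P₀
  · rw [Subfield.closure_le]
    rintro z (⟨c, rfl⟩ | hz)
    · obtain ⟨a, rfl⟩ := IsLocalRing.residue_surjective c
      apply Subfield.subset_closure
      exact ⟨Polynomial.C a, igRed_igPoly_C A ex j hjinv hj a⟩
    · rw [Set.mem_singleton_iff] at hz
      rw [hz]
      apply Subfield.subset_closure
      exact ⟨Polynomial.X, igRed_igPoly_X A ex j hjinv hj⟩

/-- the image of `k(x̄)` in `k((u))`. -/
theorem ig_range_base :
    Set.range (algebraMap ↥((IsLocalRing.ResidueField A)⟮redSer A (ex j)⟯)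
      (LaurentSeries (IsLocalRing.ResidueField A))) =
    ↑(Subfield.closure (Set.range ((igRed A ex).comp (igPoly A ex j hjinv hj)))) := by
  rw [ig_closure_igPoly, ← IntermediateField.adjoin_toSubfield]
  ext z
  constructor
  · rintro ⟨x, rfl⟩
    exact x.2
  · intro hz
    exact ⟨⟨z, hz⟩, rfl⟩

end

/-- **IG-ABS**: the abstract Dedekind argument, inside `k((u))`. -/
theorem igAbs : IgAbsStatement := by
  intro K _ A R _ _ G _ _ _ _ ex j t ι₀ _ y₀ H₀ ι₁ _ y₁ H₁ hjinv hj hord hlead hinv ht hnc hD₀
    hconj hsep hdeg hD₁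
  letI alg : Algebra (Polynomial A) ↥(igSub A G ex) := (igPoly A ex j hjinv hj).toAlgebra
  have hcomm : SMulCommClass G (Polynomial A) ↥(igSub A G ex) := ⟨fun g P b => by
    rw [Algebra.smul_def, Algebra.smul_def, smul_mul']
    congr 1
    exact smul_igPoly A ex j hjinv hj g P⟩
  have hinvt : Algebra.IsInvariant (Polynomial A) ↥(igSub A G ex) G := ⟨fun b hb => by
    obtain ⟨P₀, hP₀⟩ := (ig_inv_sub A ex j hjinv hj hord hlead hinv b.1).mp
      ⟨b.2, fun g => congrArg Subtype.val (hb g)⟩
    exact ⟨P₀, Subtype.ext hP₀.symm⟩⟩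
  have hF : Set.range (algebraMap ↥((IsLocalRing.ResidueField A)⟮redSer A (ex j)⟯)
      (LaurentSeries (IsLocalRing.ResidueField A))) =
      ↑(Subfield.closure (Set.range ((igRed A ex).comp
        (algebraMap (Polynomial A) ↥(igSub A G ex))))) :=
    ig_range_base A ex j hjinv hj
  have ht' : ∀ b : ↥(igSub A G ex), igRed A ex b = 0 → igRed A ex (t • b) = 0 := by
    intro b hb
    rw [igRed_eq_zero_iff] at hb ⊢
    exact ht b.1 b.2 hb
  have hconj' : ∀ h ∈ H₀, ∃ n : ℤ, ∀ b : ↥(igSub A G ex), (h * t * h⁻¹) • b = t ^ n • b := by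
    intro h hh
    obtain ⟨n, hn⟩ := hconj h hh
    exact ⟨n, fun b => Subtype.ext (hn b.1)⟩
  have hdist : ∀ (ι : Type) (y : ι → R) (H : Subgroup G) (hD : IgDistinct A ex y H),
      DistinctRed G (RingHom.ker (igRed A ex)) (fun i => (⟨y i, hD.1 i⟩ : ↥(igSub A G ex)))
        H := by
    intro ι y H hD
    refine ⟨fun h hh i => Subtype.ext (hD.2.1 h hh i), fun g g' hgg' => ?_⟩
    apply hD.2.2 g g'
    intro i
    have h1 := (mem_ker_igRed A ex _).mp (hgg' i)
    rw [← map_sub]
    exact h1
  exact ig_core (Polynomial A) ↥(igSub A G ex) G (LaurentSeries (IsLocalRing.ResidueField A))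
    (igRed A ex) ↥((IsLocalRing.ResidueField A)⟮redSer A (ex j)⟯) hF t
    ι₀ (fun i => (⟨y₀ i, hD₀.1 i⟩ : ↥(igSub A G ex))) H₀
    ι₁ (fun i => (⟨y₁ i, hD₁.1 i⟩ : ↥(igSub A G ex))) H₁
    ht' hnc (hdist ι₀ y₀ H₀ hD₀) hconj' hsep hdeg (hdist ι₁ y₁ H₁ hD₁)

end Fermat.Agent.S48WG
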