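/-
S48 wall (W), block G-RED, seat G-IGUSA, leaf IG-DAT-J (helper9):
the family `y₀ = (j(dτ))_{d ∣ M}` in the ambient ring `AHb M`, with expansions `jdFamExp M`, is
distinct for `H₀ = ` image of `Γ₀(M)` in `SL₂(ℤ)/Γ(M)`:
`igDatJ_of : IgJ0Statement → IgDatJStatement`, `igDatJ : IgDatJStatement`.
-/
import Mathlib
import Fermat.Agent.S48.W.G.Red.Igusa.DatDefs
import Fermat.Agent.S48.W.G.Red.Igusa.J0

set_option autoImplicit false
set_option synthInstance.maxHeartbeats 400000

noncomputable section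

namespace Fermat.Agent.S48WG

open UpperHalfPlane ModularCurve AlgebraicCurve IntermediateField
open Fermat.Agent.S24 Fermat.Agent.S24.GensExp Fermat.Agent.S48W Fermat.Agent.S48WA1
open Fermat.Agent.S48WKron Fermat.Agent.GaussInt
open scoped MatrixGroups Real

theorem igDatJ_jd_congr {d d' : ℕ} [NeZero d] [NeZero d'] (h : d = d') : jd d = jd d' := by
  subst h
  rfl

theorem igDatJ_hasExp_zero (M : ℕ) : HasExp M (0 : Fun) (0 : LaurentSeries Kbar) := by
  have h := HasExp.algebraMap M (0 : Kbar)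
  rwa [map_zero, map_zero] at h

theorem igDatJ_jdFam_mem (M : ℕ) [NeZero M] (i : Fin M) : IsAHb M (jdFam M i) := by
  unfold jdFam
  split_ifs with h
  · exact AL_le_AHb M (jd_mem_AL h)
  · exact (AHb M).zero_mem

theorem igDatJ_hasExp (M : ℕ) [NeZero M] (i : Fin M) :
    HasExp M (jdFam M i) (jdFamExp M i) := by
  unfold jdFam jdFamExp
  split_ifs with h
  · exact hasExp_jd M (i.val + 1) h
  · exact igDatJ_hasExp_zero M

/-- `Γ₀(M)` fixes `j_d` for `d ∣ M`. -/
theorem igDatJ_smul_jd {M d : ℕ} [NeZero d] (hd : d ∣ M) {γ : SL(2, ℤ)}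
    (hγ : γ ∈ CongruenceSubgroup.Gamma0 M) : γ • jd d = jd d := by
  rw [smul_jd_eq_iff]
  apply EmbFStab.mem_Gamma0_of_dvd
  exact (Int.natCast_dvd_natCast.2 hd).trans (EmbFStab.dvd_of_mem_Gamma0 hγ)

/-- **IG-DAT-J**, from IG-J0. -/
theorem igDatJ_of : IgJ0Statement → IgDatJStatement := by
  intro hJ M _ p hp hpM A hA
  obtain ⟨hint, hdist⟩ := hJ M p hp hpM A hA
  have hM0 : 0 < M := Nat.pos_of_ne_zero (NeZero.ne M)
  set y : Fin M → AHb M := fun i => ⟨jdFam M i, igDatJ_jdFam_mem M i⟩ with hy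
  have hcoe : ∀ (γ : SL(2, ℤ)) (i : Fin M), ((γ • y i : AHb M) : Fun) = γ • jdFam M i :=
    fun γ i => rfl
  refine ⟨y, fun i => expAHb_eq (f := y i) (igDatJ_hasExp M i), ?_, ?_, ?_⟩
  · -- all conjugates have `A`-integral expansions
    intro i g
    induction g using QuotientGroup.induction_on with
    | H γ =>
      rw [GW.mk_smul]
      have h := hasExp_expAHb (γ • y i)
      rw [hcoe] at h
      by_cases hd : (i.val + 1) ∣ M
      · have e : jdFam M i = jd (i.val + 1) := if_pos hd
        rw [e] at h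
        exact hint (i.val + 1) hd γ _ h
      · have e : jdFam M i = 0 := if_neg hd
        rw [e, smul_zero] at h
        rw [h.unique (igDatJ_hasExp_zero M)]
        intro n
        rw [HahnSeries.coeff_zero]
        exact A.zero_mem
  · -- fixed by `H₀`
    rintro h ⟨γ, hγ, rfl⟩ i
    show (QuotientGroup.mk γ : GW M) • y i = y i
    rw [GW.mk_smul]
    apply Subtype.ext
    rw [hcoe]
    show γ • jdFam M i = jdFam M i
    by_cases hd : (i.val + 1) ∣ M
    · have e : jdFam M i = jd (i.val + 1) := if_pos hd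
      rw [e]
      exact igDatJ_smul_jd hd hγ
    · have e : jdFam M i = 0 := if_neg hd
      rw [e, smul_zero]
  · -- distinct reductions on different cosets
    intro g g' hgg'
    induction g using QuotientGroup.induction_on with
    | H γ =>
      induction g' using QuotientGroup.induction_on with
      | H γ' =>
        have hi : M - 1 < M := by omega
        have hval : (⟨M - 1, hi⟩ : Fin M).val + 1 = M := by
          show M - 1 + 1 = M
          omega
        have e₀ : jdFam M ⟨M - 1, hi⟩ = jd M := by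
          have e1 : jdFam M ⟨M - 1, hi⟩ = jd ((⟨M - 1, hi⟩ : Fin M).val + 1) :=
            if_pos (by rw [hval])
          rw [e1]
          exact igDatJ_jd_congr hval
        have h0 := hgg' ⟨M - 1, hi⟩
        rw [GW.mk_smul, GW.mk_smul] at h0
        have ha := hasExp_expAHb (γ • y ⟨M - 1, hi⟩)
        have ha' := hasExp_expAHb (γ' • y ⟨M - 1, hi⟩)
        rw [hcoe, e₀] at ha ha'
        have hmem : γ⁻¹ * γ' ∈ CongruenceSubgroup.Gamma0 M := hdist γ γ' _ _ ha ha' h0
        exact ⟨γ⁻¹ * γ', hmem, rfl⟩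

/-- **IG-DAT-J**. -/
theorem igDatJ : IgDatJStatement := igDatJ_of igJ0

end Fermat.Agent.S48WG
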