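/-
S48 wall (W), block G-RED, seat G-IGUSA, leaf IG-DAT-Y (helper98):
the element `y₁ = (F_{(1,0)} - j) / 12` in the ambient ring `AHb M`, with its expansion
`(fricke M 1 - j(q^M)) / 12`, is distinct for `H₁ = ` image of `Stab(y₁)` in `SL₂(ℤ)/Γ(M)`:
`igDatY : IgF1Statement → IgDatYStatement`  (uses hub A1 `frickeExp`).
-/
import Mathlib
import Fermat.Agent.S48.W.G.Red.Igusa.DatDefs
import Fermat.Agent.S48.W.A1.Final

set_option autoImplicit false
set_option synthInstance.maxHeartbeats 400000

noncomputable section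

namespace Fermat.Agent.S48WG

open UpperHalfPlane ModularCurve AlgebraicCurve IntermediateField
open Fermat.Agent.S24 Fermat.Agent.S48W Fermat.Agent.S48WA1 Fermat.Agent.S48WKron
open Fermat.Agent.GaussInt
open scoped MatrixGroups Real

/-- the expansion of `y₁ = (F_{(1,0)} - j)/12` at `∞`. -/
theorem igDatY_hasExp (M : ℕ) [NeZero M] (hM : 2 ≤ M) :
    HasExp M (yOneFun M)
      (HahnSeries.C (12⁻¹ : Kbar) *
        (coeffEmb Kbar (fricke M 1) - qExpand Kbar M (jqModC Kbar))) := by
  have h1 := (frickeExp M).2 1 one_pos (by exact_mod_cast hM)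
  rw [Int.cast_one] at h1
  have h2 := Fermat.Agent.S24Inv.hasExp_jFun M
  have h3 := (HasExp.algebraMap M (12⁻¹ : Kbar)).mul (h1.sub h2)
  have e : algebraMap Kbar (LaurentSeries Kbar) (12⁻¹ : Kbar) = HahnSeries.C (12⁻¹ : Kbar) := by
    rw [Fermat.Agent.S24Inv.algebraMap_eq_single]
    rfl
  rw [e] at h3
  exact h3

/-- **IG-DAT-Y.** -/
theorem igDatY : IgF1Statement → IgDatYStatement := by
  intro hF M _ hM p hp hpM A hA
  obtain ⟨hAH, hrest⟩ := hF M hM
  obtain ⟨hint, hdist⟩ := hrest p hp hpM A hA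
  set y : AHb M := ⟨yOneFun M, hAH⟩ with hy
  have hcoe : ∀ γ : SL(2, ℤ), ((γ • y : AHb M) : Fun) = γ • yOneFun M := fun γ => rfl
  refine ⟨fun _ => y, rfl, ?_, ?_, ?_, ?_⟩
  · exact expAHb_eq (f := y) (igDatY_hasExp M hM)
  · -- all conjugates have `A`-integral expansions
    intro i g
    induction g using QuotientGroup.induction_on with
    | H γ =>
      rw [GW.mk_smul]
      have h := hasExp_expAHb (γ • y)
      rw [hcoe] at h
      exact hint γ _ h
  · -- fixed by `H₁`
    rintro h ⟨γ, hγ, rfl⟩ i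
    have h1 : γ • yOneFun M = yOneFun M := hγ
    show (QuotientGroup.mk γ : GW M) • y = y
    rw [GW.mk_smul]
    exact Subtype.ext ((hcoe γ).trans h1)
  · -- distinct reductions on different cosets
    intro g g' hgg'
    induction g using QuotientGroup.induction_on with
    | H γ =>
      induction g' using QuotientGroup.induction_on with
      | H γ' =>
        have h0 := hgg' ()
        rw [GW.mk_smul, GW.mk_smul] at h0
        have ha := hasExp_expAHb (γ • y)
        have ha' := hasExp_expAHb (γ' • y)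
        rw [hcoe] at ha ha'
        have heq : γ • yOneFun M = γ' • yOneFun M := hdist γ γ' _ _ ha ha' h0
        have hmem : γ⁻¹ * γ' ∈ MulAction.stabilizer SL(2, ℤ) (yOneFun M) := by
          rw [MulAction.mem_stabilizer_iff, mul_smul, ← heq, inv_smul_smul]
        exact ⟨γ⁻¹ * γ', hmem, rfl⟩

end Fermat.Agent.S48WG
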