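/-
S48 wall (W), block G-RED, seat G-IGUSA, leaf IG-DEG0 (helper1), part 1: THE EMBEDDING.

`igEmb M : ↥(FOneBar M) →ₐ[ℚ̄] LHb M`, the embedding of the function field of `X₁(M)` over `ℚ̄`
in helper24's ambient field `LHb M`, in the convention of hub A1 (the formal `q` is
`u = e(τ/M)`):  `expLHb M (igEmb M y) = y`.

* `j(q^d)` (`d ∣ M`) is the expansion of `S • j_{M/d}` (`= j(dτ/M)`),
* `fricke M a` is the expansion of `frickeFun M a 0`.
-/
import Mathlib
import Fermat.Agent.S48.W.A1.Final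
import Fermat.Agent.S48.W.G.Kron.EmbAbs
import Fermat.Agent.S48.W.G.Kron.FrickeAmb
import Fermat.Agent.S24.GensExp

set_option autoImplicit false
set_option linter.style.haveILetI false

noncomputable section

namespace Fermat.Agent.S48WG

open UpperHalfPlane ModularCurve IntermediateField
open Fermat.Agent.S24 Fermat.Agent.S48W Fermat.Agent.S48WA1 Fermat.Agent.S48WKron
open scoped MatrixGroups

/-- `coeffEmb` of `j(q^d)`. -/
theorem igEmb_coeffEmb_jqd (d : ℕ) [NeZero d] :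
    coeffEmb Kbar (qExpand ℚ d jq) = qExpand Kbar d (jqModC Kbar) := by
  unfold coeffEmb
  rw [coeffMap_qExpand, ← jqModC_rat, coeffMap_jqModC]

/-- `(S • j_{d'})(τ) = j(τ/d')` has the expansion `j(u^d)` in `u = e(τ/(d' d))`. -/
theorem igEmb_hasExp_S_smul_jd (M d d' : ℕ) [NeZero d] [NeZero d'] (h : d' * d = M) :
    HasExp M (ModularGroup.S • jd d') (qExpand Kbar d (jqModC Kbar)) := by
  subst h
  haveI : NeZero (d' * d) := ⟨mul_ne_zero (NeZero.ne d') (NeZero.ne d)⟩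
  exact (hasExp_S_smul_jd d').qExpand d

/-- `S • j_{d'}` lies in the ambient ring, `d' ∣ M`. -/
theorem igEmb_isAHb_S_smul_jd (M d' : ℕ) [NeZero M] [NeZero d'] (h : d' ∣ M) :
    IsAHb M (ModularGroup.S • jd d') :=
  AL_le_AHb M (smul_mem_AL M ModularGroup.S (jd_mem_AL h))

/-- the generators of `FOne M` are expansions of elements of `LHb M`. -/
theorem igGenInRange (M : ℕ) [NeZero M] :
    GenInRange (expLHb M) (AlgHom.id Kbar (LaurentSeries Kbar)) (genOne M) := by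
  rintro g (⟨d, hd0, hd, rfl⟩ | ⟨a, ha, rfl⟩)
  · -- `j(q^d)`
    obtain ⟨d', hd'⟩ := hd
    have hd'0 : d' ≠ 0 := by
      rintro rfl
      rw [mul_zero] at hd'
      exact NeZero.ne M hd'
    haveI : NeZero d' := ⟨hd'0⟩
    have hM : d' * d = M := by rw [hd', mul_comm]
    have h1 := igEmb_hasExp_S_smul_jd M d d' hM
    have h2 := igEmb_isAHb_S_smul_jd M d' (Dvd.intro _ hM)
    rw [AlgHom.id_apply, igEmb_coeffEmb_jqd]
    exact AlgHom.mem_fieldRange.mpr ⟨LHb.ofFun _ h2, expLHb_ofFun _ h2 h1⟩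
  · -- `fricke M a`
    have hv0 : 0 < a.val := Nat.pos_of_ne_zero (fun h => ha ((ZMod.val_eq_zero a).mp h))
    have hvM : a.val < M := ZMod.val_lt a
    have hcast : (((a.val : ℕ) : ℤ) : ZMod M) = a := by
      rw [Int.cast_natCast, ZMod.natCast_zmod_val]
    have hndvd : ¬ (M : ℤ) ∣ ((a.val : ℕ) : ℤ) := by
      intro h
      have := Int.natCast_dvd_natCast.mp h
      exact absurd (Nat.le_of_dvd hv0 this) (not_le.mpr hvM)
    have h1 := (frickeExp M).2 ((a.val : ℕ) : ℤ) (by exact_mod_cast hv0) (by exact_mod_cast hvM)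
    rw [hcast] at h1
    have h2 := isAHb_frickeFun M ((a.val : ℕ) : ℤ) 0 (isNZ_zero_right hndvd)
    rw [AlgHom.id_apply]
    exact AlgHom.mem_fieldRange.mpr ⟨LHb.ofFun _ h2, expLHb_ofFun _ h2 h1⟩

/-- **the embedding** of `ℚ̄ F₁(M)` in the ambient field `LHb M` (convention of hub A1). -/
def igEmb (M : ℕ) [NeZero M] : ↥(FOneBar M) →ₐ[Kbar] LHb M :=
  embAbs (e := expLHb M) (θ := AlgHom.id Kbar (LaurentSeries Kbar)) (G := genOne M)
    (igGenInRange M)

/-- `expLHb M (igEmb M y) = y`. -/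
theorem expLHb_igEmb (M : ℕ) [NeZero M] (y : ↥(FOneBar M)) :
    expLHb M (igEmb M y) = (y : LaurentSeries Kbar) :=
  e_embAbs (e := expLHb M) (θ := AlgHom.id Kbar (LaurentSeries Kbar)) (G := genOne M)
    (igGenInRange M) y

/-- `igEmb M y = z` iff the expansion of `z` is `y`. -/
theorem igEmb_eq_iff (M : ℕ) [NeZero M] (y : ↥(FOneBar M)) (z : LHb M) :
    igEmb M y = z ↔ expLHb M z = (y : LaurentSeries Kbar) := by
  constructor
  · rintro rfl
    exact expLHb_igEmb M y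
  · intro h
    apply expLHb_injective M
    rw [expLHb_igEmb, h]

/-- the expansion of `j` is `j(u^M)`. -/
theorem igEmb_expLHb_jLHb (M : ℕ) [NeZero M] :
    expLHb M (jLHb M) = qExpand Kbar M (jqModC Kbar) := by
  have h := igEmb_hasExp_S_smul_jd M M 1 (one_mul M)
  have hS : (ModularGroup.S • jd 1 : Fun) = jFun := by
    rw [EmbFHom.jd_one, jFun_smul]
  rw [hS] at h
  exact expLHb_ofFun jFun (jAHb M).2 h

/-- `igEmb M` maps `j(q^M)` to `j`. -/
theorem igEmb_x (M : ℕ) [NeZero M] (x : ↥(FOneBar M))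
    (hx : (x : LaurentSeries Kbar) = qExpand Kbar M (jqModC Kbar)) : igEmb M x = jLHb M := by
  rw [igEmb_eq_iff, hx]
  exact igEmb_expLHb_jLHb M

/-- the value of `igEmb M` on `j(q^d)`, `d' d = M`. -/
theorem igEmb_jqd (M d d' : ℕ) [NeZero M] [NeZero d] [NeZero d'] (h : d' * d = M)
    (y : ↥(FOneBar M)) (hy : (y : LaurentSeries Kbar) = qExpand Kbar d (jqModC Kbar)) :
    igEmb M y = LHb.ofFun (ModularGroup.S • jd d')
      (igEmb_isAHb_S_smul_jd M d' (Dvd.intro _ h)) := by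
  rw [igEmb_eq_iff, hy]
  exact expLHb_ofFun _ _ (igEmb_hasExp_S_smul_jd M d d' h)

/-- the value of `igEmb M` on a Fricke function. -/
theorem igEmb_fricke (M : ℕ) [NeZero M] (a : ℤ) (ha : ¬ (M : ℤ) ∣ a)
    (y : ↥(FOneBar M))
    (hy : (y : LaurentSeries Kbar) = coeffEmb Kbar (fricke M ((a : ℤ) : ZMod M))) :
    igEmb M y = LHb.ofFun (frickeFun M a 0) (isAHb_frickeFun M a 0 (isNZ_zero_right ha)) := by
  rw [igEmb_eq_iff, hy]
  -- reduce to the representative `a % M`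
  have hr : 0 < a % (M : ℤ) ∧ a % (M : ℤ) < M := by
    have hM : (0 : ℤ) < M := by exact_mod_cast Nat.pos_of_ne_zero (NeZero.ne M)
    refine ⟨lt_of_le_of_ne (Int.emod_nonneg a hM.ne') ?_, Int.emod_lt_of_pos a hM⟩
    intro h
    exact ha (Int.dvd_of_emod_eq_zero h.symm)
  have h1 := (frickeExp M).2 (a % (M : ℤ)) hr.1 hr.2
  have hc : (((a % (M : ℤ) : ℤ)) : ZMod M) = ((a : ℤ) : ZMod M) := by
    rw [ZMod.intCast_mod]
  rw [hc] at h1
  have hF : frickeFun M (a % (M : ℤ)) 0 = frickeFun M a 0 := by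
    have h2 := frickeFun_add M a 0 (-(a / (M : ℤ))) 0
    have e1 : a + (M : ℤ) * -(a / (M : ℤ)) = a % (M : ℤ) := by
      have := Int.emod_add_mul_ediv a (M : ℤ)
      linarith
    rw [e1, mul_zero, add_zero] at h2
    exact h2
  rw [hF] at h1
  exact expLHb_ofFun _ _ h1

end Fermat.Agent.S48WG
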