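/-
S48 wall (W), block G-RED, seat G-IGUSA, leaf IG-DEG0 (helper1), part 2: THE DEGREE BOUND, from
the stabiliser statement (S) (`Igusa/Deg0Stab.lean`, helper9).

`L = LHb M` with the action of `SL₂(ℤ)` (through the finite quotient by `Γ(M)`), invariants
`ℚ̄(j)`; `F = ℚ̄ F₁(M)` embedded by `igEmb M`; `H' =` the fixer of the image.  Artin
(`S24Gal.finrank_eq_index`): `[F : ℚ̄(x)] = [SL₂(ℤ) : H']`; the generators of `F` are fixed by
`Stab(y₁)`, so `Stab(y₁) ≤ H'` and `[SL₂(ℤ) : H'] ≤ [SL₂(ℤ) : Stab(y₁)]`.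
-/
import Mathlib
import Fermat.Agent.S48.W.G.Red.Igusa.LeafDefs
import Fermat.Agent.S48.W.G.Red.Igusa.Emb
import Fermat.Agent.S24.GaloisDatum

set_option autoImplicit false
set_option linter.style.haveILetI false
set_option synthInstance.maxHeartbeats 400000

noncomputable section

namespace Fermat.Agent.S48WG

open UpperHalfPlane ModularCurve IntermediateField
open Fermat.Agent.S24 Fermat.Agent.S48W Fermat.Agent.S48WA1 Fermat.Agent.S48WKron
open scoped MatrixGroups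

/-- (S) the stabiliser of `y₁` fixes the functions `F_{(a,0)}` and `S • j_d` (`d ∣ M`). -/
def IgDeg0StabStatement : Prop :=
  ∀ (M : ℕ) [NeZero M], 2 ≤ M → ∀ γ ∈ MulAction.stabilizer SL(2, ℤ) (yOneFun M),
    (∀ a : ℤ, γ • frickeFun M a 0 = frickeFun M a 0) ∧
      ∀ (d : ℕ) [NeZero d], d ∣ M → γ • (ModularGroup.S • jd d) = ModularGroup.S • jd d

/-- the fixer of the image of `igEmb M`. -/
def igFixer (M : ℕ) [NeZero M] : Subgroup SL(2, ℤ) where
  carrier := {g | ∀ y : ↥(FOneBar M), g • igEmb M y = igEmb M y}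
  one_mem' := fun y => one_smul _ _
  mul_mem' := fun {a b} ha hb y => by rw [mul_smul, hb y, ha y]
  inv_mem' := fun {a} ha y => by rw [inv_smul_eq_iff, ha y]

theorem mem_igFixer {M : ℕ} [NeZero M] (g : SL(2, ℤ)) :
    g ∈ igFixer M ↔ ∀ y : ↥(FOneBar M), g • igEmb M y = igEmb M y := Iff.rfl

theorem ofFun_congr_deg0 {M : ℕ} [NeZero M] {f f' : Fun} (hf : IsAHb M f) (hf' : IsAHb M f')
    (e : f = f') : LHb.ofFun f hf = LHb.ofFun f' hf' := by
  subst e
  rfl

/-- `Γ(M)` fixes `y₁`. -/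
theorem gamma_le_stabilizer_yOneFun (M : ℕ) [NeZero M] (hM : 2 ≤ M) :
    CongruenceSubgroup.Gamma M ≤ MulAction.stabilizer SL(2, ℤ) (yOneFun M) := by
  intro γ hγ
  rw [MulAction.mem_stabilizer_iff]
  have hNZ : IsNZ M 1 0 := by
    apply isNZ_zero_right
    intro h
    have h1 : (M : ℤ) ≤ 1 := Int.le_of_dvd one_pos h
    omega
  have hF := (isAHb_frickeFun M 1 0 hNZ).2.1 γ hγ
  have hc : γ • (algebraMap Kbar Fun (12⁻¹ : Kbar)) = algebraMap Kbar Fun (12⁻¹ : Kbar) := by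
    ext τ
    simp
  unfold yOneFun
  rw [smul_mul', smul_sub, hc, jFun_smul, hF]

/-- the stabiliser of `y₁` fixes the image of `igEmb M`. -/
theorem stabilizer_le_igFixer (hS : IgDeg0StabStatement) (M : ℕ) [NeZero M] (hM : 2 ≤ M) :
    MulAction.stabilizer SL(2, ℤ) (yOneFun M) ≤ igFixer M := by
  intro γ hγ
  obtain ⟨hSF, hSJ⟩ := hS M hM γ hγ
  rw [mem_igFixer]
  refine (smul_embAbs_iff (e := expLHb M) (θ := AlgHom.id Kbar (LaurentSeries Kbar))
    (G := genOne M) (igGenInRange M) γ).mpr ?_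
  rintro y ⟨g, (⟨d, hd0, hd, rfl⟩ | ⟨a, ha, rfl⟩), hy⟩
  · -- `j(q^d)`
    obtain ⟨d', hd'⟩ := hd
    have hd'0 : d' ≠ 0 := by
      rintro rfl
      rw [mul_zero] at hd'
      exact NeZero.ne M hd'
    haveI : NeZero d' := ⟨hd'0⟩
    have hM' : d' * d = M := by rw [hd', mul_comm]
    have h1 := igEmb_hasExp_S_smul_jd M d d' hM'
    have h2 := igEmb_isAHb_S_smul_jd M d' (Dvd.intro _ hM')
    rw [AlgHom.id_apply, igEmb_coeffEmb_jqd] at hy
    have hyeq : y = LHb.ofFun _ h2 := by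
      apply expLHb_injective M
      rw [hy, expLHb_ofFun _ h2 h1]
    rw [hyeq, LHb.smul_ofFun]
    exact ofFun_congr_deg0 _ _ (hSJ d' (Dvd.intro _ hM'))
  · -- `fricke M a`
    have hv0 : 0 < a.val := Nat.pos_of_ne_zero (fun h => ha ((ZMod.val_eq_zero a).mp h))
    have hvM : a.val < M := ZMod.val_lt a
    have hcast : (((a.val : ℕ) : ℤ) : ZMod M) = a := by
      rw [Int.cast_natCast, ZMod.natCast_zmod_val]
    have hndvd : ¬ (M : ℤ) ∣ ((a.val : ℕ) : ℤ) := by
      intro h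
      have := Int.natCast_dvd_natCast.mp h
      exact absurd (Nat.le_of_dvd hv0 this) (not_le.mpr hvM)
    have h1 := (frickeExp M).2 ((a.val : ℕ) : ℤ) (by exact_mod_cast hv0) (by exact_mod_cast hvM)
    rw [hcast] at h1
    have h2 := isAHb_frickeFun M ((a.val : ℕ) : ℤ) 0 (isNZ_zero_right hndvd)
    rw [AlgHom.id_apply] at hy
    have hyeq : y = LHb.ofFun _ h2 := by
      apply expLHb_injective M
      rw [hy, expLHb_ofFun _ h2 h1]
    rw [hyeq, LHb.smul_ofFun]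
    exact ofFun_congr_deg0 _ _ (hSF _)

/-- **Artin**: `[ℚ̄ F₁(M) : ℚ̄(x)] = [SL₂(ℤ) : igFixer M]`, `x = j(q^M)`. -/
theorem finrank_eq_index_igFixer (M : ℕ) [NeZero M] (x : ↥(FOneBar M))
    (hx : (x : LaurentSeries Kbar) = qExpand Kbar M (jqModC Kbar)) :
    FiniteDimensional ↥(Kbar⟮x⟯) ↥(FOneBar M) ∧
      Module.finrank ↥(Kbar⟮x⟯) ↥(FOneBar M) = (igFixer M).index := by
  letI : Algebra ↥(FOneBar M) (LHb M) := (igEmb M).toRingHom.toAlgebra
  haveI : IsScalarTower Kbar ↥(FOneBar M) (LHb M) :=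
    IsScalarTower.of_algebraMap_eq (fun a => ((igEmb M).commutes a).symm)
  have hmap : ∀ y : ↥(FOneBar M), algebraMap ↥(FOneBar M) (LHb M) y = igEmb M y := fun _ => rfl
  have hxj : algebraMap ↥(FOneBar M) (LHb M) x = jLHb M := by
    rw [hmap]
    exact igEmb_x M x hx
  refine Fermat.Agent.S24Gal.finrank_eq_index (Γ := SL(2, ℤ)) (L := LHb M) (K := Kbar)
    (F := ↥(FOneBar M)) x (exists_finiteIndex_fixing_LHb M) ?_ ?_ (igFixer M) ?_
  · intro g
    rw [hxj]
    exact smul_jLHb M g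
  · intro z hz
    rw [hxj]
    exact mem_adjoin_jLHb_of_invariant M z hz
  · intro g
    exact mem_igFixer g

/-- **IG-DEG0** from the stabiliser statement (S). -/
theorem igDeg0_of (hS : IgDeg0StabStatement) : IgDeg0Statement := by
  intro M _ hM x hx
  obtain ⟨hfd, hrank⟩ := finrank_eq_index_igFixer M x hx
  refine ⟨hfd, ?_⟩
  rw [hrank]
  have hle := stabilizer_le_igFixer hS M hM
  have hdvd := Subgroup.index_dvd_of_le hle
  have hfin : (MulAction.stabilizer SL(2, ℤ) (yOneFun M)).FiniteIndex :=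
    Subgroup.finiteIndex_of_le (gamma_le_stabilizer_yOneFun M hM)
  exact Nat.le_of_dvd (Nat.pos_of_ne_zero hfin.index_ne_zero) hdvd

end Fermat.Agent.S48WG
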