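/-
S48 wall (W), block G-RED, seat IG-Y (helper90): the conjugates of `y₁ = (F_{(1,0)} - j) / 12`.
GENERIC in a field `K ⊇ ℚ(ζ)`, `A` a valuation subring of `K` in which `M` is a unit
(NO hypothesis on `2`, `3`).

With `Q = q^M`, `wp_v = E₂(Q) + 12 W_v` (`E₂ = 1 - 24 Σ σ₁(n) qⁿ`) and
`E₆ E₂ - E₄² = 12 R`, `R = -2 S₁ - 42 S₅ + 1008 S₁ S₅ - 40 S₃ - 4800 S₃²` (`S_k = Σ σ_k(n) qⁿ`):
  `igY v = (igF v - j(Q)) / 12 = igE · W_v + ((E₄ / Δ) R)(Q)`.
* `igY_eq`       : this identity;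
* `igW_isIntK`   : `W_v` has coefficients in `A`;
* `igW_distinct` : `W_v ≡ W_v'` modulo the maximal ideal of `A` `⟹ v = ± v'`;
* `igY`          : `IgYStatement`.
-/
import Mathlib
import Fermat.Agent.S48.W.G.Red.Igusa.LeafDefs

set_option autoImplicit false

noncomputable section

namespace Fermat.Agent.S48WG

open ModularCurve HahnSeries Finset Fermat.Agent.S48W Fermat.Agent.GaussInt

/-! ### formal series with integer coefficients -/

/-- `S_k = Σ_{n ≥ 1} σ_k(n) qⁿ`. -/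
def igySig (k : ℕ) : PowerSeries ℤ :=
  PowerSeries.mk fun n => if n = 0 then 0 else ∑ d ∈ n.divisors, (d : ℤ) ^ k

/-- `E₂ = 1 - 24 Σ σ₁(n) qⁿ`. -/
def igyE2 : PowerSeries ℤ := 1 - 24 * igySig 1

/-- `(E₆ E₂ - E₄²) / 12`. -/
def igyR : PowerSeries ℤ :=
  -2 * igySig 1 - 42 * igySig 5 + 1008 * (igySig 1 * igySig 5) - 40 * igySig 3
    - 4800 * igySig 3 ^ 2

theorem igy_coeff_ofNat_mul (c : ℕ) [c.AtLeastTwo] (f : PowerSeries ℤ) (n : ℕ) :
    PowerSeries.coeff n ((OfNat.ofNat c : PowerSeries ℤ) * f)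
      = (OfNat.ofNat c : ℤ) * PowerSeries.coeff n f := by
  have h : (OfNat.ofNat c : PowerSeries ℤ) = PowerSeries.C (OfNat.ofNat c : ℤ) :=
    (map_ofNat (PowerSeries.C (R := ℤ)) c).symm
  rw [h, PowerSeries.coeff_C_mul]

theorem igy_eisenstein4 : eisenstein4 = 1 + 240 * igySig 3 := by
  ext n
  rw [map_add, igy_coeff_ofNat_mul, PowerSeries.coeff_one]
  unfold eisenstein4 igySig
  rw [PowerSeries.coeff_mk, PowerSeries.coeff_mk]
  split_ifs <;> simp

theorem igy_eis6 : eis6 = 1 - 504 * igySig 5 := by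
  ext n
  rw [map_sub, igy_coeff_ofNat_mul, PowerSeries.coeff_one]
  unfold eis6 igySig
  rw [PowerSeries.coeff_mk, PowerSeries.coeff_mk]
  split_ifs <;> simp

theorem igy_ramanujan : eis6 * igyE2 - eisenstein4 ^ 2 = 12 * igyR := by
  rw [igy_eis6, igy_eisenstein4, igyE2, igyR]
  ring

/-- `((E₄ / Δ) R)(q)` in `ℚ((q))`. -/
def igyT : LaurentSeries ℚ :=
  HahnSeries.single (-1 : ℤ) 1 *
    HahnSeries.ofPowerSeries ℤ ℚ
      ((eisenstein4 * dedekindEtaUnitInv * igyR).map (Int.castRingHom ℚ))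

theorem igy_T :
    eisQuot * HahnSeries.ofPowerSeries ℤ ℚ (igyE2.map (Int.castRingHom ℚ)) - jq = 12 * igyT := by
  have e : eisenstein4 * eis6 * dedekindEtaUnitInv * igyE2 - jNum
      = 12 * (eisenstein4 * dedekindEtaUnitInv * igyR) := by
    have h := igy_ramanujan
    unfold jNum
    linear_combination (eisenstein4 * dedekindEtaUnitInv) * h
  have e2 := congrArg (fun f : PowerSeries ℤ =>
    HahnSeries.ofPowerSeries ℤ ℚ (f.map (Int.castRingHom ℚ))) e
  simp only [map_sub, map_mul, map_ofNat] at e2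
  unfold eisQuot jq igyT jNumQ
  simp only [map_mul]
  linear_combination (HahnSeries.single (-1 : ℤ) (1 : ℚ)) * e2

/-- `E₂(q^M)` as a power series. -/
def igyE2M (M : ℕ) : PowerSeries ℤ :=
  PowerSeries.mk fun n => (if n = 0 then 1 else 0)
    - 24 * (if n ≠ 0 ∧ M ∣ n then ∑ d ∈ (n / M).divisors, (d : ℤ) else 0)

theorem igy_coeff_igyE2 (m : ℕ) :
    PowerSeries.coeff m igyE2 = (if m = 0 then 1 else 0)
      - 24 * (if m = 0 then 0 else ∑ d ∈ m.divisors, (d : ℤ)) := by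
  unfold igyE2 igySig
  rw [map_sub, igy_coeff_ofNat_mul, PowerSeries.coeff_one, PowerSeries.coeff_mk]
  simp

theorem igy_coeff_igyE2M_mul (M : ℕ) [NeZero M] (m : ℕ) :
    PowerSeries.coeff (M * m) (igyE2M M) = PowerSeries.coeff m igyE2 := by
  have hM : 0 < M := Nat.pos_of_ne_zero (NeZero.ne M)
  rw [igy_coeff_igyE2]
  unfold igyE2M
  rw [PowerSeries.coeff_mk, Nat.mul_div_cancel_left m hM]
  have h0 : M * m = 0 ↔ m = 0 := by
    constructor
    · intro h
      rcases Nat.mul_eq_zero.1 h with h | h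
      · omega
      · exact h
    · rintro rfl
      simp
  by_cases hm : m = 0
  · subst hm
    simp
  · have h1 : M * m ≠ 0 := fun h => hm (h0.1 h)
    simp [hm, h1]

theorem igy_coeff_igyE2M_of_not_dvd (M : ℕ) {n : ℕ} (hn : ¬ M ∣ n) :
    PowerSeries.coeff n (igyE2M M) = 0 := by
  unfold igyE2M
  rw [PowerSeries.coeff_mk]
  have h0 : n ≠ 0 := by
    rintro rfl
    exact hn (dvd_zero M)
  simp [h0, hn]

/-! ### the series `W_v` -/

section W

variable {K : Type*} [Field K]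

/-- the constant term of `W_v`. -/
def igWConst (M : ℕ) (ζ : K) (r s : ZMod M) : K :=
  if r = 0 then ζ ^ s.val / (1 - ζ ^ s.val) ^ 2 else 0

/-- the coefficients of `W_v = (wp_v - E₂(q^M)) / 12`. -/
def igWCoeff (M : ℕ) (ζ : K) (r s : ZMod M) (n : ℕ) : K :=
  (if n = 0 then igWConst M ζ r s else 0) + ∑ d ∈ n.divisors, igTerm M ζ r s n d

/-- `W_v` as a power series in `q`. -/
def igW (M : ℕ) (ζ : K) (r s : ZMod M) : PowerSeries K := PowerSeries.mk (igWCoeff M ζ r s)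

@[simp] theorem coeff_igW (M : ℕ) (ζ : K) (r s : ZMod M) (n : ℕ) :
    PowerSeries.coeff n (igW M ζ r s) = igWCoeff M ζ r s n := by
  simp [igW]

theorem igCoeff_eq_igWCoeff (M : ℕ) (ζ : K) (r s : ZMod M) (n : ℕ) :
    igCoeff M ζ r s n
      = ((PowerSeries.coeff n (igyE2M M) : ℤ) : K) + 12 * igWCoeff M ζ r s n := by
  unfold igCoeff igWCoeff igConst igWConst igyE2M
  rw [PowerSeries.coeff_mk]
  by_cases hn : n = 0
  · subst hn
    by_cases hr : r = 0
    · simp [hr]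
    · simp [hr]
  · by_cases hM : M ∣ n
    · simp [hn, hM]
    · simp [hn, hM]

theorem igX_eq_igW (M : ℕ) (ζ : K) (r s : ZMod M) :
    igX M ζ r s = (igyE2M M).map (Int.castRingHom K) + PowerSeries.C (12 : K) * igW M ζ r s := by
  ext n
  rw [coeff_igX, map_add, PowerSeries.coeff_map, PowerSeries.coeff_C_mul, coeff_igW,
    igCoeff_eq_igWCoeff]
  rfl

end W

/-! ### the identity `igY v = igE · W_v + ((E₄ / Δ) R)(q^M)` -/

section identity

variable {K : Type*} [Field K] [Algebra ℚ K]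

variable (K) in
theorem igy_ofPowerSeries_igyE2M (M : ℕ) [NeZero M] :
    HahnSeries.ofPowerSeries ℤ K ((igyE2M M).map (Int.castRingHom K))
      = coeffEmb K (qExpand ℚ M
          (HahnSeries.ofPowerSeries ℤ ℚ (igyE2.map (Int.castRingHom ℚ)))) := by
  ext k
  rw [coeffEmb_coeff, PowerSeries.coeff_coe]
  have hM : (0 : ℤ) < M := by exact_mod_cast Nat.pos_of_ne_zero (NeZero.ne M)
  by_cases hk : (M : ℤ) ∣ k
  · obtain ⟨m, rfl⟩ := hk
    rw [qExpand_coeff_mul, PowerSeries.coeff_coe]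
    by_cases hm : m < 0
    · have h2 : (M : ℤ) * m < 0 := mul_neg_of_pos_of_neg hM hm
      rw [if_pos h2, if_pos hm, map_zero]
    · have hm' : 0 ≤ m := not_lt.1 hm
      have h2 : ¬ (M : ℤ) * m < 0 := not_lt.2 (mul_nonneg hM.le hm')
      rw [if_neg h2, if_neg hm]
      obtain ⟨m', rfl⟩ := Int.eq_ofNat_of_zero_le hm'
      have h3 : ((M : ℤ) * (m' : ℤ)).natAbs = M * m' := by
        rw [← Nat.cast_mul, Int.natAbs_natCast]
      rw [h3, Int.natAbs_natCast, PowerSeries.coeff_map, PowerSeries.coeff_map,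
        igy_coeff_igyE2M_mul]
      simp
  · rw [qExpand_coeff_of_not_dvd M _ hk, map_zero]
    split_ifs with h
    · rfl
    · rw [PowerSeries.coeff_map, igy_coeff_igyE2M_of_not_dvd, map_zero]
      intro hd
      apply hk
      have h4 : (k.natAbs : ℤ) = k := Int.natAbs_of_nonneg (not_lt.1 h)
      rw [← h4]
      exact Int.natCast_dvd_natCast.2 hd

/-- **the identity**: `(igF v - j(q^M)) / 12 = igE · W_v + ((E₄ / Δ) R)(q^M)`. -/
theorem igY_eq (M : ℕ) [NeZero M] (ζ : K) (r s : ZMod M) :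
    igY M ζ r s = igE K M * HahnSeries.ofPowerSeries ℤ K (igW M ζ r s)
      + coeffEmb K (qExpand ℚ M igyT) := by
  have _hc : CharZero K := algebraRat.charZero K
  have h12' : (12 : LaurentSeries K) = HahnSeries.C (12 : K) :=
    (map_ofNat (HahnSeries.C (Γ := ℤ) (R := K)) 12).symm
  have h1 : igE K M * HahnSeries.ofPowerSeries ℤ K ((igyE2M M).map (Int.castRingHom K))
      - coeffEmb K (qExpand ℚ M jq) = HahnSeries.C (12 : K) * coeffEmb K (qExpand ℚ M igyT) := by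
    rw [igy_ofPowerSeries_igyE2M]
    unfold igE
    rw [← map_mul, ← map_mul, ← map_sub, ← map_sub, igy_T, map_mul, map_mul, map_ofNat,
      map_ofNat, h12']
  have hC : HahnSeries.ofPowerSeries ℤ K (PowerSeries.C (12 : K)) = HahnSeries.C (12 : K) :=
    HahnSeries.ofPowerSeries_C 12
  have h12 : (HahnSeries.C (12⁻¹ : K) : LaurentSeries K) * HahnSeries.C (12 : K) = 1 := by
    rw [← map_mul, inv_mul_cancel₀ (by norm_num : (12 : K) ≠ 0), map_one]
  unfold igY igF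
  rw [igX_eq_igW, map_add, map_mul, hC]
  linear_combination (HahnSeries.C (12⁻¹ : K)) * h1
    + (igE K M * HahnSeries.ofPowerSeries ℤ K (igW M ζ r s)
        + coeffEmb K (qExpand ℚ M igyT)) * h12

theorem igY_sub (M : ℕ) [NeZero M] (ζ : K) (r s r' s' : ZMod M) :
    igY M ζ r s - igY M ζ r' s' = igE K M * (HahnSeries.ofPowerSeries ℤ K (igW M ζ r s)
      - HahnSeries.ofPowerSeries ℤ K (igW M ζ r' s')) := by
  rw [igY_eq, igY_eq]
  ring

end identity

/-! ### integrality -/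

section mem

variable {K : Type*} [Field K] (A : ValuationSubring K) {M : ℕ} [NeZero M] {ζ : K}

theorem igWConst_mem (hζ : IsPrimitiveRoot ζ M) (hM : A.valuation (M : K) = 1)
    {r s : ZMod M} (hv : ¬ (r = 0 ∧ s = 0)) : igWConst M ζ r s ∈ A := by
  unfold igWConst
  split_ifs with h
  · have hs : s ≠ 0 := fun hs => hv ⟨h, hs⟩
    exact A.mem_of_valuation_le_one _ (igu_val_frac A hζ hM hs).le
  · exact A.zero_mem

theorem igWCoeff_mem (hζ : IsPrimitiveRoot ζ M) (hM : A.valuation (M : K) = 1)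
    {r s : ZMod M} (hv : ¬ (r = 0 ∧ s = 0)) (n : ℕ) : igWCoeff M ζ r s n ∈ A := by
  unfold igWCoeff
  refine add_mem ?_ (sum_mem fun d _ => igTerm_mem A hζ.pow_eq_one r s n d)
  split_ifs
  · exact igWConst_mem A hζ hM hv
  · exact A.zero_mem

theorem igW_isIntK (hζ : IsPrimitiveRoot ζ M) (hM : A.valuation (M : K) = 1)
    {r s : ZMod M} (hv : ¬ (r = 0 ∧ s = 0)) :
    IsIntK A (HahnSeries.ofPowerSeries ℤ K (igW M ζ r s)) := by
  intro n
  have h : (HahnSeries.ofPowerSeries ℤ K (igW M ζ r s)).coeff n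
      = if n < 0 then 0 else PowerSeries.coeff n.natAbs (igW M ζ r s) :=
    PowerSeries.coeff_coe (igW M ζ r s) n
  rw [h]
  split_ifs
  · exact A.zero_mem
  · rw [coeff_igW]
    exact igWCoeff_mem A hζ hM hv _

theorem igyT_isIntK [Algebra ℚ K] (M : ℕ) [NeZero M] :
    IsIntK A (coeffEmb K (qExpand ℚ M igyT)) := fun n =>
  isIntQ_qExpand (A := A) M
    ((isIntQ_single_one A (-1)).mul (isIntQ_ofPowerSeries_intCast A _)) n

end mem

/-! ### distinctness -/

section distinct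

variable {K : Type*} [Field K] [Algebra ℚ K] (A : ValuationSubring K) {M : ℕ} [NeZero M] {ζ : K}

omit [Algebra ℚ K] [NeZero M] in
theorem igWCoeff_zero (r s : ZMod M) : igWCoeff M ζ r s 0 = igWConst M ζ r s := by
  unfold igWCoeff
  simp

omit [NeZero M] in
theorem igy_cancel {a b : K} (e : ℤ) (h : (e : K) + 12 * a = (e : K) + 12 * b) : a = b := by
  have _hc : CharZero K := algebraRat.charZero K
  have h2 : (12 : K) * a = 12 * b := add_left_cancel h
  exact mul_left_cancel₀ (by norm_num : (12 : K) ≠ 0) h2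

theorem igWCoeff_neg (hζ : ζ ^ M = 1) (r s : ZMod M) (n : ℕ) :
    igWCoeff M ζ (-r) (-s) n = igWCoeff M ζ r s n := by
  have h := igCoeff_neg hζ r s n
  rw [igCoeff_eq_igWCoeff, igCoeff_eq_igWCoeff] at h
  exact igy_cancel _ h

theorem igWCoeff_lead {r s : ZMod M} {n : ℕ} (hn : 0 < n) (hnr : n ≤ r.val)
    (hr : 2 * r.val ≤ M) :
    igWCoeff M ζ r s n = (if r.val = n then
      (if 2 * n = M then ζ ^ s.val + ζ ^ (-s).val else ζ ^ s.val) else 0) := by
  have h := igCoeff_lead (ζ := ζ) (s := s) hn hnr hr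
  rw [igCoeff_eq_igWCoeff] at h
  have hrM : r.val < M := ZMod.val_lt r
  have hnM : ¬ M ∣ n := fun h => by
    have := Nat.le_of_dvd hn h
    omega
  rw [igy_coeff_igyE2M_of_not_dvd M hnM] at h
  have h2 : ((0 : ℤ) : K) + 12 * igWCoeff M ζ r s n = ((0 : ℤ) : K) + 12 * (if r.val = n then
      (if 2 * n = M then ζ ^ s.val + ζ ^ (-s).val else ζ ^ s.val) else 0) := by
    rw [h, Int.cast_zero, zero_add]
  exact igy_cancel _ h2

/-- distinctness, normalised case `r ≤ r' ≤ M / 2`. -/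
theorem igW_distinct_norm (hζ : IsPrimitiveRoot ζ M) (hM : A.valuation (M : K) = 1)
    {r s r' s' : ZMod M} (hv : ¬ (r = 0 ∧ s = 0)) (hv' : ¬ (r' = 0 ∧ s' = 0))
    (hr : 2 * r.val ≤ M) (hr' : 2 * r'.val ≤ M) (hle : r.val ≤ r'.val)
    (H : ∀ n, A.valuation (igWCoeff M ζ r s n - igWCoeff M ζ r' s' n) < 1) :
    (r = r' ∧ s = s') ∨ (r = -r' ∧ s = -s') := by
  have h1 : ζ ^ M = 1 := hζ.pow_eq_one
  by_cases hr0 : r = 0
  · -- the constant terms
    subst hr0
    have hs : s ≠ 0 := fun h => hv ⟨rfl, h⟩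
    have H0 := H 0
    rw [igWCoeff_zero, igWCoeff_zero] at H0
    by_cases hr0' : r' = 0
    · subst hr0'
      have hs' : s' ≠ 0 := fun h => hv' ⟨rfl, h⟩
      by_cases e1 : s = s'
      · exact Or.inl ⟨rfl, e1⟩
      by_cases e2 : s = -s'
      · exact Or.inr ⟨neg_zero.symm, e2⟩
      exfalso
      have e : igWConst M ζ 0 s - igWConst M ζ 0 s'
          = ζ ^ s.val / (1 - ζ ^ s.val) ^ 2 - ζ ^ s'.val / (1 - ζ ^ s'.val) ^ 2 := by
        unfold igWConst
        rw [if_pos rfl, if_pos rfl]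
      rw [e, igu_val_frac_sub A hζ hM hs hs' e1 e2] at H0
      exact lt_irrefl _ H0
    · exfalso
      have e : igWConst M ζ 0 s - igWConst M ζ r' s' = ζ ^ s.val / (1 - ζ ^ s.val) ^ 2 := by
        unfold igWConst
        rw [if_pos rfl, if_neg hr0', sub_zero]
      rw [e, igu_val_frac A hζ hM hs] at H0
      exact lt_irrefl _ H0
  · -- the coefficient of `q ^ r.val`
    have hpos : 0 < r.val := ig_val_pos hr0
    have Hn := H r.val
    rw [igWCoeff_lead hpos le_rfl hr, igWCoeff_lead hpos hle hr', if_pos rfl] at Hn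
    by_cases hrr : r'.val = r.val
    · have hrr' : r = r' := (ZMod.val_injective M hrr).symm
      rw [if_pos hrr] at Hn
      by_cases h2 : 2 * r.val = M
      · rw [if_pos h2, if_pos h2] at Hn
        by_cases e1 : s = s'
        · exact Or.inl ⟨hrr', e1⟩
        by_cases e2 : s = -s'
        · refine Or.inr ⟨?_, e2⟩
          rw [← hrr']
          apply ZMod.val_injective M
          rw [ig_val_neg hr0]
          omega
        exfalso
        rw [igu_val_trace_sub A hζ hM e1 e2] at Hn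
        exact lt_irrefl _ Hn
      · rw [if_neg h2, if_neg h2] at Hn
        by_cases e1 : s = s'
        · exact Or.inl ⟨hrr', e1⟩
        exfalso
        rw [igu_val_sub A hζ hM e1] at Hn
        exact lt_irrefl _ Hn
    · exfalso
      have h2 : 2 * r.val ≠ M := by omega
      rw [if_neg hrr, sub_zero, if_neg h2, igu_val_pow A h1] at Hn
      exact lt_irrefl _ Hn

/-- **distinctness of the `W_v`** modulo the maximal ideal of `A` (`M` a unit of `A`). -/
theorem igW_distinct (hζ : IsPrimitiveRoot ζ M) (hM : A.valuation (M : K) = 1)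
    {r s r' s' : ZMod M} (hv : ¬ (r = 0 ∧ s = 0)) (hv' : ¬ (r' = 0 ∧ s' = 0))
    (H : ∀ n, A.valuation (igWCoeff M ζ r s n - igWCoeff M ζ r' s' n) < 1) :
    (r = r' ∧ s = s') ∨ (r = -r' ∧ s = -s') := by
  have h1 : ζ ^ M = 1 := hζ.pow_eq_one
  obtain ⟨r₁, s₁, hn₁, h₁⟩ := ig_exists_norm r s
  obtain ⟨r₂, s₂, hn₂, h₂⟩ := ig_exists_norm r' s'
  have e₁ : ∀ n, igWCoeff M ζ r₁ s₁ n = igWCoeff M ζ r s n := by
    rcases h₁ with ⟨rfl, rfl⟩ | ⟨rfl, rfl⟩
    · intro n; rfl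
    · intro n; exact igWCoeff_neg h1 r s n
  have e₂ : ∀ n, igWCoeff M ζ r₂ s₂ n = igWCoeff M ζ r' s' n := by
    rcases h₂ with ⟨rfl, rfl⟩ | ⟨rfl, rfl⟩
    · intro n; rfl
    · intro n; exact igWCoeff_neg h1 r' s' n
  have hv₁ : ¬ (r₁ = 0 ∧ s₁ = 0) := by
    rcases h₁ with ⟨rfl, rfl⟩ | ⟨rfl, rfl⟩
    · exact hv
    · simpa using hv
  have hv₂ : ¬ (r₂ = 0 ∧ s₂ = 0) := by
    rcases h₂ with ⟨rfl, rfl⟩ | ⟨rfl, rfl⟩
    · exact hv'
    · simpa using hv'
  have key : (r₁ = r₂ ∧ s₁ = s₂) ∨ (r₁ = -r₂ ∧ s₁ = -s₂) := by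
    rcases le_total r₁.val r₂.val with hle | hle
    · exact igW_distinct_norm A hζ hM hv₁ hv₂ hn₁ hn₂ hle
        (fun n => by rw [e₁, e₂]; exact H n)
    · have := igW_distinct_norm A hζ hM hv₂ hv₁ hn₂ hn₁ hle
        (fun n => by rw [e₂, e₁, ← Valuation.map_neg, neg_sub]; exact H n)
      rcases this with ⟨a, b⟩ | ⟨a, b⟩
      · exact Or.inl ⟨a.symm, b.symm⟩
      · exact Or.inr ⟨by rw [a, neg_neg], by rw [b, neg_neg]⟩
  rcases h₁ with ⟨rfl, rfl⟩ | ⟨rfl, rfl⟩ <;> rcases h₂ with ⟨rfl, rfl⟩ | ⟨rfl, rfl⟩ <;>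
    rcases key with ⟨a, b⟩ | ⟨a, b⟩
  · exact Or.inl ⟨a, b⟩
  · exact Or.inr ⟨a, b⟩
  · exact Or.inr ⟨a, b⟩
  · exact Or.inl ⟨by simpa using a, by simpa using b⟩
  · exact Or.inr ⟨neg_eq_iff_eq_neg.1 a, neg_eq_iff_eq_neg.1 b⟩
  · exact Or.inl ⟨neg_inj.1 a, neg_inj.1 b⟩
  · exact Or.inl ⟨neg_inj.1 a, neg_inj.1 b⟩
  · exact Or.inr ⟨neg_eq_iff_eq_neg.1 (by simpa using a), neg_eq_iff_eq_neg.1 (by simpa using b)⟩

end distinct

/-- **IG-Y**: `igY v = (igF v - j(q^M)) / 12` is `A`-integral, and `v ↦ igY v` is injective modulo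
`±` and modulo the maximal ideal of `A`, whenever `M` is a unit of `A`. -/
theorem igYStatement : IgYStatement := by
  intro K _ _ A M _ ζ hζ hM
  refine ⟨fun r s hv => ?_, fun r s r' s' hv hv' H => ?_⟩
  · rw [igY_eq]
    exact ((igE_isIntK A).mul (igW_isIntK A hζ hM hv)).add (igyT_isIntK A M)
  · have H' : ∀ n, A.valuation ((igY M ζ r s - igY M ζ r' s').coeff n) < 1 := H
    rw [igY_sub] at H'
    have hD : IsIntK A (HahnSeries.ofPowerSeries ℤ K (igW M ζ r s)
        - HahnSeries.ofPowerSeries ℤ K (igW M ζ r' s')) :=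
      (igW_isIntK A hζ hM hv).sub (igW_isIntK A hζ hM hv')
    have hG := ig_gauss A (igE_isIntK A) hD ⟨-(M : ℤ), by rw [igE_coeff_neg, map_one]⟩ H'
    refine igW_distinct A hζ hM hv hv' fun n => ?_
    have h := hG (n : ℤ)
    rw [HahnSeries.coeff_sub, HahnSeries.ofPowerSeries_apply_coeff,
      HahnSeries.ofPowerSeries_apply_coeff, coeff_igW, coeff_igW] at h
    exact h

end Fermat.Agent.S48WG
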