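/-
S48 wall (W), block G-RED, seat G-IGUSA, leaf IG-F1 (helper5).

`y₁ = (F_{(1,0)} - j) / 12` lies in the ambient ring `AHb M`, its `SL₂(ℤ)`-translates have
`A`-integral expansions, and different translates have different reductions:

* `igF1_smul_yOneFun`   : `g • y₁ = (F_{(1,0) g⁻¹} - j) / 12`;
* `igF1_hasExp`         : the expansion of `g • y₁` is `igY M ζ v`, `v = (1,0) g⁻¹`;
* `igF1_of : XExpStatement → IgFExpStatement → IgYStatement → IgF1Statement`;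
* `igF1 : IgF1Statement` (unconditional: `xExp`, `igFExp`, `igYStatement` are on main).
-/
import Mathlib
import Fermat.Agent.S48.W.G.Red.Igusa.LeafDefs
import Fermat.Agent.S48.W.G.Red.Igusa.FExp
import Fermat.Agent.S48.W.G.Red.Igusa.DistY
import Fermat.Agent.S48.W.A1.XExp
import Fermat.Agent.S48.W.A1.Wire

set_option autoImplicit false

noncomputable section

namespace Fermat.Agent.S48WG

open UpperHalfPlane ModularCurve IntermediateField
open Fermat.Agent.S24 Fermat.Agent.S48W Fermat.Agent.S48WA1 Fermat.Agent.S48WKron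
open Fermat.Agent.GaussInt
open scoped MatrixGroups Real

/-! ### the vector `(1, 0) g⁻¹` -/

/-- the first entry of `(1, 0) γ`. -/
theorem igF1_actL (γ : SL(2, ℤ)) : actL γ 1 0 = γ 0 0 := by
  unfold actL
  ring

/-- the second entry of `(1, 0) γ`. -/
theorem igF1_actR (γ : SL(2, ℤ)) : actR γ 1 0 = γ 0 1 := by
  unfold actR
  ring

/-- the first row of a matrix of determinant one is primitive. -/
theorem igF1_isNZ {M : ℕ} (hM : 2 ≤ M) (γ : SL(2, ℤ)) : IsNZ M (γ 0 0) (γ 0 1) := by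
  rintro ⟨⟨a, ha⟩, ⟨b, hb⟩⟩
  have hdet : γ 0 0 * γ 1 1 - γ 0 1 * γ 1 0 = 1 := by
    have := γ.2
    rw [Matrix.det_fin_two] at this
    exact this
  have h1 : (M : ℤ) ∣ 1 :=
    ⟨a * γ 1 1 - b * γ 1 0, by linear_combination (-1 : ℤ) * hdet + γ 1 1 * ha - γ 1 0 * hb⟩
  have h2 : (M : ℤ) ≤ 1 := Int.le_of_dvd one_pos h1
  omega

/-- `F_v` depends only on `v` modulo `M`. -/
theorem igF1_frickeFun_congr {M : ℕ} [NeZero M] {r s r' s' : ℤ}
    (hr : (r : ZMod M) = (r' : ZMod M)) (hs : (s : ZMod M) = (s' : ZMod M)) :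
    frickeFun M r s = frickeFun M r' s' := by
  obtain ⟨k, hk⟩ : (M : ℤ) ∣ r' - r := by
    rw [← ZMod.intCast_zmod_eq_zero_iff_dvd, Int.cast_sub, hr, sub_self]
  obtain ⟨l, hl⟩ : (M : ℤ) ∣ s' - s := by
    rw [← ZMod.intCast_zmod_eq_zero_iff_dvd, Int.cast_sub, hs, sub_self]
  have e1 : r' = r + M * k := by rw [← hk]; ring
  have e2 : s' = s + M * l := by rw [← hl]; ring
  rw [e1, e2, frickeFun_add]

/-- `F_{-v} = F_v`. -/
theorem igF1_frickeFun_neg (M : ℕ) (r s : ℤ) : frickeFun M (-r) (-s) = frickeFun M r s := by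
  unfold frickeFun
  rw [xFun_neg]

/-- `F_v` depends only on `± v` modulo `M`. -/
theorem igF1_frickeFun_congr_neg {M : ℕ} [NeZero M] {r s r' s' : ℤ}
    (hr : (r : ZMod M) = -(r' : ZMod M)) (hs : (s : ZMod M) = -(s' : ZMod M)) :
    frickeFun M r s = frickeFun M r' s' := by
  rw [← igF1_frickeFun_neg M r' s']
  exact igF1_frickeFun_congr (by rw [hr, Int.cast_neg]) (by rw [hs, Int.cast_neg])

/-! ### the translates of `y₁` -/

/-- `g • y₁ = (F_{(1,0) g⁻¹} - j) / 12`. -/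
theorem igF1_smul_yOneFun (M : ℕ) [NeZero M] (g : SL(2, ℤ)) :
    g • yOneFun M
      = algebraMap Kbar Fun (12⁻¹ : Kbar) * (frickeFun M (g⁻¹ 0 0) (g⁻¹ 0 1) - jFun) := by
  have hc : g • (algebraMap Kbar Fun (12⁻¹ : Kbar)) = algebraMap Kbar Fun (12⁻¹ : Kbar) := by
    ext τ
    simp
  unfold yOneFun
  rw [smul_mul', smul_sub, hc, jFun_smul, frickeSmul M 1 0 g, igF1_actL, igF1_actR]

/-- the expansion of `(F_v - j) / 12` is `igY M ζ v`. -/
theorem igF1_hasExp_aux (hFE : IgFExpStatement) (M : ℕ) [NeZero M] (ζ : Kbar)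
    (hζ : iota ζ = Complex.exp (2 * π * Complex.I / M)) {r s : ℤ} (h : IsNZ M r s) :
    HasExp M (algebraMap Kbar Fun (12⁻¹ : Kbar) * (frickeFun M r s - jFun))
      (igY M ζ ((r : ℤ) : ZMod M) ((s : ℤ) : ZMod M)) := by
  have h1 := HasExp.algebraMap M (12⁻¹ : Kbar)
  have h2 := (hFE M ζ hζ r s h).sub (Fermat.Agent.S24Inv.hasExp_jFun M)
  have h3 := h1.mul h2
  have e : igY M ζ ((r : ℤ) : ZMod M) ((s : ℤ) : ZMod M)
      = algebraMap Kbar (LaurentSeries Kbar) (12⁻¹ : Kbar)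
        * (igF M ζ ((r : ℤ) : ZMod M) ((s : ℤ) : ZMod M)
          - qExpand Kbar M (jqModC Kbar)) := by
    unfold igY
    rw [coeffEmb_jqM_a1, HahnSeries.algebraMap_apply', ← HahnSeries.ofPowerSeries_C]
    rfl
  rw [e]
  exact h3

/-- the expansion of `g • y₁` is `igY M ζ v`, `v = (1, 0) g⁻¹`. -/
theorem igF1_hasExp (hFE : IgFExpStatement) {M : ℕ} [NeZero M] (hM : 2 ≤ M) (ζ : Kbar)
    (hζ : iota ζ = Complex.exp (2 * π * Complex.I / M)) (g : SL(2, ℤ)) :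
    HasExp M (g • yOneFun M)
      (igY M ζ ((g⁻¹ 0 0 : ℤ) : ZMod M) ((g⁻¹ 0 1 : ℤ) : ZMod M)) := by
  rw [igF1_smul_yOneFun]
  exact igF1_hasExp_aux hFE M ζ hζ (igF1_isNZ hM g⁻¹)

/-- `v ≢ 0` modulo `M`, in `ZMod M`. -/
theorem igF1_ne_zero {M : ℕ} {r s : ℤ} (h : IsNZ M r s) :
    ¬ (((r : ℤ) : ZMod M) = 0 ∧ ((s : ℤ) : ZMod M) = 0) := by
  rintro ⟨h1, h2⟩
  exact h ⟨(ZMod.intCast_zmod_eq_zero_iff_dvd r M).1 h1,
    (ZMod.intCast_zmod_eq_zero_iff_dvd s M).1 h2⟩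

/-- a primitive `M`-th root of unity in `ℚ̄`. -/
theorem igF1_isPrimitiveRoot {M : ℕ} [NeZero M] {ζ : Kbar}
    (hζ : iota ζ = Complex.exp (2 * π * Complex.I / M)) : IsPrimitiveRoot ζ M := by
  have h := Complex.isPrimitiveRoot_exp M (NeZero.ne M)
  rw [← hζ] at h
  exact h.of_map_of_injective iota_injective

/-! ### IG-F1 -/

/-- **IG-F1**: `y₁ ∈ AHb M`, its translates have `A`-integral expansions, and different
translates have different reductions. -/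
theorem igF1_of (hX : XExpStatement) (hFE : IgFExpStatement) (hY : IgYStatement) :
    IgF1Statement := by
  intro M _ hM
  obtain ⟨ζ, hζ⟩ := HasExp.exists_iota_eq_exp M
  have hprim : IsPrimitiveRoot ζ M := igF1_isPrimitiveRoot hζ
  refine ⟨⟨?_, ?_, fun γ => ⟨_, igF1_hasExp hFE hM ζ hζ γ⟩⟩, ?_⟩
  · -- holomorphic
    have hNZ : IsNZ M 1 0 := by
      have := igF1_isNZ hM (1 : SL(2, ℤ))
      simpa using this
    exact (isHol_algebraMap _).mul
      (isHol_sub_a1 (a1_frickeHol_of hX M 1 0 hNZ) isHol_jFun)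
  · -- invariant under `Γ(M)`
    intro γ hγ
    have hγ' : γ⁻¹ ∈ CongruenceSubgroup.Gamma M := inv_mem hγ
    rw [CongruenceSubgroup.Gamma_mem] at hγ'
    rw [igF1_smul_yOneFun]
    have e : frickeFun M (γ⁻¹ 0 0) (γ⁻¹ 0 1) = frickeFun M 1 0 :=
      igF1_frickeFun_congr (by rw [hγ'.1, Int.cast_one]) (by rw [hγ'.2.1, Int.cast_zero])
    rw [e]
    rfl
  · intro p hp hpM A hA
    have hA' : A.valuation ((p : ℕ) : Kbar) < 1 := by
      exact A.mem_nonunits_iff.1 hA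
    have hMu : A.valuation ((M : ℕ) : Kbar) = 1 := ig_val_natCast_eq_one A hp hA' hpM
    obtain ⟨hint, hdist⟩ := hY Kbar A M ζ hprim hMu
    refine ⟨fun g a ha => ?_, fun g g' a a' ha ha' hred => ?_⟩
    · have e : a = igY M ζ ((g⁻¹ 0 0 : ℤ) : ZMod M) ((g⁻¹ 0 1 : ℤ) : ZMod M) :=
        ha.unique (igF1_hasExp hFE hM ζ hζ g)
      have hv := igF1_ne_zero (igF1_isNZ hM g⁻¹)
      have h := hint ((g⁻¹ 0 0 : ℤ) : ZMod M) ((g⁻¹ 0 1 : ℤ) : ZMod M) hv
      rw [e]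
      exact h
    · have e : a = igY M ζ ((g⁻¹ 0 0 : ℤ) : ZMod M) ((g⁻¹ 0 1 : ℤ) : ZMod M) :=
        ha.unique (igF1_hasExp hFE hM ζ hζ g)
      have e' : a' = igY M ζ ((g'⁻¹ 0 0 : ℤ) : ZMod M) ((g'⁻¹ 0 1 : ℤ) : ZMod M) :=
        ha'.unique (igF1_hasExp hFE hM ζ hζ g')
      rw [e, e'] at hred
      have hF : frickeFun M (g⁻¹ 0 0) (g⁻¹ 0 1) = frickeFun M (g'⁻¹ 0 0) (g'⁻¹ 0 1) := by
        rcases hdist _ _ _ _ (igF1_ne_zero (igF1_isNZ hM g⁻¹))
          (igF1_ne_zero (igF1_isNZ hM g'⁻¹)) hred with ⟨h1, h2⟩ | ⟨h1, h2⟩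
        · exact igF1_frickeFun_congr h1 h2
        · exact igF1_frickeFun_congr_neg h1 h2
      rw [igF1_smul_yOneFun, igF1_smul_yOneFun, hF]

/-- **IG-F1**, unconditional. -/
theorem igF1 : IgF1Statement := igF1_of xExp igFExp igYStatement

end Fermat.Agent.S48WG
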