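/-
S48 wall (W), block G-RED, seat G-IGUSA, leaf IG-DEG0, split (S) (helper9, for helper1):
the stabiliser of `y₁ = (F_{(1,0)} - j) / 12` fixes the generators of `ℚ̄ F₁(M)` in the ambient field.

* `igDeg0_stab_row`    : `γ ∈ Stab(y₁) ⟹ (1, 0) γ⁻¹ ≡ ± (1, 0)` modulo `M`
                         (expansions `igY`, `HasExp.unique`, `igYStatement` at the trivial
                         valuation ring `⊤`);
* `igDeg0_stab_fricke` : `γ ∈ Stab(y₁) ⟹ γ • F_{(a,0)} = F_{(a,0)}`;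
* `igDeg0_stab_jd`     : `γ ∈ Stab(y₁) ⟹ γ • (S • j_d) = S • j_d` for `d ∣ M`.
-/
import Mathlib
import Fermat.Agent.S48.W.G.Red.Igusa.F1
import Fermat.Agent.S24.EmbFStab

set_option autoImplicit false

noncomputable section

namespace Fermat.Agent.S48WG

open UpperHalfPlane ModularCurve IntermediateField
open Fermat.Agent.S24 Fermat.Agent.S48W Fermat.Agent.S48WA1 Fermat.Agent.S48WKron
open Fermat.Agent.GaussInt
open scoped MatrixGroups Real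

/-- at the trivial valuation ring every nonzero element is a unit. -/
theorem igDeg0_val_top {K : Type*} [Field K] {x : K} (hx : x ≠ 0) :
    (⊤ : ValuationSubring K).valuation x = 1 := by
  apply le_antisymm
  · exact ((⊤ : ValuationSubring K).valuation_le_one_iff x).2 (ValuationSubring.mem_top x)
  · have h : (⊤ : ValuationSubring K).valuation x⁻¹ ≤ 1 :=
      ((⊤ : ValuationSubring K).valuation_le_one_iff x⁻¹).2 (ValuationSubring.mem_top _)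
    rw [map_inv₀] at h
    have h0 : (⊤ : ValuationSubring K).valuation x ≠ 0 := (Valuation.ne_zero_iff _).2 hx
    exact (inv_le_one₀ (zero_lt_iff.2 h0)).1 h

theorem igDeg0_inv_apply_zero_one (γ : SL(2, ℤ)) : (γ⁻¹ : SL(2, ℤ)) 0 1 = - γ 0 1 := by
  simp [Matrix.SpecialLinearGroup.SL2_inv_expl]

theorem igDeg0_conj_S_apply (γ : SL(2, ℤ)) :
    (ModularGroup.S⁻¹ * γ * ModularGroup.S : SL(2, ℤ)) 1 0 = - γ 0 1 := by
  have hS : (ModularGroup.S : Matrix (Fin 2) (Fin 2) ℤ) = !![0, -1; 1, 0] := ModularGroup.coe_S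
  have hSi : ((ModularGroup.S⁻¹ : SL(2, ℤ)) : Matrix (Fin 2) (Fin 2) ℤ) = !![0, 1; -1, 0] := by
    ext i j
    fin_cases i <;> fin_cases j <;> simp [Matrix.SpecialLinearGroup.SL2_inv_expl]
  rw [Matrix.SpecialLinearGroup.coe_mul, Matrix.SpecialLinearGroup.coe_mul, hS, hSi]
  simp [Matrix.mul_apply, Fin.sum_univ_two, Matrix.vecMul, dotProduct]

/-- the first row of `γ⁻¹` is `± (1, 0)` modulo `M` for `γ` in the stabiliser of `y₁`. -/
theorem igDeg0_stab_row (M : ℕ) [NeZero M] (hM : 2 ≤ M) (γ : SL(2, ℤ))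
    (hγ : γ ∈ MulAction.stabilizer SL(2, ℤ) (yOneFun M)) :
    ((((γ⁻¹ : SL(2, ℤ)) 0 0 : ℤ) : ZMod M) = 1 ∧ (((γ⁻¹ : SL(2, ℤ)) 0 1 : ℤ) : ZMod M) = 0) ∨
    ((((γ⁻¹ : SL(2, ℤ)) 0 0 : ℤ) : ZMod M) = -1 ∧
      (((γ⁻¹ : SL(2, ℤ)) 0 1 : ℤ) : ZMod M) = 0) := by
  obtain ⟨ζ, hζ⟩ := HasExp.exists_iota_eq_exp M
  have hprim : IsPrimitiveRoot ζ M := igF1_isPrimitiveRoot hζ
  have h1 := igF1_hasExp igFExp hM ζ hζ γ
  have h2 := igF1_hasExp igFExp hM ζ hζ 1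
  rw [MulAction.mem_stabilizer_iff.1 hγ] at h1
  rw [one_smul] at h2
  have e := h1.unique h2
  have hM0 : ((M : ℕ) : Kbar) ≠ 0 := Nat.cast_ne_zero.2 (NeZero.ne M)
  obtain ⟨-, hdist⟩ := igYStatement Kbar (⊤ : ValuationSubring Kbar) M ζ hprim
    (igDeg0_val_top hM0)
  have hred : IsRedZero (⊤ : ValuationSubring Kbar)
      (igY M ζ (((γ⁻¹ : SL(2, ℤ)) 0 0 : ℤ) : ZMod M) (((γ⁻¹ : SL(2, ℤ)) 0 1 : ℤ) : ZMod M)
        - igY M ζ ((((1 : SL(2, ℤ))⁻¹ : SL(2, ℤ)) 0 0 : ℤ) : ZMod M)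
            ((((1 : SL(2, ℤ))⁻¹ : SL(2, ℤ)) 0 1 : ℤ) : ZMod M)) := by
    rw [e, sub_self]
    intro n
    rw [HahnSeries.coeff_zero, map_zero]
    exact zero_lt_one
  have h := hdist _ _ _ _ (igF1_ne_zero (igF1_isNZ hM γ⁻¹))
    (igF1_ne_zero (igF1_isNZ hM (1 : SL(2, ℤ))⁻¹)) hred
  have e00 : ((((1 : SL(2, ℤ))⁻¹ : SL(2, ℤ)) 0 0 : ℤ) : ZMod M) = 1 := by simp
  have e01 : ((((1 : SL(2, ℤ))⁻¹ : SL(2, ℤ)) 0 1 : ℤ) : ZMod M) = 0 := by simp
  rw [e00, e01, neg_zero] at h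
  exact h

/-- the stabiliser of `y₁` fixes the Fricke functions `F_{(a,0)}`. -/
theorem igDeg0_stab_fricke (M : ℕ) [NeZero M] (hM : 2 ≤ M) (γ : SL(2, ℤ))
    (hγ : γ ∈ MulAction.stabilizer SL(2, ℤ) (yOneFun M)) (a : ℤ) :
    γ • frickeFun M a 0 = frickeFun M a 0 := by
  rw [frickeSmul M a 0 γ]
  have hL : actL γ⁻¹ a 0 = a * (γ⁻¹ : SL(2, ℤ)) 0 0 := by
    unfold actL
    ring
  have hR : actR γ⁻¹ a 0 = a * (γ⁻¹ : SL(2, ℤ)) 0 1 := by
    unfold actR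
    ring
  rw [hL, hR]
  rcases igDeg0_stab_row M hM γ hγ with ⟨h1, h2⟩ | ⟨h1, h2⟩
  · apply igF1_frickeFun_congr
    · rw [Int.cast_mul, h1, mul_one]
    · rw [Int.cast_mul, h2, mul_zero, Int.cast_zero]
  · apply igF1_frickeFun_congr_neg
    · rw [Int.cast_mul, h1, mul_neg, mul_one]
    · rw [Int.cast_mul, h2, mul_zero, Int.cast_zero, neg_zero]

/-- the stabiliser of `y₁` fixes `S • j_d` (whose expansion is `j(u^{M/d})`), `d ∣ M`. -/
theorem igDeg0_stab_jd (M : ℕ) [NeZero M] (hM : 2 ≤ M) (γ : SL(2, ℤ))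
    (hγ : γ ∈ MulAction.stabilizer SL(2, ℤ) (yOneFun M)) (d : ℕ) [NeZero d] (hd : d ∣ M) :
    γ • (ModularGroup.S • jd d) = ModularGroup.S • jd d := by
  have hb : (M : ℤ) ∣ γ 0 1 := by
    have h2 : ((((γ⁻¹ : SL(2, ℤ)) 0 1 : ℤ)) : ZMod M) = 0 := by
      rcases igDeg0_stab_row M hM γ hγ with ⟨-, h2⟩ | ⟨-, h2⟩ <;> exact h2
    rw [igDeg0_inv_apply_zero_one, Int.cast_neg, neg_eq_zero,
      ZMod.intCast_zmod_eq_zero_iff_dvd] at h2
    exact h2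
  have hmem : ModularGroup.S⁻¹ * γ * ModularGroup.S ∈ CongruenceSubgroup.Gamma0 d := by
    apply EmbFStab.mem_Gamma0_of_dvd
    rw [igDeg0_conj_S_apply]
    exact (dvd_neg.2 ((Int.natCast_dvd_natCast.2 hd).trans hb))
  have h := (smul_jd_eq_iff d _).2 hmem
  calc γ • (ModularGroup.S • jd d)
      = ModularGroup.S • ((ModularGroup.S⁻¹ * γ * ModularGroup.S) • jd d) := by
        rw [← mul_smul, ← mul_smul]
        congr 1
        group
    _ = ModularGroup.S • jd d := by rw [h]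

end Fermat.Agent.S48WG
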