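/-
S48 wall (W), block G-RED, seat G-IGUSA, leaf IG-DEG0 (helper1): FINAL.

`igDeg0 : IgDeg0Statement`:  `[ℚ̄ F₁(M) : ℚ̄(j(q^M))] ≤ [SL₂(ℤ) : Stab(y₁)]`, and the extension
is finite.  From `Deg0Core.lean` (Artin, helper1) and `Deg0Stab.lean` (the stabiliser of `y₁`
fixes the generators, helper9).
-/
import Mathlib
import Fermat.Agent.S48.W.G.Red.Igusa.Deg0Core
import Fermat.Agent.S48.W.G.Red.Igusa.Deg0Stab

set_option autoImplicit false

noncomputable section

namespace Fermat.Agent.S48WG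

open scoped MatrixGroups

/-- (S), unconditional (helper9). -/
theorem igDeg0Stab : IgDeg0StabStatement := fun M _ hM γ hγ =>
  ⟨fun a => igDeg0_stab_fricke M hM γ hγ a, fun d _ hd => igDeg0_stab_jd M hM γ hγ d hd⟩

/-- **IG-DEG0**. -/
theorem igDeg0 : IgDeg0Statement := igDeg0_of igDeg0Stab

end Fermat.Agent.S48WG
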