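/-
S48 wall (W), block G-RED, seat G-IGUSA, leaf IG-GLUE (helper87; sub-architect helper59).

`igGlue : IgGlueStatement`: a base function `x` with a pole and leading coefficient `1`, a finite
family `y` of `A`-integral elements of `F = ℚ̄ F₀` with `k(x̄)(ȳ) / k(x̄)` separable of degree
`≥ n`, and `[F : ℚ̄(x)] ≤ n`  ⟹  `IsBaseFun A F₀ hx`.

Proof: `x`, `x̄` are transcendental (a pole); the fundamental inequality (G-FUND `fund_of_barElt`
with the model `redModel`, `resSurj`) gives `[F_k : k(x̄)] ≤ [F : ℚ̄(x)] ≤ n`; the field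
`k(x̄)(ȳ) ⊆ F_k` has degree `≥ n`; hence `F_k = k(x̄)(ȳ)` (`igGlue_squeeze`), separable of degree
`n`.
-/
import Mathlib
import Fermat.Agent.S48.W.G.Red.Igusa.DatDefs
import Fermat.Agent.S48.W.G.Red.Fund
import Fermat.Agent.S48.W.G.Red.Model
import Fermat.Agent.S48.W.G.Red.Res

set_option autoImplicit false
set_option synthInstance.maxHeartbeats 400000

noncomputable section

namespace Fermat.Agent.S48WG

open IntermediateField ModularCurve Fermat.Agent.GaussInt Fermat.Agent.S24

section transfer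

variable {k L : Type*} [Field k] [Field L] [Algebra k L]

/-- the base field `k(z) ⊆ L` against `k(z) ⊆ F` for `z ∈ F`. -/
def igGlueBaseEquiv (Fk : IntermediateField k L) {z : L} (hz : z ∈ Fk) :
    ↥(k⟮z⟯) ≃+* ↥(k⟮(⟨z, hz⟩ : ↥Fk)⟯) where
  toFun w := ⟨⟨w.1, (adjoin_simple_le_iff.mpr hz) w.2⟩, by
    have hl : lift (k⟮(⟨z, hz⟩ : ↥Fk)⟯) = k⟮z⟯ := lift_adjoin_simple k Fk ⟨z, hz⟩
    have hw : (w : L) ∈ lift (k⟮(⟨z, hz⟩ : ↥Fk)⟯) := by
      rw [hl]
      exact w.2
    exact (mem_lift (⟨w.1, (adjoin_simple_le_iff.mpr hz) w.2⟩ : ↥Fk)).1 hw⟩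
  invFun w := ⟨((w : ↥Fk) : L), by
    have hl : lift (k⟮(⟨z, hz⟩ : ↥Fk)⟯) = k⟮z⟯ := lift_adjoin_simple k Fk ⟨z, hz⟩
    rw [← hl]
    exact (mem_lift (w : ↥Fk)).2 w.2⟩
  left_inv _ := rfl
  right_inv _ := rfl
  map_mul' _ _ := rfl
  map_add' _ _ := rfl

/-- the top field: `F` over `k(z) ⊆ L` against `F` over `k(z) ⊆ F`. -/
def igGlueTopEquiv (Fk : IntermediateField k L) {z : L} (hz : z ∈ Fk) :
    ↥(extendScalars (adjoin_simple_le_iff.mpr hz : k⟮z⟯ ≤ Fk)) ≃+* ↥Fk where
  toFun w := ⟨w.1, w.2⟩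
  invFun w := ⟨w.1, w.2⟩
  left_inv _ := rfl
  right_inv _ := rfl
  map_mul' _ _ := rfl
  map_add' _ _ := rfl

theorem igGlue_compat (Fk : IntermediateField k L) {z : L} (hz : z ∈ Fk) :
    (algebraMap ↥(k⟮(⟨z, hz⟩ : ↥Fk)⟯) ↥Fk).comp (igGlueBaseEquiv Fk hz).toRingHom =
      (igGlueTopEquiv Fk hz).toRingHom.comp
        (algebraMap ↥(k⟮z⟯) ↥(extendScalars (adjoin_simple_le_iff.mpr hz : k⟮z⟯ ≤ Fk))) := by
  ext w
  rfl

/-- **the squeeze**, generic form: if `F / k(z)` has degree `≤ n` and the subfield `k(z)(S) ⊆ F`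
is separable of degree `≥ n` over `k(z)`, then `F / k(z)` is separable of degree `≥ n`. -/
theorem igGlue_squeeze (Fk : IntermediateField k L) {z : L} (hz : z ∈ Fk) (S : Set L)
    (hS : S ⊆ Fk) (n : ℕ)
    (hfin : FiniteDimensional ↥(k⟮(⟨z, hz⟩ : ↥Fk)⟯) ↥Fk)
    (hle : Module.finrank ↥(k⟮(⟨z, hz⟩ : ↥Fk)⟯) ↥Fk ≤ n)
    (hsep : Algebra.IsSeparable ↥(k⟮z⟯) ↥(adjoin ↥(k⟮z⟯) S))
    (hn : n ≤ Module.finrank ↥(k⟮z⟯) ↥(adjoin ↥(k⟮z⟯) S)) :
    Algebra.IsSeparable ↥(k⟮(⟨z, hz⟩ : ↥Fk)⟯) ↥Fk ∧
      n ≤ Module.finrank ↥(k⟮(⟨z, hz⟩ : ↥Fk)⟯) ↥Fk := by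
  have hE : k⟮z⟯ ≤ Fk := adjoin_simple_le_iff.mpr hz
  have hc := igGlue_compat Fk hz
  have hrk : Module.finrank ↥(k⟮z⟯) ↥(extendScalars hE) =
      Module.finrank ↥(k⟮(⟨z, hz⟩ : ↥Fk)⟯) ↥Fk :=
    Algebra.finrank_eq_of_equiv_equiv (igGlueBaseEquiv Fk hz) (igGlueTopEquiv Fk hz) hc
  have hfin' : FiniteDimensional ↥(k⟮z⟯) ↥(extendScalars hE) := by
    refine Module.Finite.of_equiv_equiv (igGlueBaseEquiv Fk hz).symm (igGlueTopEquiv Fk hz).symm ?_
    ext w
    rfl
  have hRle : adjoin ↥(k⟮z⟯) S ≤ extendScalars hE := by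
    rw [adjoin_le_iff]
    intro s hs
    exact hS hs
  have h1 : Module.finrank ↥(k⟮z⟯) ↥(adjoin ↥(k⟮z⟯) S) ≤
      Module.finrank ↥(k⟮z⟯) ↥(extendScalars hE) := finrank_le_of_le_right hRle
  have heq : adjoin ↥(k⟮z⟯) S = extendScalars hE :=
    eq_of_le_of_finrank_le hRle (by omega)
  have hsep' : Algebra.IsSeparable ↥(k⟮z⟯) ↥(extendScalars hE) := by
    rw [← heq]
    exact hsep
  refine ⟨Algebra.IsSeparable.of_equiv_equiv (igGlueBaseEquiv Fk hz) (igGlueTopEquiv Fk hz) hc,
    by omega⟩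

end transfer

section pole

variable {K : Type*} [Field K]

/-- a series with a pole and leading coefficient `1` is transcendental over the constants. -/
theorem igGlue_transcendental {J : LaurentSeries K} (hord : J.order < 0)
    (hlead : J.leadingCoeff = 1) : Transcendental K J := by
  rw [transcendental_iff]
  intro P hP
  by_contra hP0
  have h := ig_coeff_aeval_natDegree hord hlead P
  rw [hP, HahnSeries.coeff_zero] at h
  exact hP0 (Polynomial.leadingCoeff_eq_zero.mp h.symm)

/-- an element of a subfield of `L` which is transcendental in `L` is transcendental. -/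
theorem igGlue_transcendental_of_coe {k L : Type*} [Field k] [Field L] [Algebra k L]
    (E : IntermediateField k L) (y : E) (h : Transcendental k (y : L)) : Transcendental k y := by
  intro halg
  apply h
  have := halg.algebraMap (A := L)
  exact this

variable (A : ValuationSubring K)

/-- the reduction of an integral series with leading coefficient `1` has the same order. -/
theorem igGlue_order_red {X : LaurentSeries A} (hlead : (emb A X).leadingCoeff = 1) :
    (red A X).order = (emb A X).order := by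
  have hx0 : emb A X ≠ 0 := by
    intro h0
    rw [h0, HahnSeries.leadingCoeff_zero] at hlead
    exact zero_ne_one hlead
  have hc : (X.coeff (emb A X).order : K) = 1 := by
    rw [← emb_coeff, ← HahnSeries.leadingCoeff_eq]
    exact hlead
  have hc1 : (red A X).coeff (emb A X).order = 1 := by
    rw [red_coeff]
    have : X.coeff (emb A X).order = 1 := Subtype.ext hc
    rw [this, map_one]
  have hne : (red A X).coeff (emb A X).order ≠ 0 := by
    rw [hc1]
    exact one_ne_zero
  refine le_antisymm (HahnSeries.order_le_of_coeff_ne_zero hne) ?_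
  by_contra hlt
  rw [not_le] at hlt
  have hr0 : red A X ≠ 0 := by
    intro h0
    rw [h0, HahnSeries.coeff_zero] at hne
    exact hne rfl
  have h1 : (red A X).coeff (red A X).order ≠ 0 := fun h => hr0 (HahnSeries.coeff_order_eq_zero.mp h)
  apply h1
  rw [red_coeff]
  have h2 : (emb A X).coeff (red A X).order = 0 := HahnSeries.coeff_eq_zero_of_lt_order hlt
  rw [emb_coeff] at h2
  have : X.coeff (red A X).order = 0 := Subtype.ext h2
  rw [this, map_zero]

theorem igGlue_leadingCoeff_red {X : LaurentSeries A} (hlead : (emb A X).leadingCoeff = 1) :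
    (red A X).leadingCoeff = 1 := by
  rw [HahnSeries.leadingCoeff_eq, igGlue_order_red A hlead, red_coeff]
  have hc : (X.coeff (emb A X).order : K) = 1 := by
    rw [← emb_coeff, ← HahnSeries.leadingCoeff_eq]
    exact hlead
  have : X.coeff (emb A X).order = 1 := Subtype.ext hc
  rw [this, map_one]

/-- the residue of an integral series does not depend on the field. -/
theorem igGlue_redSer_emb (X : LaurentSeries A) : redSer A (emb A X) = red A X :=
  gaussResFun_emb (F := (⊤ : IntermediateField K (LaurentSeries K))) (y := X)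
    IntermediateField.mem_top

theorem igGlue_redSer_eq (F : IntermediateField K (LaurentSeries K)) {f : LaurentSeries K}
    (hf : IsIntK A f) (hfF : f ∈ F) : redSer A f = gaussResFun A F f := by
  obtain ⟨X, rfl⟩ := isIntK_iff_mem_range.mp hf
  rw [igGlue_redSer_emb]
  exact (gaussResFun_emb hfF).symm

theorem igGlue_mem_gaussSub (F : IntermediateField K (LaurentSeries K)) {f : LaurentSeries K}
    (hf : IsIntK A f) (hfF : f ∈ F) : f ∈ gaussSub A F := by
  obtain ⟨X, rfl⟩ := isIntK_iff_mem_range.mp hf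
  exact emb_mem_gaussSub hfF

end pole

/-- **IG-GLUE**. -/
theorem igGlue : IgGlueStatement := by
  intro A F₀ ℓ hℓ hA hI x hx hxI hord hlead ι _ y hyF hyI n hfin hdeg hsep hfinR hn
  have hxF : x ∈ laurentBaseChange Kbar F₀ := mem_of_mem_gaussSub hx
  -- the residue of `x`
  have hredx : redSer A x = gaussResFun A (laurentBaseChange Kbar F₀) x :=
    igGlue_redSer_eq A _ hxI hxF
  have hz : redSer A x ∈ resField A F₀ := by
    rw [hredx]
    exact gaussResFun_mem_resField x hx
  have hres : resElt hx = ⟨redSer A x, hz⟩ := Subtype.ext hredx.symm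
  -- the pole of the residue
  obtain ⟨X, hX⟩ := isIntK_iff_mem_range.mp hxI
  have hX' : emb A X = x := hX
  have hlead' : (emb A X).leadingCoeff = 1 := by rw [hX']; exact hlead
  have hordb : (redSer A x).order < 0 := by
    rw [← hX', igGlue_redSer_emb, igGlue_order_red A hlead', hX']
    exact hord
  have hleadb : (redSer A x).leadingCoeff = 1 := by
    rw [← hX', igGlue_redSer_emb]
    exact igGlue_leadingCoeff_red A hlead'
  -- transcendence
  have htr : Transcendental Kbar (barElt hx) :=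
    igGlue_transcendental_of_coe _ (barElt hx) (igGlue_transcendental hord hlead)
  have htrb : Transcendental (IsLocalRing.ResidueField A) (resElt hx) := by
    rw [hres]
    exact igGlue_transcendental_of_coe _ _ (igGlue_transcendental hordb hleadb)
  -- the fundamental inequality
  have hfund := fund_of_barElt hx (redModel (redHyp hℓ hA hI) (resSurj A F₀) hx htrb) rfl rfl hfin
  -- the squeeze
  have hS : Set.range (fun i => redSer A (y i)) ⊆ (resField A F₀ :
      Set (LaurentSeries (IsLocalRing.ResidueField A))) := by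
    rintro _ ⟨i, rfl⟩
    show redSer A (y i) ∈ resField A F₀
    rw [igGlue_redSer_eq A _ (hyI i) (hyF i)]
    exact gaussResFun_mem_resField (y i) (igGlue_mem_gaussSub A _ (hyI i) (hyF i))
  have hfund' : FiniteDimensional
        ↥((IsLocalRing.ResidueField A)⟮(⟨redSer A x, hz⟩ : ↥(resField A F₀))⟯) ↥(resField A F₀) ∧
      Module.finrank
        ↥((IsLocalRing.ResidueField A)⟮(⟨redSer A x, hz⟩ : ↥(resField A F₀))⟯) ↥(resField A F₀) ≤
        Module.finrank ↥(Kbar⟮barElt hx⟯) ↥(laurentBaseChange Kbar F₀) := by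
    rw [← hres]
    exact hfund
  have hsq := igGlue_squeeze (resField A F₀) hz (Set.range (fun i => redSer A (y i))) hS n
    hfund'.1 (hfund'.2.trans hdeg) hsep hn
  rw [← hres] at hsq
  exact ⟨htr, hfin, htrb, hfund.1, hsq.1, hdeg.trans hsq.2⟩

end Fermat.Agent.S48WG
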