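/-
S48 wall (W), block G-RED, seat G-IGUSA, part IG-GRP (helper93): the group theory of Dedekind's
argument in `SL(2,ℤ)` (pure Mathlib).

* `igGrp_normalClosure_T` : the conjugates of `T` generate `SL(2,ℤ)`  (`S⁻¹ = T (S T S⁻¹) T`);
* `igGrp_normalClosure_map` : the same in every quotient of `SL(2,ℤ)`;
* `igGrp_conj_T_mem`      : `h T h⁻¹ ≡ T^(a²)` modulo `Γ(M)` for `h ∈ Γ₀(M)`, `a = h₀₀`;
* `igGrp_conj_T_smul`     : hence `h T h⁻¹` acts as `T^(a²)` wherever `Γ(M)` acts trivially.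
-/
import Mathlib

set_option autoImplicit false

namespace Fermat.Agent.S48WG

open Matrix Matrix.SpecialLinearGroup ModularGroup CongruenceSubgroup
open scoped MatrixGroups

/-- `S⁻¹ = T (S T S⁻¹) T`. -/
theorem igGrp_S_inv : (S : SL(2, ℤ))⁻¹ = T * (S * T * S⁻¹) * T := by
  ext i j
  fin_cases i <;> fin_cases j <;>
    simp [ModularGroup.S, ModularGroup.T, Matrix.SpecialLinearGroup.coe_inv,
      Matrix.adjugate_fin_two, Matrix.mul_apply, Fin.sum_univ_two]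

/-- **the conjugates of `T` generate `SL(2,ℤ)`**. -/
theorem igGrp_normalClosure_T :
    Subgroup.normalClosure ({T} : Set SL(2, ℤ)) = ⊤ := by
  rw [eq_top_iff, ← SpecialLinearGroup.SL2Z_generators, Subgroup.closure_le]
  have hT : T ∈ Subgroup.normalClosure ({T} : Set SL(2, ℤ)) :=
    Subgroup.subset_normalClosure (Set.mem_singleton T)
  have hn : (Subgroup.normalClosure ({T} : Set SL(2, ℤ))).Normal := Subgroup.normalClosure_normal
  rintro x (rfl | rfl)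
  · have h1 : S * T * S⁻¹ ∈ Subgroup.normalClosure ({T} : Set SL(2, ℤ)) := hn.conj_mem T hT S
    have h2 : (S : SL(2, ℤ))⁻¹ ∈ Subgroup.normalClosure ({T} : Set SL(2, ℤ)) := by
      rw [igGrp_S_inv]
      exact mul_mem (mul_mem hT h1) hT
    have := inv_mem h2
    rwa [inv_inv] at this
  · exact hT

/-- the conjugates of the image of `T` generate every quotient of `SL(2,ℤ)`. -/
theorem igGrp_normalClosure_map {G : Type*} [Group G] (π : SL(2, ℤ) →* G)
    (hπ : Function.Surjective π) : Subgroup.normalClosure ({π T} : Set G) = ⊤ := by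
  have h := Subgroup.map_normalClosure ({T} : Set SL(2, ℤ)) π hπ
  rw [igGrp_normalClosure_T, Subgroup.map_top_of_surjective π hπ, Set.image_singleton] at h
  exact h.symm

/-- **`h T h⁻¹ ≡ T^(a²)` modulo `Γ(M)`** for `h ∈ Γ₀(M)`, `a = h₀₀`. -/
theorem igGrp_conj_T_mem (M : ℕ) (h : SL(2, ℤ)) (hh : h ∈ Gamma0 M) :
    (T ^ (h 0 0 ^ 2 : ℤ))⁻¹ * (h * T * h⁻¹) ∈ Gamma M := by
  have hc : ((h 1 0 : ℤ) : ZMod M) = 0 := Gamma0_mem.mp hh
  have hdet : h 0 0 * h 1 1 - h 0 1 * h 1 0 = 1 := by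
    have := h.det_coe
    rw [Matrix.det_fin_two] at this
    exact this
  have hdet' : ((h 0 0 : ℤ) : ZMod M) * ((h 1 1 : ℤ) : ZMod M) = 1 := by
    have := congrArg (fun z : ℤ => (z : ZMod M)) hdet
    simp only [Int.cast_sub, Int.cast_mul, Int.cast_one, hc, mul_zero, sub_zero] at this
    exact this
  rw [Gamma_mem]
  have hTinv : ((T ^ (h 0 0 ^ 2 : ℤ))⁻¹ : SL(2, ℤ)) = T ^ (-(h 0 0 ^ 2 : ℤ)) := by
    rw [_root_.zpow_neg]
  rw [hTinv]
  have hmat : ((T ^ (-(h 0 0 ^ 2 : ℤ)) * (h * T * h⁻¹) : SL(2, ℤ)) : Matrix (Fin 2) (Fin 2) ℤ)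
      = (!![1, -(h 0 0 ^ 2 : ℤ); 0, 1] : Matrix (Fin 2) (Fin 2) ℤ) *
          ((h : Matrix (Fin 2) (Fin 2) ℤ) * !![1, 1; 0, 1] *
            !![h 1 1, -h 0 1; -h 1 0, h 0 0]) := by
    rw [Matrix.SpecialLinearGroup.coe_mul, Matrix.SpecialLinearGroup.coe_mul,
      Matrix.SpecialLinearGroup.coe_mul, ModularGroup.coe_T_zpow, ModularGroup.coe_T,
      Matrix.SpecialLinearGroup.coe_inv, Matrix.adjugate_fin_two]
  have hent : ∀ i j : Fin 2, ((T ^ (-(h 0 0 ^ 2 : ℤ)) * (h * T * h⁻¹) : SL(2, ℤ)) i j : ℤ)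
      = (((!![1, -(h 0 0 ^ 2 : ℤ); 0, 1] : Matrix (Fin 2) (Fin 2) ℤ) *
          ((h : Matrix (Fin 2) (Fin 2) ℤ) * !![1, 1; 0, 1] *
            !![h 1 1, -h 0 1; -h 1 0, h 0 0]) : Matrix (Fin 2) (Fin 2) ℤ)) i j :=
    fun i j => by rw [← hmat]
  have e : ((h 0 0 : ℤ) : ZMod M) * ((h 1 1 : ℤ) : ZMod M) = 1 := hdet'
  refine ⟨?_, ?_, ?_, ?_⟩
  · rw [hent]
    simp only [Matrix.mul_apply, Fin.sum_univ_two, Matrix.of_apply, Matrix.cons_val',
      Matrix.cons_val_zero, Matrix.cons_val_one, Matrix.cons_val_fin_one]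
    push_cast
    simp only [hc]
    linear_combination e
  · rw [hent]
    simp only [Matrix.mul_apply, Fin.sum_univ_two, Matrix.of_apply, Matrix.cons_val',
      Matrix.cons_val_zero, Matrix.cons_val_one, Matrix.cons_val_fin_one]
    push_cast
    simp only [hc]
    linear_combination (-(((h 0 0 : ℤ) : ZMod M) ^ 2)) * e
  · rw [hent]
    simp only [Matrix.mul_apply, Fin.sum_univ_two, Matrix.of_apply, Matrix.cons_val',
      Matrix.cons_val_zero, Matrix.cons_val_one, Matrix.cons_val_fin_one]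
    push_cast
    simp only [hc]
    ring
  · rw [hent]
    simp only [Matrix.mul_apply, Fin.sum_univ_two, Matrix.of_apply, Matrix.cons_val',
      Matrix.cons_val_zero, Matrix.cons_val_one, Matrix.cons_val_fin_one]
    push_cast
    simp only [hc]
    linear_combination e

/-- `h T h⁻¹` acts as `T^(a²)` wherever `Γ(M)` acts trivially (`h ∈ Γ₀(M)`, `a = h₀₀`). -/
theorem igGrp_conj_T_smul {X : Type*} [MulAction SL(2, ℤ) X] (M : ℕ)
    (hΓ : ∀ γ ∈ Gamma M, ∀ x : X, γ • x = x) (h : SL(2, ℤ)) (hh : h ∈ Gamma0 M) (x : X) :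
    (h * T * h⁻¹) • x = (T ^ (h 0 0 ^ 2 : ℤ)) • x := by
  have hmem := igGrp_conj_T_mem M h hh
  have e : h * T * h⁻¹ = T ^ (h 0 0 ^ 2 : ℤ) * ((T ^ (h 0 0 ^ 2 : ℤ))⁻¹ * (h * T * h⁻¹)) := by
    group
  rw [e, mul_smul, hΓ _ hmem]

end Fermat.Agent.S48WG
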