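/-
S48 wall (W), block G-RED, seat G-IGUSA, leaf IG-DAT-G (helper24): the GROUP-SIDE hypotheses of
Dedekind's argument (`IgAbsStatement`) for

  `R = AHb M`,  `G = GW M = SL₂(ℤ) / Γ(M)`,  `ex = expAHb M`,  `j = jAHb M`,  `t = tW M` (image of `T`).

(a) `gw_smul_jAHb`, (b) `exp_jAHb`, `isIntK_exp_jAHb`, `order_exp_jAHb`, `leadingCoeff_exp_jAHb`,
(c) `gw_invariant`, (d) `gw_T_stable`, (e) `gw_normalClosure`, (f) `gw_conj`, (g) `gw_index`.
(`igNC`, `igConj` are in `GroupNC.lean`, `GroupConj.lean`; (e), (f) do not use their hypothesis.)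
-/
import Mathlib
import Fermat.Agent.S48.W.G.Red.Igusa.LeafDefs
import Fermat.Agent.S48.W.G.Red.Igusa.GroupT

set_option autoImplicit false

noncomputable section

namespace Fermat.Agent.S48WG

open UpperHalfPlane ModularCurve
open Fermat.Agent.S24 Fermat.Agent.S48WKron Fermat.Agent.GaussInt
open scoped MatrixGroups

/-- the image of `T` in `GW M = SL₂(ℤ) / Γ(M)`. -/
def tW (M : ℕ) : GW M := (QuotientGroup.mk ModularGroup.T : GW M)

theorem tW_smul (M : ℕ) [NeZero M] (f : AHb M) : tW M • f = ModularGroup.T • f := rfl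

/-! ### (a) -/

theorem gw_smul_jAHb (M : ℕ) [NeZero M] : ∀ g : GW M, g • jAHb M = jAHb M := by
  intro g
  induction g using QuotientGroup.induction_on with
  | H γ => rw [GW.mk_smul]; exact smul_jAHb M γ

/-! ### (b) -/

theorem exp_jAHb (M : ℕ) [NeZero M] :
    expAHb M (jAHb M) = qExpand Kbar M (jqModC Kbar) := by
  have h := expLHb_jdLHb M 1 (one_dvd M)
  rw [jdLHb_one, jLHb, expLHb_algebraMap] at h
  rw [h]
  exact qExpand_congr (mul_one M) _

theorem isIntK_jqModC {K : Type*} [Field K] (A : ValuationSubring K) : IsIntK A (jqModC K) := by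
  intro n
  rw [coeff_jqModC_eq_intCast]
  exact intCast_mem A _

theorem isIntK_qExpand {K : Type*} [Field K] (A : ValuationSubring K) (N : ℕ) [NeZero N]
    {f : LaurentSeries K} (hf : IsIntK A f) : IsIntK A (qExpand K N f) := by
  intro n
  by_cases hdvd : (N : ℤ) ∣ n
  · obtain ⟨j, rfl⟩ := hdvd
    rw [qExpand_coeff_mul]
    exact hf j
  · rw [qExpand_coeff_of_not_dvd N f hdvd]
    exact A.zero_mem

theorem isIntK_exp_jAHb (A : ValuationSubring Kbar) (M : ℕ) [NeZero M] :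
    IsIntK A (expAHb M (jAHb M)) := by
  rw [exp_jAHb]
  exact isIntK_qExpand A M (isIntK_jqModC A)

/-- the order of `f(q^N)`. -/
theorem igDat_order_qExpand {L : Type*} [Field L] (N : ℕ) [NeZero N] {f : LaurentSeries L}
    (hf : f ≠ 0) : (qExpand L N f).order = (N : ℤ) * f.order := by
  have hcoeff' : (qExpand L N f).coeff ((N : ℤ) * f.order) ≠ 0 := by
    rw [qExpand_coeff_mul]
    exact fun h0 => hf (HahnSeries.coeff_order_eq_zero.mp h0)
  have hne : qExpand L N f ≠ 0 := HahnSeries.ne_zero_of_coeff_ne_zero hcoeff'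
  have hbelow : ∀ k : ℤ, k < (N : ℤ) * f.order → (qExpand L N f).coeff k = 0 := by
    intro k hk
    by_cases hdvd : (N : ℤ) ∣ k
    · obtain ⟨j, rfl⟩ := hdvd
      rw [qExpand_coeff_mul]
      refine HahnSeries.coeff_eq_zero_of_lt_order ?_
      have hp : (0 : ℤ) < (N : ℤ) := by exact_mod_cast Nat.pos_of_ne_zero (NeZero.ne N)
      exact lt_of_mul_lt_mul_left hk hp.le
    · exact qExpand_coeff_of_not_dvd N f hdvd
  refine le_antisymm (HahnSeries.order_le_of_coeff_ne_zero hcoeff') ?_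
  by_contra hlt
  rw [not_le] at hlt
  exact hne (HahnSeries.coeff_order_eq_zero.mp (hbelow _ hlt))

theorem igDat_order_jqModC (L : Type*) [Field L] : (jqModC L).order = -1 := by
  have h1 : (jqModC L).coeff (-1 : ℤ) ≠ 0 := by
    rw [coeff_jqModC_neg_one]
    exact one_ne_zero
  have hle : (jqModC L).order ≤ -1 := HahnSeries.order_le_of_coeff_ne_zero h1
  refine le_antisymm hle ?_
  by_contra hlt
  rw [not_le] at hlt
  have hne : jqModC L ≠ 0 := jqModC_ne_zero_of_nontrivial L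
  exact hne (HahnSeries.coeff_order_eq_zero.mp (coeff_jqModC_of_lt L hlt))

theorem order_qExpand_jqModC (L : Type*) [Field L] (M : ℕ) [NeZero M] :
    (qExpand L M (jqModC L)).order = -(M : ℤ) := by
  rw [igDat_order_qExpand M (jqModC_ne_zero_of_nontrivial L), igDat_order_jqModC]
  ring

theorem order_exp_jAHb (M : ℕ) [NeZero M] : (expAHb M (jAHb M)).order < 0 := by
  rw [exp_jAHb, order_qExpand_jqModC]
  have : (0 : ℤ) < (M : ℤ) := by exact_mod_cast Nat.pos_of_ne_zero (NeZero.ne M)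
  linarith

theorem leadingCoeff_exp_jAHb (M : ℕ) [NeZero M] :
    (expAHb M (jAHb M)).leadingCoeff = 1 := by
  rw [exp_jAHb, HahnSeries.leadingCoeff_eq, order_qExpand_jqModC]
  have h : (-(M : ℤ)) = (M : ℤ) * (-1) := by ring
  rw [h, qExpand_coeff_mul, coeff_jqModC_neg_one]

/-! ### (c) -/

theorem gw_invariant (M : ℕ) [NeZero M] :
    ∀ f : AHb M, (∀ g : GW M, g • f = f) →
      ∃ P : Polynomial Kbar, f = Polynomial.aeval (jAHb M) P := by
  intro f hf
  obtain ⟨P, hP⟩ := exists_aeval_jAHb_of_invariant M f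
    (fun γ => by have := hf (QuotientGroup.mk γ); rwa [GW.mk_smul] at this)
  exact ⟨P, hP.symm⟩

/-! ### (d) -/

theorem gw_T_stable (A : ValuationSubring Kbar) (M : ℕ) [NeZero M] :
    ∀ b ∈ igSub A (GW M) (expAHb M), IsRedZero A (expAHb M b) →
      IsRedZero A (expAHb M (tW M • b)) := by
  intro b _ hb
  obtain ⟨b', hb', ζ, hζ, hcoeff⟩ := (hasExp_expAHb b).T_smul
  have e : expAHb M (tW M • b) = b' := expAHb_eq (f := tW M • b) hb'
  have hζM : ζ ^ M = 1 := by
    apply iota_injective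
    rw [map_pow, hζ, map_one, ← Complex.exp_nat_mul]
    have hM : (M : ℂ) ≠ 0 := by exact_mod_cast NeZero.ne M
    have : (M : ℂ) * (2 * Real.pi * Complex.I / M) = 2 * Real.pi * Complex.I := by
      field_simp
    rw [this]
    exact Complex.exp_two_pi_mul_I
  have hv : A.valuation ζ = 1 := igu_val_zeta A hζM
  intro n
  rw [e, hcoeff n, map_mul, map_zpow₀, map_inv₀, hv, inv_one, one_zpow, one_mul]
  exact hb n

/-! ### (e) -/

theorem gw_normalClosure (M : ℕ) (_h : IgNCStatement) :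
    Subgroup.normalClosure {tW M} = ⊤ :=
  igGrp_normalClosure_map (QuotientGroup.mk' (CongruenceSubgroup.Gamma M))
    (QuotientGroup.mk'_surjective _)

/-! ### (f) -/

theorem gw_conj (M : ℕ) [NeZero M] (_h : IgConjStatement) :
    ∀ h ∈ (CongruenceSubgroup.Gamma0 M).map (QuotientGroup.mk' (CongruenceSubgroup.Gamma M)),
      ∃ n : ℤ, ∀ b : AHb M, (h * tW M * h⁻¹) • b = tW M ^ n • b := by
  rintro _ ⟨h, hh, rfl⟩
  refine ⟨h 0 0 ^ 2, fun b => ?_⟩
  have h1 := igGrp_conj_T_smul (X := AHb M) M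
    (fun γ hγ x => Subtype.ext (smul_eq_of_mem_AHb x.2 hγ)) h hh b
  have e1 : (QuotientGroup.mk' (CongruenceSubgroup.Gamma M)) h * tW M *
      ((QuotientGroup.mk' (CongruenceSubgroup.Gamma M)) h)⁻¹
      = (QuotientGroup.mk (h * ModularGroup.T * h⁻¹) : GW M) := rfl
  have e2 : tW M ^ (h 0 0 ^ 2 : ℤ) = (QuotientGroup.mk (ModularGroup.T ^ (h 0 0 ^ 2 : ℤ)) : GW M) :=
    (map_zpow (QuotientGroup.mk' (CongruenceSubgroup.Gamma M)) ModularGroup.T _).symm
  rw [e1, e2, GW.mk_smul, GW.mk_smul]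
  exact h1

/-! ### (g) -/

theorem gw_index (M : ℕ) (H : Subgroup SL(2, ℤ)) (hH : CongruenceSubgroup.Gamma M ≤ H) :
    (H.map (QuotientGroup.mk' (CongruenceSubgroup.Gamma M))).index = H.index := by
  refine Subgroup.index_map_eq H (QuotientGroup.mk'_surjective _) ?_
  rw [QuotientGroup.ker_mk']
  exact hH

end Fermat.Agent.S48WG
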