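/-
S48 wall (W), block G-RED, seat G-IGUSA, leaf IG-CONJ (helper93): `h T h⁻¹ ≡ T^(a²)` modulo
`Γ(M)` for `h ∈ Γ₀(M)`, `a = h₀₀`.
-/
import Mathlib
import Fermat.Agent.S48.W.G.Red.Igusa.LeafDefs
import Fermat.Agent.S48.W.G.Red.Igusa.GroupT

set_option autoImplicit false

namespace Fermat.Agent.S48WG

open scoped MatrixGroups

/-- **(IG-CONJ)**, explicit exponent `n = (h 0 0)²`. -/
theorem igConj_explicit (M : ℕ) (h : SL(2, ℤ)) (hh : h ∈ CongruenceSubgroup.Gamma0 M) :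
    h * ModularGroup.T * h⁻¹ * (ModularGroup.T ^ (h 0 0 ^ 2 : ℤ))⁻¹ ∈ CongruenceSubgroup.Gamma M := by
  have hmem := igGrp_conj_T_mem M h hh
  have hn : (CongruenceSubgroup.Gamma M).Normal := CongruenceSubgroup.Gamma_normal M
  have h2 := hn.conj_mem _ hmem (ModularGroup.T ^ (h 0 0 ^ 2 : ℤ))
  have e : ModularGroup.T ^ (h 0 0 ^ 2 : ℤ) *
      ((ModularGroup.T ^ (h 0 0 ^ 2 : ℤ))⁻¹ * (h * ModularGroup.T * h⁻¹)) *
        (ModularGroup.T ^ (h 0 0 ^ 2 : ℤ))⁻¹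
      = h * ModularGroup.T * h⁻¹ * (ModularGroup.T ^ (h 0 0 ^ 2 : ℤ))⁻¹ := by
    group
  rwa [e] at h2

/-- **(IG-CONJ)**. -/
theorem igConj : IgConjStatement := fun M _ h hh => ⟨h 0 0 ^ 2, igConj_explicit M h hh⟩

end Fermat.Agent.S48WG
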