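/-
S48 wall (W), block G-RED, seat G-IGUSA, leaf IG-NC (helper93): the conjugates of `T` generate
`SL₂(ℤ)`.
-/
import Mathlib
import Fermat.Agent.S48.W.G.Red.Igusa.LeafDefs
import Fermat.Agent.S48.W.G.Red.Igusa.GroupT

set_option autoImplicit false

namespace Fermat.Agent.S48WG

/-- **(IG-NC)**. -/
theorem igNC : IgNCStatement :=
  igGrp_normalClosure_T

end Fermat.Agent.S48WG
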