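/-
S48 wall (W), block G-RED, seat G-IGUSA: the INSTANTIATION (IG-INST).  helper59.

`igusaOne_of`: Dedekind's argument (`IgAbsStatement`) applied to `R = AHb M`, `G = GW M`,
`ex = expAHb M`, `j = jAHb M`, `t = T`, `(y₀, H₀)` from IG-DAT-J, `(y₁, H₁)` from IG-DAT-Y, the
cluster B input IG-B, the characteristic zero degree IG-DEG0 and the glue IG-GLUE give the
deliverable `IgusaOneStatement`.

`IgDatGStatement` bundles the group-side facts (helper24, `Igusa/DatGroup.lean`).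
-/
import Mathlib
import Fermat.Agent.S48.W.G.Red.Igusa.DatDefs
import Fermat.Agent.S48.W.G.Red.Igusa.DatGroup
import Fermat.Agent.S48.W.G.Red.Igusa.GroupNC
import Fermat.Agent.S48.W.G.Red.Igusa.GroupConj
import Fermat.Agent.S48.W.G.Red.Int

set_option autoImplicit false
set_option synthInstance.maxHeartbeats 400000

noncomputable section

namespace Fermat.Agent.S48WG

open UpperHalfPlane ModularCurve AlgebraicCurve IntermediateField
open Fermat.Agent.S24 Fermat.Agent.S48W Fermat.Agent.S48WA1 Fermat.Agent.S48WKron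
open Fermat.Agent.GaussInt Fermat.Agent.RR
open scoped MatrixGroups Real

/-- (IG-DAT-G) the group-side hypotheses of Dedekind's argument for `AHb M`. -/
def IgDatGStatement : Prop :=
  ∀ (M : ℕ) [NeZero M] (A : ValuationSubring Kbar),
    (∀ g : GW M, g • jAHb M = jAHb M) ∧
    expAHb M (jAHb M) = qExpand Kbar M (jqModC Kbar) ∧
    IsIntK A (qExpand Kbar M (jqModC Kbar)) ∧
    (qExpand Kbar M (jqModC Kbar)).order < 0 ∧
    (qExpand Kbar M (jqModC Kbar)).leadingCoeff = 1 ∧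
    (∀ f : AHb M, (∀ g : GW M, g • f = f) →
      ∃ P : Polynomial Kbar, f = Polynomial.aeval (jAHb M) P) ∧
    (∀ b ∈ igSub A (GW M) (expAHb M), IsRedZero A (expAHb M b) →
      IsRedZero A (expAHb M (tW M • b))) ∧
    Subgroup.normalClosure {tW M} = ⊤ ∧
    (∀ h ∈ (CongruenceSubgroup.Gamma0 M).map (QuotientGroup.mk' (CongruenceSubgroup.Gamma M)),
      ∃ n : ℤ, ∀ b : AHb M, (h * tW M * h⁻¹) • b = tW M ^ n • b) ∧
    (CongruenceSubgroup.Gamma M ≤ CongruenceSubgroup.Gamma0 M) ∧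
    ∀ H : Subgroup SL(2, ℤ), CongruenceSubgroup.Gamma M ≤ H →
      (H.map (QuotientGroup.mk' (CongruenceSubgroup.Gamma M))).index = H.index

/-- `Γ(M) ≤ Γ₀(M)`. -/
theorem gamma_le_gamma0W (M : ℕ) :
    CongruenceSubgroup.Gamma M ≤ CongruenceSubgroup.Gamma0 M := by
  intro γ hγ
  rw [CongruenceSubgroup.Gamma_mem] at hγ
  rw [CongruenceSubgroup.Gamma0_mem]
  exact hγ.2.2.1

/-- **IG-DAT-G** (helper24's `DatGroup.lean`, bundled). -/
theorem igDatG : IgDatGStatement := fun M _ A =>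
  ⟨gw_smul_jAHb M, exp_jAHb M, by rw [← exp_jAHb]; exact isIntK_exp_jAHb A M,
    by rw [← exp_jAHb]; exact order_exp_jAHb M, by rw [← exp_jAHb]; exact leadingCoeff_exp_jAHb M,
    gw_invariant M, gw_T_stable A M, gw_normalClosure M igNC, gw_conj M igConj,
    gamma_le_gamma0W M, fun H hH => gw_index M H hH⟩

/-- `j(q^M)` lies in `ℚ̄ F₁(M)`. -/
theorem jM_mem_FOneBar (M : ℕ) [NeZero M] :
    qExpand Kbar M (jqModC Kbar) ∈ laurentBaseChange Kbar (FOne M) := by
  have h1 : qExpand ℚ M jq ∈ FOne M := full_le_FOne M (jqd_mem_full M (dvd_refl M))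
  have h2 := coeffEmb_mem_laurentBaseChange Kbar h1
  have h3 : coeffEmb Kbar (qExpand ℚ M jq) = qExpand Kbar M (jqModC Kbar) := by
    unfold coeffEmb
    rw [coeffMap_qExpand, ← jqModC_rat, coeffMap_jqModC]
  rw [← h3]
  exact h2

/-- `y₁`'s expansion lies in `ℚ̄ F₁(M)`. -/
theorem yOneExp_mem_FOneBar (M : ℕ) [NeZero M] (hM : 2 ≤ M) :
    HahnSeries.C (12⁻¹ : Kbar) * (coeffEmb Kbar (fricke M 1) - qExpand Kbar M (jqModC Kbar)) ∈
      laurentBaseChange Kbar (FOne M) := by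
  have h1 : (1 : ZMod M) ≠ 0 := by
    have : Fact (1 < M) := ⟨hM⟩
    exact one_ne_zero
  have h2 : coeffEmb Kbar (fricke M 1) ∈ laurentBaseChange Kbar (FOne M) :=
    coeffEmb_mem_laurentBaseChange Kbar (fricke_mem M h1)
  have h3 : HahnSeries.C (12⁻¹ : Kbar) ∈ laurentBaseChange Kbar (FOne M) := by
    have e : HahnSeries.C (12⁻¹ : Kbar) = algebraMap Kbar (LaurentSeries Kbar) (12⁻¹ : Kbar) := by
      rw [ig_algebraMap_eq_single]
      rfl
    rw [e]
    exact (laurentBaseChange Kbar (FOne M)).algebraMap_mem (12⁻¹ : Kbar)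
  exact mul_mem h3 (sub_mem h2 (jM_mem_FOneBar M))

/-- **IG-INST**: the assembly of G-IGUSA. -/
theorem igusaOne_of (hAbs : IgAbsStatement) (hG : IgDatGStatement) (hJ : IgDatJStatement)
    (hB : IgBStatement) (hY : IgDatYStatement) (hD : IgDeg0Statement) (hGl : IgGlueStatement) :
    IgusaOneStatement := by
  intro M _ hM p hp hpM A hA
  obtain ⟨y₀, hy₀exp, hy₀⟩ := hJ M p hp hpM A hA
  obtain ⟨y₁, hy₁fun, hy₁exp, hy₁⟩ := hY M hM p hp hpM A hA
  obtain ⟨hBsep, hBdeg⟩ := hB M p hp hpM A hA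
  obtain ⟨ga, gb, gc, gd, ge, gf, gg, gh, gi, gj, gk⟩ := hG M A
  -- the stabiliser of `y₁` contains `Γ(M)`
  have hstab : CongruenceSubgroup.Gamma M ≤ MulAction.stabilizer SL(2, ℤ) (yOneFun M) := by
    intro γ hγ
    rw [MulAction.mem_stabilizer_iff, ← hy₁fun]
    exact smul_eq_of_mem_AHb (y₁ ()).2 hγ
  -- Dedekind
  have e₀ : (fun i => expAHb M (y₀ i)) = jdFamExp M := funext hy₀exp
  have key := hAbs Kbar A (AHb M) (GW M) (expAHb M) (jAHb M) (tW M) (Fin M) y₀
    ((CongruenceSubgroup.Gamma0 M).map (QuotientGroup.mk' (CongruenceSubgroup.Gamma M)))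
    Unit y₁
    ((MulAction.stabilizer SL(2, ℤ) (yOneFun M)).map
      (QuotientGroup.mk' (CongruenceSubgroup.Gamma M)))
    ga (by rw [gb]; exact gc) (by rw [gb]; exact gd) (by rw [gb]; exact ge) gf gg gh hy₀ gi
    (by rw [gb, e₀]; exact hBsep)
    (by rw [gb, e₀, gk _ gj]; exact hBdeg)
    hy₁
  rw [gb, gk _ hstab] at key
  obtain ⟨hsep, hfin, hdeg⟩ := key
  -- the base function
  have hxF := jM_mem_FOneBar M
  have hxint : IsIntK A (qExpand Kbar M (jqModC Kbar)) := gc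
  have hx : qExpand Kbar M (jqModC Kbar) ∈ gaussSub A (laurentBaseChange Kbar (FOne M)) := by
    obtain ⟨Y, hY⟩ := isIntK_iff_mem_range.mp hxint
    rw [← hY]
    exact emb_mem_gaussSub (by rw [hY]; exact hxF)
  refine ⟨_, hx, rfl, ?_⟩
  obtain ⟨hD1, hD2⟩ := hD M hM (barElt hx) rfl
  have hy₁int : IsIntK A (expAHb M (y₁ ())) := isIntK_of_mem_igSub A (hy₁.1 ())
  exact hGl A (FOne M) p hp hA (isIntGen_FOne (A := A) M) _ hx hxint gd ge Unit
    (fun i => expAHb M (y₁ i))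
    (fun i => by
      cases i
      rw [hy₁exp]
      exact yOneExp_mem_FOneBar M hM)
    (fun i => by cases i; exact hy₁int)
    (MulAction.stabilizer SL(2, ℤ) (yOneFun M)).index hD1 hD2 hsep hfin hdeg

end Fermat.Agent.S48WG
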