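/-
S48 wall (W), block G-RED, seat G-IGUSA: FINAL wiring (helper59).

`igusaOne : IgusaOneStatement` and `goodRedOneFive M : GoodRedOneFive M` (`M ≥ 2`), UNCONDITIONAL:
all the leaves of G-IGUSA, G-BRANCH and G-ASM plugged in.
-/
import Mathlib
import Fermat.Agent.S48.W.G.Red.Igusa.Inst
import Fermat.Agent.S48.W.G.Red.Igusa.Abs
import Fermat.Agent.S48.W.G.Red.Igusa.DatJ
import Fermat.Agent.S48.W.G.Red.Igusa.DatY
import Fermat.Agent.S48.W.G.Red.Igusa.F1
import Fermat.Agent.S48.W.G.Red.Igusa.ClusterB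
import Fermat.Agent.S48.W.G.Red.Igusa.Glue
import Fermat.Agent.S48.W.G.Red.Asm5
import Fermat.Agent.S48.W.G.Red.Branch.EmbA
import Fermat.Agent.S48.W.G.Red.Igusa.Deg0

set_option autoImplicit false
set_option synthInstance.maxHeartbeats 400000

noncomputable section

namespace Fermat.Agent.S48WG

/-- **G-IGUSA** from the characteristic zero degree bound IG-DEG0. -/
theorem igusaOne_of_deg0 (hD : IgDeg0Statement) : IgusaOneStatement :=
  igusaOne_of igAbs igDatG igDatJ igB (igDatY igF1) hD igGlue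

/-- **G-RED at `p ≥ 5`** from IG-DEG0. -/
theorem goodRedOneFive_of_deg0 (hD : IgDeg0Statement) (M : ℕ) [NeZero M] (hM : 2 ≤ M) :
    GoodRedOneFive M :=
  gAsmFive (igusaOne_of_deg0 hD) branchOne M hM

/-- **G-IGUSA, UNCONDITIONAL**: `x = j(q^M)` is a base function of the Gauss ring of `ℚ̄ F₁(M)`
(`M ≥ 2`) at every place over a prime `p ∤ M` (including `p = 2, 3`). -/
theorem igusaOne : IgusaOneStatement := igusaOne_of_deg0 igDeg0

/-- **G-RED at `p ≥ 5`, UNCONDITIONAL**: the good reduction input `RedInput A (FOne M)` at every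
place over a prime `p ≥ 5`, `p ∤ M` (`M ≥ 2`). -/
theorem goodRedOneFive (M : ℕ) [NeZero M] (hM : 2 ≤ M) : GoodRedOneFive M :=
  goodRedOneFive_of_deg0 igDeg0 M hM

end Fermat.Agent.S48WG
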